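import Fermat.Prelude.Def_AlgebraicCurve_DivisorClassGroup
import Fermat.Prelude.Def_AlgebraicCurve_Repartitions
import Fermat.Prelude.Def_AlgebraicCurve_IsCurveOver
import Mathlib.LinearAlgebra.LinearIndependent.Basic
import Mathlib.LinearAlgebra.FiniteDimensional.Lemmas
import Mathlib.FieldTheory.Galois.Basic
import Mathlib.LinearAlgebra.Dimension.Constructions

/-!
# A bound for the number of embeddings inducing the same place

If `σ i : F → Ω` are distinct field embeddings which agree on `L(t)` and all pull back a
valuation `w` of `Ω` to a power of the same place `v` (with residue field `L`), then their number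
is at most `v.ord t`.
-/

set_option autoImplicit false

open AlgebraicCurve WithZero

namespace Fermat.Agent.X0Places

section

variable {L F : Type*} [Field L] [Field F] [Algebra L F]

theorem adic_le_iff (v : Place L F) (x : F) (n : ℤ) :
    v.adicValuation x ≤ exp (-n) ↔ x = 0 ∨ n ≤ v.ord x := by
  rw [v.adicValuation_le_exp_iff, neg_neg]

/-- residue field of `v` is `L`, in elementary form -/
def ResL (v : Place L F) : Prop :=
  ∀ x : F, x ≠ 0 → v.ord x = 0 → ∃ c : L, v.adicValuation (x - algebraMap L F c) ≤ exp (-1)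

theorem resL_of_bijective (v : Place L F)
    (h : Function.Surjective (algebraMap L v.ResidueField)) : ResL v := by
  intro x hx hx0
  have hxmem : x ∈ v.toValuationSubring := by
    have h1 : v.adicValuation x ≤ 1 := by
      rw [v.adicValuation_eq_exp_neg_ord hx, hx0]; simp
    obtain ⟨π, hπ⟩ := IsDiscreteValuationRing.exists_irreducible v.toValuationSubring
    obtain ⟨u, hu⟩ := v.exists_unit_mul_zpow hx hπ
    rw [hx0, zpow_zero, mul_one] at hu
    rw [hu]
    exact (u : v.toValuationSubring).2
  obtain ⟨c, hc⟩ := h (IsLocalRing.residue v.toValuationSubring ⟨x, hxmem⟩)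
  refine ⟨c, ?_⟩
  have h2 : (⟨x, hxmem⟩ - algebraMap L v.toValuationSubring c : v.toValuationSubring) ∈
      IsLocalRing.maximalIdeal v.toValuationSubring := by
    rw [← IsLocalRing.residue_eq_zero_iff, map_sub, ← hc, sub_eq_zero]
    rfl
  set y : v.toValuationSubring := ⟨x, hxmem⟩ - algebraMap L v.toValuationSubring c with hy
  have h3 : x - algebraMap L F c = (y : F) := by simp [hy]
  rw [h3, v.adicValuation_coe]
  have h4 : y ∈ v.heightOneSpectrum.asIdeal := by
    rw [v.heightOneSpectrum_asIdeal]; exact h2
  have := (v.heightOneSpectrum.intValuation_le_pow_iff_mem y 1).2 (by simpa using h4)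
  simpa using this

theorem resL_of_isAlgClosed [IsAlgClosed L] (v : Place L F) [Module.Finite L v.ResidueField] :
    ResL v := by
  apply resL_of_bijective
  have : Algebra.IsIntegral L v.ResidueField := Algebra.IsIntegral.of_finite L v.ResidueField
  exact (IsAlgClosed.algebraMap_bijective_of_isIntegral).2

/-- the additive subgroup of `F` spanned by the elements `c * t^a * u^k`, `k < e` -/
def spanTU (L : Type*) {F : Type*} [Field L] [Field F] [Algebra L F] (t u : F) (e : ℕ) :
    AddSubgroup F :=
  AddSubgroup.closure {y | ∃ (c : L) (a : ℤ) (k : ℕ), k < e ∧ y = algebraMap L F c * t ^ a * u ^ k}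

theorem exists_approx (v : Place L F) (hres : ResL v) (t u : F) (e : ℕ) (he : v.ord t = e)
    (hepos : 0 < e) (hu : v.ord u = 1) (x : F) (M : ℕ) (M0 : ℤ)
    (hM0 : v.adicValuation x ≤ exp (-M0)) :
    ∃ y ∈ spanTU L t u e, v.adicValuation (x - y) ≤ exp (-(M0 + M)) := by
  have ht0 : t ≠ 0 := by
    rintro rfl
    rw [v.ord_zero] at he
    omega
  have hu0 : u ≠ 0 := by
    rintro rfl
    rw [v.ord_zero] at hu
    omega
  induction M with
  | zero => exact ⟨0, zero_mem _, by simpa using hM0⟩
  | succ M ih =>
    obtain ⟨y, hy, hxy⟩ := ih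
    rcases eq_or_ne (x - y) 0 with h0 | h0
    · exact ⟨y, hy, by rw [h0]; simp⟩
    · rw [adic_le_iff] at hxy
      have hle := hxy.resolve_left h0
      rcases hle.lt_or_eq with hlt | heq
      · refine ⟨y, hy, ?_⟩
        rw [adic_le_iff]
        right
        push_cast
        omega
      · -- ord (x - y) = M0 + M =: m
        set m : ℤ := M0 + M with hm
        set a : ℤ := m / e with ha
        set k : ℕ := (m % e).toNat with hk
        have hepos' : (0 : ℤ) < e := by exact_mod_cast hepos
        have hk1 : (k : ℤ) = m % e := Int.toNat_of_nonneg (Int.emod_nonneg _ hepos'.ne')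
        have hke : k < e := by
          have := Int.emod_lt_of_pos m hepos'
          omega
        have hsum : e * a + k = m := by
          rw [hk1, ha]; exact Int.mul_ediv_add_emod m e
        have htu0 : t ^ a * u ^ k ≠ 0 := mul_ne_zero (zpow_ne_zero _ ht0) (pow_ne_zero _ hu0)
        have hordtu : v.ord (t ^ a * u ^ k) = m := by
          rw [v.ord_mul (zpow_ne_zero _ ht0) (pow_ne_zero _ hu0), v.ord_zpow,
            show u ^ k = u ^ (k : ℤ) from (zpow_natCast u k).symm, v.ord_zpow, he, hu]
          rw [← hsum]; ring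
        set z : F := (x - y) * (t ^ a * u ^ k)⁻¹ with hz
        have hz0 : z ≠ 0 := mul_ne_zero h0 (inv_ne_zero htu0)
        have hordz : v.ord z = 0 := by
          rw [hz, v.ord_mul h0 (inv_ne_zero htu0), v.ord_inv, hordtu, ← heq]; ring
        obtain ⟨c, hc⟩ := hres z hz0 hordz
        refine ⟨y + algebraMap L F c * t ^ a * u ^ k,
          add_mem hy (AddSubgroup.subset_closure ⟨c, a, k, hke, rfl⟩), ?_⟩
        have h5 : x - (y + algebraMap L F c * t ^ a * u ^ k) =
            (z - algebraMap L F c) * (t ^ a * u ^ k) := by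
          rw [hz]; field_simp; ring
        rw [h5, map_mul, v.adicValuation_eq_exp_neg_ord htu0, hordtu]
        calc v.adicValuation (z - algebraMap L F c) * exp (-m) ≤ exp (-1) * exp (-m) :=
              mul_le_mul_left hc _
          _ = exp (-(M0 + (M + 1 : ℕ))) := by
              rw [← exp_add]; congr 1; push_cast; omega

/-- Main bound. -/
theorem card_le_ord {Ω : Type*} [Field Ω] (v : Place L F) (hres : ResL v)
    (w : Valuation Ω ℤᵐ⁰) {ι : Type*} [Fintype ι] (σ : ι → (F →+* Ω))
    (hσ : Function.Injective σ)
    (hL : ∀ (i j : ι) (c : L), σ i (algebraMap L F c) = σ j (algebraMap L F c))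
    (t : F) (ht : ∀ i j : ι, σ i t = σ j t) (e : ℕ) (he : v.ord t = e) (hepos : 0 < e)
    (e' : ℕ) (he' : 0 < e')
    (hw : ∀ (i : ι) (x : F), x ≠ 0 → w (σ i x) = exp (-((e' : ℤ) * v.ord x))) :
    Fintype.card ι ≤ e := by
  classical
  by_contra hcon
  push Not at hcon
  obtain ⟨π, hπ⟩ := IsDiscreteValuationRing.exists_irreducible v.toValuationSubring
  set u : F := (π : F) with hu
  have hordu : v.ord u = 1 := v.ord_coe_irreducible hπ
  -- a nonzero vector of coefficients
  have hex : ∃ c : ι → Ω, c ≠ 0 ∧ ∀ k : Fin e, ∑ i, c i * (σ i u) ^ (k : ℕ) = 0 := by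
    let T : (ι → Ω) →ₗ[Ω] (Fin e → Ω) :=
      { toFun := fun c k => ∑ i, c i * (σ i u) ^ (k : ℕ)
        map_add' := fun a b => by
          funext k
          simp [add_mul, Finset.sum_add_distrib]
        map_smul' := fun a b => by
          funext k
          simp [mul_assoc, Finset.mul_sum] }
    have hker : LinearMap.ker T ≠ ⊥ := by
      apply LinearMap.ker_ne_bot_of_finrank_lt
      simpa using hcon
    obtain ⟨c, hc, hc0⟩ := Submodule.exists_mem_ne_zero_of_ne_bot hker
    refine ⟨c, hc0, fun k => ?_⟩
    exact congrFun (LinearMap.mem_ker.1 hc) k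
  obtain ⟨c, hc0, hc⟩ := hex
  have hne : Nonempty ι := by
    by_contra h
    rw [not_nonempty_iff] at h
    exact hc0 (Subsingleton.elim _ _)
  obtain ⟨i0⟩ := hne
  -- the functional vanishes on spanTU
  have hspan : ∀ y ∈ spanTU L t u e, ∑ i, c i * σ i y = 0 := by
    intro y hy
    induction hy using AddSubgroup.closure_induction with
    | mem y hy =>
      obtain ⟨b, a, k, hk, rfl⟩ := hy
      have : ∀ i, c i * σ i (algebraMap L F b * t ^ a * u ^ k) =
          σ i0 (algebraMap L F b * t ^ a) * (c i * (σ i u) ^ k) := by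
        intro i
        rw [map_mul, map_mul, map_zpow₀, map_pow, hL i i0, ht i i0, map_mul, map_zpow₀]
        ring
      rw [Finset.sum_congr rfl fun i _ => this i, ← Finset.mul_sum, hc ⟨k, hk⟩, mul_zero]
    | zero => simp
    | add y z _ _ hy hz =>
      rw [Finset.sum_congr rfl fun i _ => by rw [map_add, mul_add], Finset.sum_add_distrib, hy, hz,
        add_zero]
    | neg y _ hy =>
      rw [Finset.sum_congr rfl fun i _ => by rw [map_neg, mul_neg], Finset.sum_neg_distrib, hy,
        neg_zero]
  -- hence it vanishes identically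
  have hzero : ∀ x : F, ∑ i, c i * σ i x = 0 := by
    intro x
    by_contra hx
    have hwx : w (∑ i, c i * σ i x) ≠ 0 := (Valuation.ne_zero_iff _).2 hx
    obtain ⟨C, hC⟩ : ∃ C : ℤ, ∀ i, w (c i) ≤ exp C := by
      have : ∀ i, ∃ C : ℤ, w (c i) ≤ exp C := by
        intro i
        rcases eq_or_ne (w (c i)) 0 with h | h
        · exact ⟨0, by rw [h]; simp⟩
        · exact ⟨log (w (c i)), by rw [exp_log h]⟩
      choose C hC using this
      refine ⟨∑ i, |C i|, fun i => (hC i).trans ?_⟩
      rw [exp_le_exp]
      exact (le_abs_self _).trans (Finset.single_le_sum (f := fun i => |C i|)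
        (fun _ _ => abs_nonneg _) (Finset.mem_univ i))
    obtain ⟨M0, hM0⟩ : ∃ M0 : ℤ, v.adicValuation x ≤ exp (-M0) := by
      rcases eq_or_ne x 0 with h | h
      · exact ⟨0, by rw [h]; simp⟩
      · exact ⟨v.ord x, by rw [v.adicValuation_eq_exp_neg_ord h]⟩
    set D : ℤ := log (w (∑ i, c i * σ i x)) with hD
    -- choose M large
    obtain ⟨M, hM⟩ : ∃ M : ℕ, C - (M0 + M) < D ∧ 0 ≤ M0 + M := by
      refine ⟨(C - M0 - D).toNat + 1 + M0.natAbs, ?_, ?_⟩
      · have := Int.self_le_toNat (C - M0 - D)
        push_cast
        have := abs_nonneg M0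
        omega
      · push_cast
        have := neg_abs_le M0
        omega
    obtain ⟨y, hy, hxy⟩ := exists_approx v hres t u e he hepos hordu x M M0 hM0
    have h6 : ∑ i, c i * σ i x = ∑ i, c i * σ i (x - y) := by
      have h6' : ∀ i, c i * σ i (x - y) = c i * σ i x - c i * σ i y := fun i => by
        rw [map_sub, mul_sub]
      rw [Finset.sum_congr rfl fun i _ => h6' i, Finset.sum_sub_distrib, hspan y hy, sub_zero]
    have h7 : w (∑ i, c i * σ i x) ≤ exp (C - (M0 + M)) := by
      rw [h6]
      apply Valuation.map_sum_le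
      intro i _
      rw [map_mul]
      rcases eq_or_ne (x - y) 0 with h0 | h0
      · rw [h0]; simp
      · have h8 := (adic_le_iff v _ _).1 hxy
        have h9 := h8.resolve_left h0
        rw [hw i _ h0]
        calc w (c i) * exp (-((e' : ℤ) * v.ord (x - y)))
            ≤ exp C * exp (-(M0 + M)) := by
              apply mul_le_mul' (hC i)
              rw [exp_le_exp]
              have : (1 : ℤ) ≤ e' := by exact_mod_cast he'
              nlinarith [hM.2]
          _ = exp (C - (M0 + M)) := by rw [← exp_add]; rfl
    have h10 : w (∑ i, c i * σ i x) = exp D := by rw [hD, exp_log hwx]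
    rw [h10, exp_le_exp] at h7
    omega
  -- contradiction with linear independence of characters
  have hli : LinearIndependent Ω (fun f : F →* Ω => (f : F → Ω)) := linearIndependent_monoidHom F Ω
  have hli' : LinearIndependent Ω (fun i : ι => ((σ i : F →* Ω) : F → Ω)) := by
    have hinj : Function.Injective (fun i : ι => (σ i : F →* Ω)) := by
      intro i j hij
      apply hσ
      ext x
      exact DFunLike.congr_fun hij x
    exact hli.comp _ hinj
  rw [Fintype.linearIndependent_iff] at hli'
  apply hc0
  funext i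
  refine hli' c ?_ i
  funext x
  simpa using hzero x

end

end Fermat.Agent.X0Places
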