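import Fermat.Agent.FunField.DegreeFormula
import Fermat.Agent.X0Places.FiberBound

/-!
# The place attached to a `ℤ`-valued valuation
-/

set_option autoImplicit false

noncomputable section

open AlgebraicCurve WithZero

namespace Fermat.Agent.X0Places

variable {L F : Type*} [Field L] [Field F] [Algebra L F]

open Fermat.Agent.FunField Fermat.Agent.FunField.PlaceLemmas

/-- The place attached to a valuation with values in `ℤᵐ⁰`. -/
def placeOfVal [IsFF L F] (w : Valuation F ℤᵐ⁰) (hL : ∀ c : L, w (algebraMap L F c) ≤ 1)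
    (hne : ∃ x, 1 < w x) : Place L F :=
  placeOfValuationSubring w.valuationSubring (fun c => hL c) (by
    intro h
    obtain ⟨x, hx⟩ := hne
    have : x ∈ w.valuationSubring := by rw [h]; exact ValuationSubring.mem_top x
    exact absurd hx (not_lt.2 this))

theorem mem_placeOfVal [IsFF L F] (w : Valuation F ℤᵐ⁰) (hL : ∀ c : L, w (algebraMap L F c) ≤ 1)
    (hne : ∃ x, 1 < w x) (x : F) :
    x ∈ (placeOfVal w hL hne).toValuationSubring ↔ w x ≤ 1 := Iff.rfl

theorem exists_ramification [IsFF L F] (w : Valuation F ℤᵐ⁰)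
    (hL : ∀ c : L, w (algebraMap L F c) ≤ 1) (hne : ∃ x, 1 < w x) :
    ∃ e : ℕ, 0 < e ∧ ∀ x : F, x ≠ 0 → w x = exp (-((e : ℤ) * (placeOfVal w hL hne).ord x)) := by
  set v := placeOfVal w hL hne with hv
  obtain ⟨π, hπ0, hπ⟩ := exists_ord_eq_one v
  have h1 : w π < 1 := by
    have h2 : π⁻¹ ∉ v.toValuationSubring := by
      rw [mem_iff_ord_nonneg v (inv_ne_zero hπ0), v.ord_inv, hπ]
      norm_num
    rw [mem_placeOfVal, not_le, map_inv₀] at h2
    have h3 : w π ≠ 0 := (Valuation.ne_zero_iff _).2 hπ0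
    exact (one_lt_inv₀ (zero_lt_iff.2 h3)).1 h2
  have h3 : w π ≠ 0 := (Valuation.ne_zero_iff _).2 hπ0
  have hunit : ∀ x : F, x ≠ 0 → v.ord x = 0 → w x = 1 := by
    intro x hx hx0
    apply le_antisymm
    · rw [← mem_placeOfVal w hL hne, ← hv, mem_iff_ord_nonneg v hx, hx0]
    · have : w x⁻¹ ≤ 1 := by
        rw [← mem_placeOfVal w hL hne, ← hv, mem_iff_ord_nonneg v (inv_ne_zero hx), v.ord_inv, hx0,
          neg_zero]
      rw [map_inv₀, inv_le_one₀ (zero_lt_iff.2 ((Valuation.ne_zero_iff _).2 hx))] at this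
      exact this
  have hlog : log (w π) < 0 := by
    have := h1
    rw [← exp_log h3, ← exp_zero, exp_lt_exp] at this
    exact this
  refine ⟨(-log (w π)).toNat, by omega, fun x hx => ?_⟩
  have h4 : v.ord (x * π ^ (-(v.ord x))) = 0 := by
    rw [v.ord_mul hx (zpow_ne_zero _ hπ0), v.ord_zpow, hπ]; ring
  have h5 := hunit _ (mul_ne_zero hx (zpow_ne_zero _ hπ0)) h4
  rw [map_mul, map_zpow₀, zpow_neg, mul_inv_eq_one₀ (zpow_ne_zero _ h3)] at h5
  rw [h5, Int.toNat_of_nonneg (by omega)]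
  conv_lhs => rw [← exp_log h3]
  rw [← exp_zsmul, smul_eq_mul]
  congr 1
  ring

/-- the multiplicity `e` with `w x = exp (- e * ord x)` -/
def ramIdx [IsFF L F] (w : Valuation F ℤᵐ⁰)
    (hL : ∀ c : L, w (algebraMap L F c) ≤ 1) (hne : ∃ x, 1 < w x) : ℕ :=
  (exists_ramification w hL hne).choose

theorem ramIdx_pos [IsFF L F] (w : Valuation F ℤᵐ⁰)
    (hL : ∀ c : L, w (algebraMap L F c) ≤ 1) (hne : ∃ x, 1 < w x) : 0 < ramIdx w hL hne :=
  (exists_ramification w hL hne).choose_spec.1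

theorem val_eq_ramIdx [IsFF L F] (w : Valuation F ℤᵐ⁰)
    (hL : ∀ c : L, w (algebraMap L F c) ≤ 1) (hne : ∃ x, 1 < w x) {x : F} (hx : x ≠ 0) :
    w x = exp (-((ramIdx w hL hne : ℤ) * (placeOfVal w hL hne).ord x)) :=
  (exists_ramification w hL hne).choose_spec.2 x hx

theorem placeOfVal_eq_iff [IsFF L F] (w w' : Valuation F ℤᵐ⁰)
    (hL : ∀ c : L, w (algebraMap L F c) ≤ 1) (hne : ∃ x, 1 < w x)
    (hL' : ∀ c : L, w' (algebraMap L F c) ≤ 1) (hne' : ∃ x, 1 < w' x)
    (h : ∀ x, w x ≤ 1 ↔ w' x ≤ 1) : placeOfVal w hL hne = placeOfVal w' hL' hne' := by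
  apply Place.toValuationSubring_injective
  ext x
  exact h x

end Fermat.Agent.X0Places
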