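import Fermat.Agent.X0Places.Points
import Fermat.Agent.Gamma0Comb.Orbits

/-!
# Ramification of `j : X₀(N) → ℙ¹`
-/

set_option autoImplicit false

noncomputable section

open UpperHalfPlane Function ModularCurve Filter ModularForm AlgebraicCurve WithZero
open scoped Manifold MatrixGroups Topology ModularForm

namespace Fermat.Agent.X0Places

open Fermat.Agent.FunField Fermat.Agent.FunField.PlaceLemmas IntermediateField CongruenceSubgroup
open Fermat.Agent.JInv (rho)

variable (N : ℕ) [NeZero N]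

/-! ### local data of rotations -/

theorem ordJ_generic {τ : ℍ} (h4 : E₄ τ ≠ 0) (h6 : E₆ τ ≠ 0) : ordJ τ = 1 := by
  rw [ordJ, ordH, Fermat.Agent.JInv.order_jInv_generic h4 h6]; rfl

theorem ordJ_rho : ordJ rho = 3 := by
  rw [ordJ, ordH, Fermat.Agent.JInv.order_jInv_E4 Fermat.Agent.JInv.E4_rho]; rfl

theorem ordJ_I : ordJ UpperHalfPlane.I = 2 := by
  rw [ordJ, ordH, Fermat.Agent.JInv.order_jInv_E6 Fermat.Agent.JInv.E6_I]; rfl

theorem ST_smul_rho : (ModularGroup.S * ModularGroup.T) • rho = rho := by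
  rw [Fermat.Agent.JInv.stabilizer_rho]
  right; right; right; right; right
  ext i j
  fin_cases i <;> fin_cases j <;> rfl

theorem orderOf_derivAt_ST : orderOf (derivAt (ModularGroup.S * ModularGroup.T) rho) = 3 := by
  have hρ := Fermat.Agent.JInv.rho_sq
  have hρ0 : (rho : ℂ) ≠ 0 := rho.ne_zero
  have h10 : (ModularGroup.S * ModularGroup.T) 1 0 = 1 := rfl
  have h11 : (ModularGroup.S * ModularGroup.T) 1 1 = 1 := rfl
  have h1 : derivAt (ModularGroup.S * ModularGroup.T) rho = (rho : ℂ) ^ 2 := by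
    rw [derivAt, h10, h11]
    have h2 : (((1 : ℤ) : ℂ) * rho + ((1 : ℤ) : ℂ)) = -(rho : ℂ) ^ 2 := by
      push_cast; linear_combination hρ
    rw [h2]
    have h3 : (rho : ℂ) ^ 3 = 1 := by linear_combination ((rho : ℂ) - 1) * hρ
    field_simp
    linear_combination (-1 - (rho : ℂ) ^ 3) * h3
  rw [h1]
  have : Fact (Nat.Prime 3) := ⟨Nat.prime_three⟩
  apply orderOf_eq_prime
  · linear_combination ((rho : ℂ) ^ 3 + 1) * ((rho : ℂ) - 1) * hρ
  · intro h
    have h2 : (rho : ℂ) = -2 := by linear_combination hρ - h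
    rw [h2] at h
    norm_num at h

theorem orderOf_derivAt_S : orderOf (derivAt ModularGroup.S UpperHalfPlane.I) = 2 := by
  have h10 : ModularGroup.S 1 0 = 1 := rfl
  have h11 : ModularGroup.S 1 1 = 0 := rfl
  have h1 : derivAt ModularGroup.S UpperHalfPlane.I = -1 := by
    rw [derivAt, h10, h11, UpperHalfPlane.coe_I]
    push_cast
    rw [one_mul, add_zero, Complex.I_sq]
    norm_num
  rw [h1]
  have : Fact (Nat.Prime 2) := ⟨Nat.prime_two⟩
  apply orderOf_eq_prime
  · norm_num
  · norm_num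

theorem orderOf_derivAt_one (τ : ℍ) : orderOf (derivAt 1 τ) = 1 := by
  rw [orderOf_eq_one_iff, derivAt]
  simp

omit [NeZero N] in
theorem neg_one_smul (x : XN N) : (-1 : SL(2, ℤ)) • x = x := by
  induction x using QuotientGroup.induction_on with
  | H g =>
    show (((-1 : SL(2, ℤ)) * g : SL(2, ℤ)) : XN N) = g
    rw [QuotientGroup.eq, neg_one_mul]
    have h : (-g)⁻¹ * g = -1 := by
      rw [inv_mul_eq_iff_eq_mul]; simp
    rw [h, Gamma0_mem]
    simp

omit [NeZero N] in
theorem S_pow_two_smul (x : XN N) : ModularGroup.S ^ 2 • x = x := by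
  have h : ModularGroup.S ^ 2 = -1 := by
    ext i j
    fin_cases i <;> fin_cases j <;> rfl
  rw [h, neg_one_smul]

omit [NeZero N] in
theorem ST_pow_three_smul (x : XN N) : (ModularGroup.S * ModularGroup.T) ^ 3 • x = x := by
  have h : (ModularGroup.S * ModularGroup.T) ^ 3 = -1 := by
    ext i j
    fin_cases i <;> fin_cases j <;> rfl
  rw [h, neg_one_smul]

omit [NeZero N] in
/-- an element of prime order: fixed points or full orbits -/
theorem fix_or_card {g : SL(2, ℤ)} {p : ℕ} (hp : p.Prime) (x : XN N) (hg : g ^ p • x = x) :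
    g • x = x ∨ p ≤ Nat.card (MulAction.orbit (Subgroup.zpowers g) x) := by
  rw [card_orbit_eq]
  have h1 : minimalPeriod (g • ·) x ∣ p := MulAction.pow_smul_eq_iff_minimalPeriod_dvd.1 hg
  rcases (Nat.dvd_prime hp).1 h1 with h | h
  · left
    have h2 : minimalPeriod (g • ·) x ∣ 1 := by rw [h]
    have := MulAction.pow_smul_eq_iff_minimalPeriod_dvd.2 h2
    rwa [pow_one] at this
  · right
    rw [h]

theorem card_orbits_S :
    2 * Nat.card (MulAction.orbitRel.Quotient (Subgroup.zpowers ModularGroup.S) (XN N)) =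
      Nat.card (XN N) + nuTwo N := by
  have h1 := Fermat.Agent.Gamma0Comb.burnside_pow (Y := XN N) ModularGroup.S 2 (S_pow_two_smul N)
  refine h1.symm.trans ?_
  rw [Finset.sum_range_succ, Finset.sum_range_succ, Finset.sum_range_zero, pow_zero, pow_one,
    Fermat.Agent.Gamma0Comb.card_fixedBy_S, zero_add]
  congr 1
  apply Nat.card_congr
  exact (Equiv.Set.univ _).symm.trans (Equiv.setCongr (by ext x; simp)) |>.symm

theorem card_orbits_ST :
    3 * Nat.card (MulAction.orbitRel.Quotient (Subgroup.zpowers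
      (ModularGroup.S * ModularGroup.T)) (XN N)) = Nat.card (XN N) + 2 * nuThree N := by
  have h1 := Fermat.Agent.Gamma0Comb.burnside_pow (Y := XN N)
    (ModularGroup.S * ModularGroup.T) 3 (ST_pow_three_smul N)
  have h2 : MulAction.fixedBy (XN N) ((ModularGroup.S * ModularGroup.T) ^ 2) =
      MulAction.fixedBy (XN N) (ModularGroup.S * ModularGroup.T) := by
    ext x
    rw [MulAction.mem_fixedBy, MulAction.mem_fixedBy]
    have h3 := ST_pow_three_smul N x
    constructor
    · intro h
      have h4 : (ModularGroup.S * ModularGroup.T) ^ 3 =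
        (ModularGroup.S * ModularGroup.T) * (ModularGroup.S * ModularGroup.T) ^ 2 := by
        rw [pow_succ']
      rw [h4, mul_smul (ModularGroup.S * ModularGroup.T), h] at h3
      exact h3
    · intro h
      rw [pow_two, mul_smul (ModularGroup.S * ModularGroup.T), h, h]
  refine h1.symm.trans ?_
  rw [Finset.sum_range_succ, Finset.sum_range_succ, Finset.sum_range_succ,
    Finset.sum_range_zero, pow_zero, pow_one, h2,
    Fermat.Agent.Gamma0Comb.card_fixedBy_ST, zero_add]
  have h3 : Nat.card (MulAction.fixedBy (XN N) (1 : SL(2, ℤ))) = Nat.card (XN N) := by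
    apply Nat.card_congr
    exact (Equiv.Set.univ _).symm.trans (Equiv.setCongr (by ext x; simp)) |>.symm
  rw [h3]
  ring

/-! ### the places -/

variable {L : Type*} [Field L] [Algebra ℚ L] (ι : L →+* ℂ)
variable [IsFF L (FF L N)] [IsAlgClosed L]
  (hdeg : Module.finrank L⟮jF L N⟯ (FF L N) = Nat.card (XN N))

theorem jInv_generic {τ : ℍ} (h0 : Fermat.Agent.JInv.jInv τ ≠ 0)
    (h1 : Fermat.Agent.JInv.jInv τ ≠ 1728) : E₄ τ ≠ 0 ∧ E₆ τ ≠ 0 := by
  constructor
  · intro h
    apply h0
    rw [Fermat.Agent.JInv.jInv, h]; simp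
  · intro h
    apply h1
    have := Fermat.Agent.JInv.jInv_sub_1728 τ
    rw [h] at this
    linear_combination this

include ι hdeg in
/-- The map `j` is unramified outside `0, 1728, ∞`. -/
theorem ord_eq_one_of_generic (a : L) (h0 : a ≠ 0) (h1 : a ≠ 1728) (v : Place L (FF L N))
    (hv : 0 < v.ord (jF L N - algebraMap L (FF L N) a)) :
    v.ord (jF L N - algebraMap L (FF L N) a) = 1 := by
  obtain ⟨τ, hτ⟩ := Fermat.Agent.JInv.jInv_surjective (ι a)
  have hg := jInv_generic (τ := τ) (by rw [hτ]; simpa using h0) (by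
    rw [hτ]
    intro h
    apply h1
    apply ι.injective
    rw [h]; exact (map_ofNat ι 1728).symm)
  have hJ := ordJ_generic hg.1 hg.2
  have H := orbitHyp_tau ι N hdeg hτ (g := 1) (one_smul _ _) (by rw [orderOf_derivAt_one, hJ])
    (fun x => Or.inl (one_smul _ _))
  obtain ⟨x, rfl⟩ := H.exists_place v hv
  have h2 := H.ord_eq x
  rw [embTau_t] at h2
  rw [h2]
  have h3 := H.card_mul_idx x
  have h4 : (embTau ι N τ a hτ).e0 = 1 := hJ
  rw [h4] at h3
  have := Nat.eq_one_of_mul_eq_one_right h3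
  rw [this]
  rfl

include ι hdeg in
theorem card_places_zero :
    3 * Nat.card {v : Place L (FF L N) // 0 < v.ord (jF L N)} = Nat.card (XN N) + 2 * nuThree N ∧
    ∑ v ∈ (zeroDiv (jF L N) : Divisor L (FF L N)).support, (v.ord (jF L N) - 1) =
      (Nat.card (XN N) : ℤ) - Nat.card {v : Place L (FF L N) // 0 < v.ord (jF L N)} := by
  have hτ : Fermat.Agent.JInv.jInv rho = ι (0 : L) := by
    rw [map_zero]; exact Fermat.Agent.JInv.jInv_rho
  have H := orbitHyp_tau ι N hdeg hτ ST_smul_rho (by rw [orderOf_derivAt_ST, ordJ_rho])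
    (fun x => by rw [ordJ_rho]; exact fix_or_card N Nat.prime_three x (ST_pow_three_smul N x))
  have ht : (embTau ι N rho (0 : L) hτ).t = jF L N := by
    rw [embTau_t, map_zero, sub_zero]
  have h1 := H.card_places
  have h2 := H.sum_ord_sub_one
  rw [ht] at h1 h2
  rw [h2, h1]
  exact ⟨card_orbits_ST N, rfl⟩

include ι hdeg in
theorem card_places_1728 :
    2 * Nat.card {v : Place L (FF L N) // 0 < v.ord (jF L N - algebraMap L (FF L N) 1728)} =
      Nat.card (XN N) + nuTwo N ∧
    ∑ v ∈ (zeroDiv (jF L N - algebraMap L (FF L N) 1728) : Divisor L (FF L N)).support,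
      (v.ord (jF L N - algebraMap L (FF L N) 1728) - 1) =
      (Nat.card (XN N) : ℤ) -
        Nat.card {v : Place L (FF L N) // 0 < v.ord (jF L N - algebraMap L (FF L N) 1728)} := by
  have hτ : Fermat.Agent.JInv.jInv UpperHalfPlane.I = ι (1728 : L) := by
    rw [Fermat.Agent.JInv.jInv_I]; exact (map_ofNat ι 1728).symm
  have H := orbitHyp_tau ι N hdeg hτ Fermat.Agent.JInv.S_smul_I
    (by rw [orderOf_derivAt_S, ordJ_I])
    (fun x => by rw [ordJ_I]; exact fix_or_card N Nat.prime_two x (S_pow_two_smul N x))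
  have ht : (embTau ι N UpperHalfPlane.I (1728 : L) hτ).t =
      jF L N - algebraMap L (FF L N) 1728 := embTau_t _ _ _ _ _
  have h1 := H.card_places
  have h2 := H.sum_ord_sub_one
  rw [ht] at h1 h2
  rw [h2, h1]
  exact ⟨card_orbits_S N, rfl⟩

include ι hdeg in
theorem card_places_inf :
    Nat.card {v : Place L (FF L N) // 0 < v.ord (jF L N)⁻¹} = cuspCount N ∧
    ∑ v ∈ (zeroDiv (jF L N)⁻¹ : Divisor L (FF L N)).support, (v.ord (jF L N)⁻¹ - 1) =
      (Nat.card (XN N) : ℤ) - Nat.card {v : Place L (FF L N) // 0 < v.ord (jF L N)⁻¹} := by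
  have H := orbitHyp_cusp ι N hdeg
  have h1 := H.card_places
  have h2 := H.sum_ord_sub_one
  rw [embCusp_t] at h1 h2
  rw [h2, h1]
  exact ⟨Fermat.Agent.Gamma0Comb.card_orbits_T N, rfl⟩

end Fermat.Agent.X0Places
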