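import Fermat.Agent.X0Places.Counts
import Fermat.Agent.ModDeg.DegreeClosed
import Fermat.Agent.HeckeRed.FF

/-!
# The degree of `j`
-/

set_option autoImplicit false

noncomputable section

open ModularCurve IntermediateField AlgebraicCurve

namespace Fermat.Agent.X0Places

theorem finrank_adjoin_eq_relfinrank {K Ω : Type*} [Field K] [Field Ω] [Algebra K Ω]
    (B : IntermediateField K Ω) (x : B) :
    Module.finrank K⟮x⟯ B = relfinrank (adjoin K {(x : Ω)}) B := by
  have h1 := finrank_comap (adjoin K {(x : Ω)}) B.val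
  have h2 : (adjoin K {(x : Ω)}).comap B.val = K⟮x⟯ := by
    have h3 : (K⟮x⟯).map B.val = adjoin K {(x : Ω)} := by
      rw [adjoin_map, Set.image_singleton]; rfl
    rw [← h3, comap_map]
  rw [h2, fieldRange_val] at h1
  exact h1

variable (L : Type*) [Field L] [Algebra ℚ L] [IsAlgClosed L] (N : ℕ) [NeZero N]

omit [IsAlgClosed L] [NeZero N] in
theorem coe_jF : ((jF L N : FF L N) : LaurentSeries L) = jqModC L := by
  show coeffEmb L jq = _
  rw [coeffEmb]
  exact map_jqModC _

theorem finrank_jF_psi : Module.finrank L⟮jF L N⟯ (FF L N) = dedekindPsi N := by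
  have hchar : CharZero L := algebraRat.charZero L
  have h1 := finrank_adjoin_eq_relfinrank (FF L N) (jF L N)
  rw [coe_jF] at h1
  have h2 : FF L N = modularFunctionFieldFullC L N :=
    Fermat.Agent.HeckeRed.laurentBaseChange_full L N
  have h3 : relfinrank (adjoin L {jqModC L}) (FF L N) = dedekindPsi N := by
    rw [h2]
    exact Fermat.Agent.ModDeg.relfinrank_full_of_isAlgClosed N
      (by exact_mod_cast NeZero.ne N)
  exact h1.trans h3

theorem finrank_jF : Module.finrank L⟮jF L N⟯ (FF L N) = Nat.card (XN N) := by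
  rw [finrank_jF_psi]
  exact (Fermat.Agent.Gamma0Comb.card_X N).symm

end Fermat.Agent.X0Places
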