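import Fermat.Agent.X0Places.Counting
import Mathlib.GroupTheory.GroupAction.Quotient

/-!
# Places over a point and orbits
-/

set_option autoImplicit false

noncomputable section

open AlgebraicCurve WithZero IntermediateField

namespace Fermat.Agent.X0Places

variable {L F Ω : Type*} [Field L] [Field F] [Algebra L F] [Field Ω]

open Fermat.Agent.FunField Fermat.Agent.FunField.PlaceLemmas

namespace EmbData

variable {X : Type*} (E : EmbData L F Ω X) [IsFF L F] [IsAlgClosed L] [Finite X] [Nonempty X]
  (G : Type*) [Group G] [MulAction G X]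

/-- the hypotheses under which the fibres are the orbits of a group -/
structure OrbitHyp : Prop where
  card : Nat.card X = Module.finrank L⟮E.t⟯ F
  smul : ∀ (g : G) (x : X), E.place (g • x) = E.place x
  le : ∀ x : X, E.e0 ≤ Nat.card (MulAction.orbit G x) * E.idx x

variable {E G} (H : OrbitHyp E G)
include H

theorem OrbitHyp.aux (x : X) :
    (∀ y, E.place y = E.place x ↔ y ∈ MulAction.orbit G x) ∧
      (E.place x).ord E.t = Nat.card (MulAction.orbit G x) ∧
      Nat.card (MulAction.orbit G x) * E.idx x = E.e0 := by
  apply E.fiber_eq_of_card H.card x (MulAction.orbit G x)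
  · rintro _ ⟨g, rfl⟩
    exact H.smul g x
  · exact H.le x

theorem OrbitHyp.place_eq_iff (x y : X) : E.place y = E.place x ↔ y ∈ MulAction.orbit G x :=
  (H.aux x).1 y

theorem OrbitHyp.ord_eq (x : X) : (E.place x).ord E.t = Nat.card (MulAction.orbit G x) :=
  (H.aux x).2.1

theorem OrbitHyp.card_mul_idx (x : X) : Nat.card (MulAction.orbit G x) * E.idx x = E.e0 :=
  (H.aux x).2.2

theorem OrbitHyp.exists_place (v : Place L F) (hv : 0 < v.ord E.t) : ∃ x, E.place x = v :=
  E.exists_place_eq H.card v hv

/-- places over the point are the orbits -/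
theorem OrbitHyp.card_places :
    Nat.card {v : Place L F // 0 < v.ord E.t} = Nat.card (MulAction.orbitRel.Quotient G X) := by
  symm
  apply Nat.card_eq_of_bijective (f := fun q : MulAction.orbitRel.Quotient G X =>
    Quotient.liftOn' q (fun x => (⟨E.place x, E.ord_t_pos x⟩ : {v : Place L F // 0 < v.ord E.t}))
      (by
        intro x y hxy
        apply Subtype.ext
        exact (H.place_eq_iff y x).2 (MulAction.orbitRel_apply.1 hxy)))
  constructor
  · intro q q' h
    induction q using Quotient.inductionOn' with
    | h x =>
    induction q' using Quotient.inductionOn' with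
    | h y =>
    have h1 : E.place x = E.place y := congrArg Subtype.val h
    apply Quotient.sound'
    exact MulAction.orbitRel_apply.2 ((H.place_eq_iff y x).1 h1)
  · rintro ⟨v, hv⟩
    obtain ⟨x, rfl⟩ := H.exists_place v hv
    exact ⟨Quotient.mk'' x, rfl⟩

theorem OrbitHyp.sum_ord_sub_one :
    ∑ v ∈ (zeroDiv E.t : Divisor L F).support, (v.ord E.t - 1) =
      (Nat.card X : ℤ) - Nat.card (MulAction.orbitRel.Quotient G X) := by
  classical
  rw [Finset.sum_sub_distrib, ← E.degree_zeroDiv_eq, degree_zeroDiv E.transcendental_t, ← H.card,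
    Finset.sum_const, nsmul_eq_mul, mul_one, ← H.card_places]
  congr 2
  rw [← Fintype.card_coe, ← Nat.card_eq_fintype_card]
  apply Nat.card_congr
  apply Equiv.subtypeEquivRight
  intro v
  rw [Finsupp.mem_support_iff, zeroDiv_apply]
  constructor
  · intro hv
    by_contra hle
    push Not at hle
    exact hv (max_eq_right hle)
  · intro hv
    rw [max_eq_left hv.le]
    exact hv.ne'

end EmbData

end Fermat.Agent.X0Places
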