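import Fermat.Agent.X0Places.JExp
import Mathlib.NumberTheory.ModularForms.CongruenceSubgroups

/-!
# The functions `j(dτ)` and their expansions at all cusps
-/

set_option autoImplicit false

noncomputable section

open UpperHalfPlane Function ModularCurve Filter ModularForm
open scoped Manifold MatrixGroups Topology ModularForm

namespace Fermat.Agent.X0Places

open Function.Periodic (qParam)

/-- `τ ↦ (Aτ + B)/D` -/
def affH (A D : ℕ) (B : ℤ) (hA : 0 < A) (hD : 0 < D) (τ : ℍ) : ℍ :=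
  ⟨((A : ℂ) * τ + B) / D, by
    have h1 : (((A : ℂ) * τ + B) / D).im = (A : ℝ) * τ.im / D := by
      rw [Complex.div_natCast_im]
      simp
    rw [h1]
    have hA' : (0 : ℝ) < A := by exact_mod_cast hA
    have hD' : (0 : ℝ) < D := by exact_mod_cast hD
    have := τ.im_pos
    positivity⟩

theorem coe_affH (A D : ℕ) (B : ℤ) (hA : 0 < A) (hD : 0 < D) (τ : ℍ) :
    (affH A D B hA hD τ : ℂ) = ((A : ℂ) * τ + B) / D := rfl

/-- `τ ↦ dτ` -/
def scaleH (d : ℕ) (hd : 0 < d) (τ : ℍ) : ℍ := affH d 1 0 hd one_pos τ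

theorem coe_scaleH (d : ℕ) (hd : 0 < d) (τ : ℍ) : (scaleH d hd τ : ℂ) = (d : ℂ) * τ := by
  rw [scaleH, coe_affH]; simp

theorem coe_SL_smul (γ : SL(2, ℤ)) (τ : ℍ) :
    ((γ • τ : ℍ) : ℂ) = ((γ 0 0 : ℂ) * τ + γ 0 1) / ((γ 1 0 : ℂ) * τ + γ 1 1) := by
  rw [UpperHalfPlane.specialLinearGroup_apply]
  simp

theorem denom_SL_ne_zero (γ : SL(2, ℤ)) (τ : ℍ) : (γ 1 0 : ℂ) * τ + γ 1 1 ≠ 0 := by
  have := denom_ne_zero (γ : GL (Fin 2) ℝ) τ
  rwa [Fermat.Agent.JInv.denom_eq] at this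

/-- a matrix in `SL₂(ℤ)` from entries -/
def mkSL (a b c d : ℤ) (h : a * d - b * c = 1) : SL(2, ℤ) :=
  ⟨!![a, b; c, d], by rw [Matrix.det_fin_two_of]; exact h⟩

@[simp] theorem mkSL_00 (a b c d : ℤ) (h : a * d - b * c = 1) : (mkSL a b c d h) 0 0 = a := rfl
@[simp] theorem mkSL_01 (a b c d : ℤ) (h : a * d - b * c = 1) : (mkSL a b c d h) 0 1 = b := rfl
@[simp] theorem mkSL_10 (a b c d : ℤ) (h : a * d - b * c = 1) : (mkSL a b c d h) 1 0 = c := rfl
@[simp] theorem mkSL_11 (a b c d : ℤ) (h : a * d - b * c = 1) : (mkSL a b c d h) 1 1 = d := rfl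

/-- `diag(d,1) γ = γ' (A B; 0 D)` -/
theorem exists_decomp (d : ℕ) (hd : 0 < d) (γ : SL(2, ℤ)) :
    ∃ (γ' : SL(2, ℤ)) (A D : ℕ) (B : ℤ) (hA : 0 < A) (hD : 0 < D), A * D = d ∧
      ∀ τ : ℍ, scaleH d hd (γ • τ) = γ' • affH A D B hA hD τ := by
  have hdet := Fermat.Agent.JInv.det_eq γ
  set a := γ 0 0
  set b := γ 0 1
  set c := γ 1 0
  set e := γ 1 1
  have hd' : (0 : ℤ) < d := by exact_mod_cast hd
  have hne : ¬ ((d : ℤ) * a = 0 ∧ c = 0) := by
    rintro ⟨h1, h2⟩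
    rcases mul_eq_zero.1 h1 with h | h
    · omega
    · rw [h, h2] at hdet; simp at hdet
  set A := Int.gcd ((d : ℤ) * a) c with hAdef
  have hA : 0 < A := by
    rw [hAdef, Int.gcd_pos_iff]
    by_contra hcon
    push Not at hcon
    exact hne hcon
  obtain ⟨x, hx⟩ : (A : ℤ) ∣ (d : ℤ) * a := Int.gcd_dvd_left _ _
  obtain ⟨y, hy⟩ : (A : ℤ) ∣ c := Int.gcd_dvd_right _ _
  have hbez := Int.gcd_eq_gcd_ab ((d : ℤ) * a) c
  rw [← hAdef] at hbez
  set v := Int.gcdA ((d : ℤ) * a) c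
  set u' := Int.gcdB ((d : ℤ) * a) c
  have hA' : (0 : ℤ) < A := by exact_mod_cast hA
  have hxy : x * v + y * u' = 1 := by
    have h1 : (A : ℤ) * (x * v + y * u') = A * 1 := by
      rw [mul_one]
      conv_rhs => rw [hbez, hx]
      conv_rhs => rw [hy]
      ring
    exact mul_left_cancel₀ hA'.ne' h1
  -- γ' = (x, -u'; y, v)
  set D0 : ℤ := x * e - y * (d * b) with hD0
  have hAD : (A : ℤ) * D0 = d := by
    rw [hD0, mul_sub]
    have h1 : (A : ℤ) * (x * e) = d * a * e := by rw [← mul_assoc, ← hx]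
    have h2 : (A : ℤ) * (y * (d * b)) = c * (d * b) := by rw [← mul_assoc, ← hy]
    rw [h1, h2]
    linear_combination (d : ℤ) * hdet
  have hD0pos : 0 < D0 := by
    rw [← hAD] at hd'
    exact (mul_pos_iff_of_pos_left hA').1 hd'
  obtain ⟨D, hD⟩ := Int.eq_ofNat_of_zero_le hD0pos.le
  have hDpos : 0 < D := by omega
  set B : ℤ := v * (d * b) + u' * e with hB
  refine ⟨mkSL x (-u') y v (by linear_combination hxy), A, D, B, hA, hDpos, ?_, ?_⟩
  · have : ((A * D : ℕ) : ℤ) = d := by push_cast; rw [← hD, hAD]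
    exact_mod_cast this
  · intro τ
    apply UpperHalfPlane.ext
    rw [coe_scaleH, coe_SL_smul, coe_SL_smul, coe_affH]
    simp only [mkSL_00, mkSL_01, mkSL_10, mkSL_11]
    have hDc : (D : ℂ) ≠ 0 := by exact_mod_cast hDpos.ne'
    have hden1 : (c : ℂ) * τ + e ≠ 0 := denom_SL_ne_zero γ τ
    -- integer identities
    have i1 : x * B - u' * D = d * b := by
      rw [← hD, hB, hD0]
      linear_combination (d * b : ℤ) * hxy
    have i2 : y * B + v * D = e := by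
      rw [← hD, hB, hD0]
      linear_combination (e : ℤ) * hxy
    have i3 : x * A = d * a := by rw [mul_comm]; exact hx.symm
    have i4 : y * A = c := by rw [mul_comm]; exact hy.symm
    have j1 : (x : ℂ) * B - u' * D = d * b := by exact_mod_cast i1
    have j2 : (y : ℂ) * B + v * D = e := by exact_mod_cast i2
    have j3 : (x : ℂ) * A = d * a := by exact_mod_cast i3
    have j4 : (y : ℂ) * A = c := by exact_mod_cast i4
    have k1 : (x : ℂ) * (((A : ℂ) * τ + B) / D) + ((-u' : ℤ) : ℂ) = (d * (a * τ + b)) / D := by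
      field_simp
      push_cast
      linear_combination (τ : ℂ) * j3 + j1
    have k2 : (y : ℂ) * (((A : ℂ) * τ + B) / D) + v = (c * τ + e) / D := by
      field_simp
      linear_combination (τ : ℂ) * j4 + j2
    rw [k1, k2]
    show (d : ℂ) * ((a * τ + b) / (c * τ + e)) = _
    field_simp

theorem scaleH_gamma0 (d : ℕ) (hd : 0 < d) (N : ℕ) (hdN : d ∣ N) (γ : SL(2, ℤ))
    (hγ : γ ∈ CongruenceSubgroup.Gamma0 N) :
    ∃ γ' : SL(2, ℤ), ∀ τ : ℍ, scaleH d hd (γ • τ) = γ' • scaleH d hd τ := by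
  rw [CongruenceSubgroup.Gamma0_mem, ZMod.intCast_zmod_eq_zero_iff_dvd] at hγ
  have hdc : (d : ℤ) ∣ γ 1 0 := (Int.natCast_dvd_natCast.2 hdN).trans hγ
  obtain ⟨c', hc'⟩ := hdc
  have hdet := Fermat.Agent.JInv.det_eq γ
  refine ⟨mkSL (γ 0 0) (d * γ 0 1) c' (γ 1 1) (by rw [hc'] at hdet; linear_combination hdet), ?_⟩
  intro τ
  apply UpperHalfPlane.ext
  rw [coe_scaleH, coe_SL_smul, coe_SL_smul, coe_scaleH]
  simp only [mkSL_00, mkSL_01, mkSL_10, mkSL_11]
  have hc : (γ 1 0 : ℂ) = d * c' := by rw [hc']; push_cast; ring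
  have h1 : (c' : ℂ) * ((d : ℂ) * τ) + γ 1 1 = (γ 1 0 : ℂ) * τ + γ 1 1 := by rw [hc]; ring
  rw [h1]
  push_cast
  rw [← mul_div_assoc]
  congr 1
  ring

/-- the function `j(dτ)` -/
def jd (d : ℕ) (hd : 0 < d) : ℍ → ℂ := fun τ => Fermat.Agent.JInv.jInv (scaleH d hd τ)

theorem jd_smul (d : ℕ) (hd : 0 < d) (N : ℕ) (hdN : d ∣ N) (γ : SL(2, ℤ))
    (hγ : γ ∈ CongruenceSubgroup.Gamma0 N) (τ : ℍ) : jd d hd (γ • τ) = jd d hd τ := by
  obtain ⟨γ', h⟩ := scaleH_gamma0 d hd N hdN γ hγ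
  rw [jd, h, Fermat.Agent.JInv.jInv_smul]
  rfl

theorem mdiff_affH (A D : ℕ) (B : ℤ) (hA : 0 < A) (hD : 0 < D) {f : ℍ → ℂ} (hf : MDiff f) :
    MDiff (fun τ => f (affH A D B hA hD τ)) := by
  rw [UpperHalfPlane.mdifferentiable_iff] at hf ⊢
  have h1 : DifferentiableOn ℂ ((f ∘ ofComplex) ∘ fun z : ℂ => ((A : ℂ) * z + B) / D)
      {z | 0 < z.im} := by
    apply hf.comp
    · apply DifferentiableOn.div_const
      exact ((differentiable_id.const_mul (A : ℂ)).add_const (B : ℂ)).differentiableOn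
    · intro z hz
      exact (affH A D B hA hD ⟨z, hz⟩).im_pos
  refine h1.congr fun z hz => ?_
  have h2 : ofComplex z = (⟨z, hz⟩ : ℍ) := ofComplex_apply_of_im_pos hz
  simp only [comp_apply]
  rw [h2]
  have h3 : (((A : ℂ) * z + B) / D) = ((affH A D B hA hD ⟨z, hz⟩ : ℍ) : ℂ) := rfl
  rw [h3, ofComplex_apply]

theorem mdiff_jd (d : ℕ) (hd : 0 < d) : MDiff (jd d hd) :=
  mdiff_affH d 1 0 hd one_pos Fermat.Agent.JInv.mdiff_jInv

theorem qParam_affH (A D : ℕ) (B : ℤ) (hA : 0 < A) (hD : 0 < D) (M : ℕ) (τ : ℍ) (hM : 0 < M) :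
    qParam 1 (affH A D B hA hD τ) =
      Complex.exp (2 * Real.pi * Complex.I * B / D) * qParam (D * M : ℕ) τ ^ (A * M) := by
  simp only [qParam, coe_affH]
  rw [← Complex.exp_nat_mul, ← Complex.exp_add]
  congr 1
  have hDc : (D : ℂ) ≠ 0 := by exact_mod_cast hD.ne'
  have hMc : (M : ℂ) ≠ 0 := by exact_mod_cast hM.ne'
  push_cast
  field_simp
  ring

/-- `j(dτ)` has Laurent expansions at all cusps. -/
theorem hasLaurent_jd (d : ℕ) (hd : 0 < d) (N : ℕ) [NeZero N] (hdN : d ∣ N) (γ : SL(2, ℤ)) :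
    ∃ y, HasLaurent N (fun τ => jd d hd (γ • τ)) y := by
  obtain ⟨γ', A, D, B, hA, hD, hAD, h⟩ := exists_decomp d hd γ
  obtain ⟨M', hM'⟩ := hdN
  have hN : 0 < N := Nat.pos_of_ne_zero (NeZero.ne N)
  set M := A * M' with hM
  have hNM : N = D * M := by rw [hM', ← hAD, hM]; ring
  have hMpos : 0 < M := by
    rcases Nat.eq_zero_or_pos M with h0 | h0
    · rw [hNM, h0, mul_zero] at hN; exact absurd hN (lt_irrefl _)
    · exact h0
  have : NeZero (A * M) := ⟨(Nat.mul_pos hA hMpos).ne'⟩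
  have h1 := hasLaurent_jInv.subst (h' := (N : ℝ)) (affH A D B hA hD)
    (Units.mk0 (Complex.exp (2 * Real.pi * Complex.I * B / D)) (Complex.exp_ne_zero _)) (A * M)
    (by
      intro τ
      rw [Units.val_mk0, hNM]
      exact qParam_affH A D B hA hD M τ hMpos)
  have h2 : (fun τ => jd d hd (γ • τ)) = Fermat.Agent.JInv.jInv ∘ affH A D B hA hD := by
    funext τ
    simp only [comp_apply, jd]
    rw [h, Fermat.Agent.JInv.jInv_smul]
  rw [h2]
  exact ⟨_, h1⟩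

/-- the expansion of `j(dτ)` at infinity -/
theorem hasLaurent_jd_one (d : ℕ) (hd : 0 < d) [NeZero d] :
    HasLaurent 1 (jd d hd) (qExpand ℂ d (jqModC ℂ)) := by
  have h1 := hasLaurent_jInv.subst (h' := 1) (scaleH d hd) 1 d (by
    intro τ
    rw [Units.val_one, one_mul]
    simp only [qParam, coe_scaleH]
    rw [← Complex.exp_nat_mul]
    congr 1
    push_cast
    field_simp)
  rw [Fermat.Agent.ModPoly.twist_one] at h1
  exact h1

end Fermat.Agent.X0Places
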