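import Fermat.Agent.X0Places.Holo
import Fermat.Agent.X0Places.Scale

/-!
# Orders at fixed points of meromorphic functions invariant under a rotation
-/

set_option autoImplicit false

noncomputable section

open UpperHalfPlane Function Filter WithZero
open scoped Manifold MatrixGroups Topology

namespace Fermat.Agent.X0Places

/-- `f` has leading term `c (z-τ)^n` at `τ` -/
def HasLead (τ : ℍ) (f : ℍ → ℂ) (n : ℕ) (c : ℂ) : Prop :=
  c ≠ 0 ∧ Tendsto (fun z : ℂ => f (ofComplex z) / (z - τ) ^ n) (𝓝[≠] (τ : ℂ)) (𝓝 c)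

theorem exists_hasLead {τ : ℍ} {f : ℍ → ℂ} (hf : MDiff f) (h0 : f ≠ 0) :
    ∃ c, HasLead τ f (ordH τ f).toNat c := by
  have han := analyticAt_ofMDiff hf τ
  have hne : ordH τ f ≠ ⊤ := fun h => h0 ((ordH_eq_top_iff hf τ).1 h)
  set n := (ordH τ f).toNat with hn
  have h1 : analyticOrderAt (f ∘ ofComplex) (τ : ℂ) = (n : ℕ∞) := by
    rw [hn, ENat.natCast_toNat hne]; rfl
  obtain ⟨g, hg, hg0, hfg⟩ := (han.analyticOrderAt_eq_natCast).1 h1
  refine ⟨g τ, hg0, ?_⟩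
  have h2 : Tendsto g (𝓝[≠] (τ : ℂ)) (𝓝 (g τ)) :=
    hg.continuousAt.tendsto.mono_left nhdsWithin_le_nhds
  refine h2.congr' ?_
  have h3 : ∀ᶠ z in 𝓝[≠] (τ : ℂ), (f ∘ ofComplex) z = (z - τ) ^ n • g z :=
    hfg.filter_mono nhdsWithin_le_nhds
  filter_upwards [h3, self_mem_nhdsWithin] with z hz hz'
  have h4 : z - (τ : ℂ) ≠ 0 := sub_ne_zero.2 hz'
  have h5 : f (ofComplex z) = (z - τ) ^ n * g z := by simpa using hz
  rw [h5]
  field_simp

theorem HasLead.mul {τ : ℍ} {f g : ℍ → ℂ} {m n : ℕ} {c d : ℂ} (hf : HasLead τ f m c)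
    (hg : HasLead τ g n d) : HasLead τ (f * g) (m + n) (c * d) := by
  refine ⟨mul_ne_zero hf.1 hg.1, ?_⟩
  refine (hf.2.mul hg.2).congr fun z => ?_
  rw [Pi.mul_apply, pow_add, div_mul_div_comm]

theorem HasLead.unique {τ : ℍ} {f : ℍ → ℂ} {n : ℕ} {c d : ℂ} (hf : HasLead τ f n c)
    (hg : HasLead τ f n d) : c = d := tendsto_nhds_unique hf.2 hg.2

/-- the derivative of `γ` at `τ` -/
def derivAt (γ : SL(2, ℤ)) (τ : ℍ) : ℂ := 1 / ((γ 1 0 : ℂ) * τ + γ 1 1) ^ 2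

theorem derivAt_ne_zero (γ : SL(2, ℤ)) (τ : ℍ) : derivAt γ τ ≠ 0 :=
  div_ne_zero one_ne_zero (pow_ne_zero _ (denom_SL_ne_zero γ τ))

theorem HasLead.comp {τ : ℍ} {f : ℍ → ℂ} {n : ℕ} {c : ℂ} (hf : HasLead τ f n c)
    {γ : SL(2, ℤ)} (hγ : γ • τ = τ) :
    HasLead τ (fun z => f (γ • z)) n (c * derivAt γ τ ^ n) := by
  refine ⟨mul_ne_zero hf.1 (pow_ne_zero _ (derivAt_ne_zero γ τ)), ?_⟩
  set G : ℂ → ℂ := fun z => ((γ • ofComplex z : ℍ) : ℂ) with hG
  have hGτ : G τ = τ := by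
    simp only [hG, ofComplex_apply, hγ]
  have hder : HasDerivAt G (derivAt γ τ) τ := by
    have h1 := (τ.hasStrictDerivAt_smul (g := (γ : GL (Fin 2) ℝ)) (det_coe_pos γ)).hasDerivAt
    have h2 : (((γ : GL (Fin 2) ℝ).val.det : ℝ) : ℂ) / denom (γ : GL (Fin 2) ℝ) τ ^ 2 =
        derivAt γ τ := by
      have h3 : ((γ : GL (Fin 2) ℝ)).val.det = 1 := by
        have h : (γ : GL (Fin 2) ℝ).det.val = 1 := by simp
        exact h
      rw [h3, derivAt, Fermat.Agent.JInv.denom_eq]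
      simp
    rw [← h2]
    exact h1
  have hslope : Tendsto (fun z => (G z - τ) / (z - τ)) (𝓝[≠] (τ : ℂ)) (𝓝 (derivAt γ τ)) := by
    have h1 := hasDerivAt_iff_tendsto_slope.1 hder
    refine h1.congr fun z => ?_
    rw [slope_def_field, hGτ]
  have hcont : Tendsto G (𝓝[≠] (τ : ℂ)) (𝓝[≠] (τ : ℂ)) := by
    have h1 := hder.tendsto_nhdsNE (derivAt_ne_zero γ τ)
    rwa [hGτ] at h1
  have h2 := hf.2.comp hcont
  have h3 := h2.mul (hslope.pow n)
  refine h3.congr' ?_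
  have hev : ∀ᶠ z in 𝓝[≠] (τ : ℂ), G z ≠ τ := by
    have := hcont.eventually self_mem_nhdsWithin
    exact this
  filter_upwards [hev, self_mem_nhdsWithin] with z hz hz'
  have h4 : z - (τ : ℂ) ≠ 0 := sub_ne_zero.2 hz'
  have h5 : G z - (τ : ℂ) ≠ 0 := sub_ne_zero.2 hz
  simp only [comp_apply]
  have h6 : ofComplex (G z) = γ • ofComplex z := by
    simp only [hG, ofComplex_apply]
  rw [h6, div_pow]
  field_simp

/-- If a meromorphic function is invariant under a rotation `γ` about `τ` then its order at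
`τ` is divisible by the order of the rotation. -/
theorem orderOf_dvd_of_compMer_eq {τ : ℍ} {γ : SL(2, ℤ)} (hγ : γ • τ = τ) {y : Mer} (hy : y ≠ 0)
    (hinv : compMer γ y = y) {k : ℤ} (hk : valMer τ y = exp (-k)) :
    (orderOf (derivAt γ τ) : ℤ) ∣ k := by
  obtain ⟨a, b, hb, rfl⟩ := IsFractionRing.div_surjective (A := Holo) y
  have hb0 : b ≠ 0 := nonZeroDivisors.ne_zero hb
  have hb0' : algebraMap Holo Mer b ≠ 0 := by
    rw [map_ne_zero_iff _ (IsFractionRing.injective Holo Mer)]; exact hb0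
  have ha0 : a ≠ 0 := by
    rintro rfl
    simp at hy
  have ha0' : algebraMap Holo Mer a ≠ 0 := by
    rw [map_ne_zero_iff _ (IsFractionRing.injective Holo Mer)]; exact ha0
  have hcb : algebraMap Holo Mer (compHolo γ b) ≠ 0 := by
    rw [map_ne_zero_iff _ (IsFractionRing.injective Holo Mer)]
    intro h
    exact hb0 (compHolo_injective γ (h.trans (map_zero _).symm))
  rw [map_div₀, compMer_algebraMap, compMer_algebraMap, div_eq_div_iff hcb hb0', ← map_mul,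
    ← map_mul] at hinv
  have h1 := IsFractionRing.injective Holo Mer hinv
  have h2 : (fun z => (a : ℍ → ℂ) (γ • z)) * (b : ℍ → ℂ) =
      (a : ℍ → ℂ) * (fun z => (b : ℍ → ℂ) (γ • z)) := congrArg Subtype.val h1
  have ha1 : (a : ℍ → ℂ) ≠ 0 := fun h => ha0 (Subtype.ext h)
  have hb1 : (b : ℍ → ℂ) ≠ 0 := fun h => hb0 (Subtype.ext h)
  obtain ⟨ca, hca⟩ := exists_hasLead (τ := τ) a.2 ha1
  obtain ⟨cb, hcb⟩ := exists_hasLead (τ := τ) b.2 hb1
  have h3 := (hca.comp hγ).mul hcb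
  have h4 := hca.mul (hcb.comp hγ)
  rw [h2] at h3
  have h5 := h3.unique h4
  set n := (ordH τ (a : ℍ → ℂ)).toNat
  set m := (ordH τ (b : ℍ → ℂ)).toNat
  have h6 : derivAt γ τ ^ n = derivAt γ τ ^ m := by
    have h7 : ca * cb ≠ 0 := mul_ne_zero hca.1 hcb.1
    apply mul_left_cancel₀ h7
    linear_combination h5
  rw [map_div₀, valMer_algebraMap, valMer_algebraMap, valHolo_apply τ ha0, valHolo_apply τ hb0,
    ← exp_sub, exp_inj] at hk
  have h8 : k = (n : ℤ) - m := by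
    have : -(n : ℤ) - -(m : ℤ) = -k := hk
    omega
  rw [h8]
  have h9 : derivAt γ τ ^ ((n : ℤ) - m) = 1 := by
    rw [zpow_sub₀ (derivAt_ne_zero γ τ), zpow_natCast, zpow_natCast, h6, div_self
      (pow_ne_zero _ (derivAt_ne_zero γ τ))]
  set u : ℂˣ := Units.mk0 (derivAt γ τ) (derivAt_ne_zero γ τ) with hu
  have h10 : u ^ ((n : ℤ) - m) = 1 := by
    apply Units.ext
    rw [Units.val_zpow_eq_zpow_val, Units.val_one]
    exact h9
  have h11 : orderOf (derivAt γ τ) = orderOf u := by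
    rw [← orderOf_units]; rfl
  rw [h11]
  exact orderOf_dvd_iff_zpow_eq_one.2 h10

end Fermat.Agent.X0Places
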