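import Fermat.Agent.X0Places.Cusps
import Fermat.Agent.X0Places.Rotation
import Fermat.Agent.X0Places.Orbits
import Fermat.Agent.Gamma0Comb.Orbits

/-!
# Places of the function field of `X₀(N)` over a point of the `j`-line
-/

set_option autoImplicit false

noncomputable section

open UpperHalfPlane Function ModularCurve Filter ModularForm AlgebraicCurve WithZero
open scoped Manifold MatrixGroups Topology ModularForm

namespace Fermat.Agent.X0Places

open Fermat.Agent.FunField Fermat.Agent.FunField.PlaceLemmas IntermediateField CongruenceSubgroup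

variable {L : Type*} [Field L] [Algebra ℚ L] (ι : L →+* ℂ) (N : ℕ) [NeZero N]

/-- the cosets -/
abbrev XN (N : ℕ) : Type := SL(2, ℤ) ⧸ Gamma0 N

instance finite_XN : Finite (XN N) := by
  have h := Fermat.Agent.Gamma0Comb.card_X N
  apply Nat.finite_of_card_ne_zero
  have h2 : (Gamma0 N).index ≠ 0 := Subgroup.FiniteIndex.index_ne_zero
  exact h2

instance nonempty_XN : Nonempty (XN N) := ⟨((1 : SL(2, ℤ)) : XN N)⟩

theorem jHolo_sub (a : ℂ) : ((jHolo - constHolo a : Holo) : ℍ → ℂ) =
    fun z => Fermat.Agent.JInv.jInv z - a := rfl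

theorem jHolo_sub_ne_zero (a : ℂ) : jHolo - constHolo a ≠ 0 := by
  intro h
  have h1 : ∀ τ, Fermat.Agent.JInv.jInv τ - a = 0 := fun τ => congrFun (congrArg Subtype.val h) τ
  obtain ⟨τ, hτ⟩ := Fermat.Agent.JInv.jInv_surjective (a + 1)
  have := h1 τ
  rw [hτ] at this
  simp at this

/-- the order of `j - j(τ)` at `τ` -/
def ordJ (τ : ℍ) : ℕ := (ordH τ (fun z => Fermat.Agent.JInv.jInv z - Fermat.Agent.JInv.jInv τ)).toNat

theorem ordJ_pos (τ : ℍ) : 0 < ordJ τ := by
  have hm : MDiff (fun z => Fermat.Agent.JInv.jInv z - Fermat.Agent.JInv.jInv τ) :=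
    (jHolo - constHolo (Fermat.Agent.JInv.jInv τ)).2
  have h1 : ordH τ (fun z => Fermat.Agent.JInv.jInv z - Fermat.Agent.JInv.jInv τ) ≠ 0 := by
    rw [ordH_ne_zero_iff hm]
    simp
  have h2 : ordH τ (fun z => Fermat.Agent.JInv.jInv z - Fermat.Agent.JInv.jInv τ) ≠ ⊤ := by
    intro h
    rw [ordH_eq_top_iff hm] at h
    exact jHolo_sub_ne_zero _ (Subtype.ext h)
  rw [ordJ]
  rw [Nat.pos_iff_ne_zero]
  intro h
  rcases (ENat.toNat_eq_zero).1 h with h | h
  · exact h1 h
  · exact h2 h

/-- the embedding data attached to a point `τ` of the upper half plane with `j(τ) = ι a` -/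
def embTau (τ : ℍ) (a : L) (ha : Fermat.Agent.JInv.jInv τ = ι a) :
    EmbData L (FF L N) Mer (XN N) where
  w := valMer τ
  σ := sigma ι N
  inj := sigma_injective ι N
  hL i j c := by rw [sigma_algebraMap, sigma_algebraMap]
  hwL i c := by rw [sigma_algebraMap, valMer_algebraMap]; exact valHolo_le_one _ _
  t := jF L N - algebraMap L (FF L N) a
  ht i j := by rw [map_sub, map_sub, sigma_jF, sigma_jF, sigma_algebraMap, sigma_algebraMap]
  e0 := ordJ τ
  e0_pos := ordJ_pos τ
  hwt i := by
    rw [map_sub, sigma_jF, sigma_algebraMap, ← map_sub, valMer_algebraMap,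
      valHolo_apply _ (jHolo_sub_ne_zero _), jHolo_sub, ordJ, ha]

/-- the embedding data attached to the cusps -/
def embCusp : EmbData L (FF L N) (LaurentSeries ℂ) (XN N) where
  w := valLaur
  σ := cuspSigma ι N
  inj := cuspSigma_injective ι N
  hL i j c := by rw [cuspSigma_algebraMap, cuspSigma_algebraMap]
  hwL i c := by
    rw [cuspSigma_algebraMap]
    rcases eq_or_ne (ι c) 0 with h | h
    · rw [h]; simp
    · rw [valLaur_apply (by simpa using h), HahnSeries.C_apply, HahnSeries.order_single h]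
      simp
  t := (jF L N)⁻¹
  ht i j := by rw [map_inv₀, map_inv₀, cuspSigma_jF, cuspSigma_jF]
  e0 := N
  e0_pos := Nat.pos_of_ne_zero (NeZero.ne N)
  hwt i := by
    rw [map_inv₀, map_inv₀, valLaur_cuspSigma_jF, ← exp_neg]

@[simp] theorem embTau_t (τ : ℍ) (a : L) (ha : Fermat.Agent.JInv.jInv τ = ι a) :
    (embTau ι N τ a ha).t = jF L N - algebraMap L (FF L N) a := rfl

@[simp] theorem embCusp_t : (embCusp (L := L) ι N).t = (jF L N)⁻¹ := rfl

include ι in
theorem jF_transcendental_aux [IsFF L (FF L N)] :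
    Transcendental L (jF L N) := by
  have h := (embCusp ι N).transcendental_t
  rw [embCusp_t] at h
  intro h1
  exact h h1.inv

omit [NeZero N] in
theorem adjoin_sub_algebraMap (a : L) :
    L⟮jF L N - algebraMap L (FF L N) a⟯ = L⟮jF L N⟯ := by
  apply le_antisymm
  · rw [adjoin_simple_le_iff]
    exact sub_mem (mem_adjoin_simple_self L _) (IntermediateField.algebraMap_mem _ a)
  · rw [adjoin_simple_le_iff]
    have := add_mem (mem_adjoin_simple_self L (jF L N - algebraMap L (FF L N) a))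
      (IntermediateField.algebraMap_mem L⟮jF L N - algebraMap L (FF L N) a⟯ a)
    rwa [sub_add_cancel] at this

omit [NeZero N] in
theorem card_orbit_eq {g : SL(2, ℤ)} (x : XN N) :
    Nat.card (MulAction.orbit (Subgroup.zpowers g) x) = minimalPeriod (g • ·) x :=
  (Nat.card_congr (MulAction.orbitZPowersEquiv g x)).trans (Nat.card_zmod _)

theorem card_orbit_pos {g : SL(2, ℤ)} (x : XN N) :
    0 < Nat.card (MulAction.orbit (Subgroup.zpowers g) x) := by
  have h : Nonempty (MulAction.orbit (Subgroup.zpowers g) x) :=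
    ⟨⟨x, MulAction.mem_orbit_self x⟩⟩
  exact Nat.card_pos

/-! ### Points -/

section Points

variable [IsFF L (FF L N)] [IsAlgClosed L]
  (hdeg : Module.finrank L⟮jF L N⟯ (FF L N) = Nat.card (XN N))

omit [IsAlgClosed L] in
theorem place_smul_of_stab {τ : ℍ} {a : L} (ha : Fermat.Agent.JInv.jInv τ = ι a) {g : SL(2, ℤ)}
    (hg : g • τ = τ) (x : XN N) :
    (embTau ι N τ a ha).place (g • x) = (embTau ι N τ a ha).place x := by
  apply EmbData.place_eq_of
  intro y
  show valMer τ (sigma ι N (g • x) y) ≤ 1 ↔ valMer τ (sigma ι N x y) ≤ 1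
  rw [sigma_smul, valMer_compMer]
  have h1 : g⁻¹ • τ = τ := by rw [inv_smul_eq_iff, hg]
  rw [h1]

omit [IsAlgClosed L] in
/-- at a coset fixed by the rotation `g` the index is divisible by the order of the rotation -/
theorem dvd_idx_of_fixed {τ : ℍ} {a : L} (ha : Fermat.Agent.JInv.jInv τ = ι a) {g : SL(2, ℤ)}
    (hg : g • τ = τ) (x : XN N) (hx : g • x = x) :
    orderOf (derivAt g τ) ∣ (embTau ι N τ a ha).idx x := by
  obtain ⟨y, hy0, hy⟩ := exists_ord_eq_one ((embTau ι N τ a ha).place x)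
  have h1 := (embTau ι N τ a ha).w_eq x hy0
  rw [hy, mul_one] at h1
  have h2 : compMer g (sigma ι N x y) = sigma ι N x y := by
    have h3 := sigma_smul ι N g⁻¹ x y
    rw [inv_inv] at h3
    rw [← h3]
    have h4 : g⁻¹ • x = x := by rw [inv_smul_eq_iff, hx]
    rw [h4]
  have h5 := orderOf_dvd_of_compMer_eq hg ((map_ne_zero (sigma ι N x)).2 hy0) h2 h1
  exact_mod_cast h5

omit [IsAlgClosed L] in
include hdeg in
/-- The general point. -/
theorem orbitHyp_tau {τ : ℍ} {a : L} (ha : Fermat.Agent.JInv.jInv τ = ι a) {g : SL(2, ℤ)}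
    (hg : g • τ = τ) (hord : orderOf (derivAt g τ) = ordJ τ)
    (hfix : ∀ x : XN N, g • x = x ∨
      ordJ τ ≤ Nat.card (MulAction.orbit (Subgroup.zpowers g) x)) :
    (embTau ι N τ a ha).OrbitHyp (Subgroup.zpowers g) where
  card := by
    rw [embTau_t, adjoin_sub_algebraMap, hdeg]
  smul := by
    rintro ⟨g', k, rfl⟩ x
    apply place_smul_of_stab
    show g ^ k • τ = τ
    exact MulAction.mem_stabilizer_iff.1 (Subgroup.zpow_mem _ (MulAction.mem_stabilizer_iff.2 hg) k)
  le := by
    intro x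
    have h0 : 0 < (embTau ι N τ a ha).idx x := (embTau ι N τ a ha).idx_pos x
    have h1 : 0 < Nat.card (MulAction.orbit (Subgroup.zpowers g) x) :=
      card_orbit_pos N x
    show ordJ τ ≤ _
    rcases hfix x with h | h
    · have h2 := Nat.le_of_dvd h0 (dvd_idx_of_fixed ι N ha hg x h)
      rw [hord] at h2
      nlinarith
    · nlinarith

end Points

/-! ### Cusps -/

section Cusps

variable [IsFF L (FF L N)] [IsAlgClosed L]
  (hdeg : Module.finrank L⟮jF L N⟯ (FF L N) = Nat.card (XN N))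

omit [IsAlgClosed L] in
theorem cuspPlace_smul (k : ℤ) (x : XN N) :
    (embCusp (L := L) ι N).place (ModularGroup.T ^ k • x) = (embCusp (L := L) ι N).place x := by
  apply EmbData.place_eq_of
  intro y
  show valLaur (cuspSigma ι N (ModularGroup.T ^ k • x) y) ≤ 1 ↔ valLaur (cuspSigma ι N x y) ≤ 1
  rw [cuspSigma_T_zpow_smul, valLaur_twist]

omit [IsAlgClosed L] in
/-- The index at a cusp is a multiple of `N / width`. -/
theorem N_dvd_card_mul_idx (x : XN N) :
    N ∣ Nat.card (MulAction.orbit (Subgroup.zpowers ModularGroup.T) x) *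
      (embCusp (L := L) ι N).idx x := by
  rw [card_orbit_eq]
  set h := minimalPeriod (ModularGroup.T • ·) x with hh
  obtain ⟨y, hy0, hy⟩ := exists_ord_eq_one ((embCusp (L := L) ι N).place x)
  have h1 := (embCusp (L := L) ι N).w_eq x hy0
  rw [hy, mul_one] at h1
  have hne : cuspSigma ι N x y ≠ 0 := (map_ne_zero (cuspSigma ι N x)).2 hy0
  have h2 : valLaur (cuspSigma ι N x y) = exp (-((embCusp (L := L) ι N).idx x : ℤ)) := h1
  rw [valLaur_apply hne, exp_inj, neg_inj] at h2
  have hfix : ModularGroup.T ^ (h : ℤ) • x = x :=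
    MulAction.zpow_smul_eq_iff_minimalPeriod_dvd.2 dvd_rfl
  have h3 := cuspSigma_T_zpow_smul ι N x (h : ℤ) y
  rw [hfix] at h3
  have h4 := dvd_order_of_twist_eq hne h3.symm
  rw [h2, orderOf_dvd_iff_zpow_eq_one, ← zpow_mul, ← orderOf_dvd_iff_zpow_eq_one,
    orderOf_zetaN] at h4
  have h5 : (N : ℤ) ∣ ((h * (embCusp (L := L) ι N).idx x : ℕ) : ℤ) := by
    push_cast
    rw [← dvd_neg, ← neg_mul]
    exact h4
  exact_mod_cast h5

omit [IsAlgClosed L] in
include hdeg in
/-- The cusps. -/
theorem orbitHyp_cusp :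
    (embCusp (L := L) ι N).OrbitHyp (Subgroup.zpowers ModularGroup.T) where
  card := by
    rw [embCusp_t, finrank_adjoin_inv, hdeg]
  smul := by
    rintro ⟨g', k, rfl⟩ x
    exact cuspPlace_smul ι N k x
  le := by
    intro x
    have h0 : 0 < (embCusp (L := L) ι N).idx x := (embCusp (L := L) ι N).idx_pos x
    have h1 : 0 < Nat.card (MulAction.orbit (Subgroup.zpowers ModularGroup.T) x) :=
      card_orbit_pos N x
    exact Nat.le_of_dvd (Nat.mul_pos h1 h0) (N_dvd_card_mul_idx ι N x)

end Cusps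

end Fermat.Agent.X0Places
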