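import Mathlib.Analysis.Complex.UpperHalfPlane.Manifold
import Mathlib.Analysis.Complex.UpperHalfPlane.MoebiusAction
import Mathlib.NumberTheory.ModularForms.Basic
import Mathlib.RingTheory.Valuation.ExtendToLocalization
import Mathlib.RingTheory.Localization.FractionRing
import Mathlib.Algebra.GroupWithZero.WithZero
import Mathlib.Analysis.Analytic.Order

/-!
# The ring of holomorphic functions on the upper half plane and its field of fractions
-/

set_option autoImplicit false

noncomputable section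

open UpperHalfPlane Function WithZero
open scoped Manifold MatrixGroups Topology

namespace Fermat.Agent.X0Places

/-- order of vanishing at a point of the upper half plane -/
def ordH (τ : ℍ) (f : ℍ → ℂ) : ℕ∞ := analyticOrderAt (f ∘ ofComplex) (τ : ℂ)

theorem analyticAt_ofMDiff {f : ℍ → ℂ} (hf : MDiff f) (τ : ℍ) :
    AnalyticAt ℂ (f ∘ ofComplex) (τ : ℂ) :=
  (UpperHalfPlane.mdifferentiable_iff.mp hf).analyticAt (isOpen_upperHalfPlaneSet.mem_nhds τ.im_pos)

theorem ordH_mul {f g : ℍ → ℂ} (hf : MDiff f) (hg : MDiff g) (τ : ℍ) :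
    ordH τ (f * g) = ordH τ f + ordH τ g :=
  analyticOrderAt_mul (analyticAt_ofMDiff hf τ) (analyticAt_ofMDiff hg τ)

theorem ordH_add {f g : ℍ → ℂ} (τ : ℍ) :
    min (ordH τ f) (ordH τ g) ≤ ordH τ (f + g) :=
  le_analyticOrderAt_add

theorem ordH_eq_top_iff {f : ℍ → ℂ} (hf : MDiff f) (τ : ℍ) : ordH τ f = ⊤ ↔ f = 0 := by
  constructor
  · intro h
    have h1 := analyticOrderAt_eq_top.1 h
    refine eq_zero_of_frequently (τ := τ) hf (Filter.Eventually.frequently ?_)
    rw [eventually_nhdsWithin_iff]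
    have h2 : ∀ᶠ z : ℍ in 𝓝 τ, (f ∘ ofComplex) (z : ℂ) = 0 := by
      rw [← isOpenEmbedding_coe.map_nhds_eq, Filter.eventually_map] at h1
      exact h1
    filter_upwards [h2] with z hz _
    simpa using hz
  · rintro rfl
    apply analyticOrderAt_eq_top.2
    exact Filter.Eventually.of_forall fun z => rfl

theorem ordH_ne_zero_iff {f : ℍ → ℂ} (hf : MDiff f) (τ : ℍ) : ordH τ f ≠ 0 ↔ f τ = 0 := by
  unfold ordH
  rw [(analyticAt_ofMDiff hf τ).analyticOrderAt_ne_zero]
  simp

theorem ordH_const {c : ℂ} (hc : c ≠ 0) (τ : ℍ) : ordH τ (fun _ => c) = 0 := by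
  by_contra h
  rw [← ne_eq, ordH_ne_zero_iff (mdifferentiable_const)] at h
  exact hc h

/-- the action of `g ∈ GL₂(ℝ)⁺` on functions -/
theorem ordH_comp_smul {f : ℍ → ℂ} (τ : ℍ) {g : GL (Fin 2) ℝ}
    (hg : 0 < g.val.det) : ordH τ (fun z => f (g • z)) = ordH (g • τ) f := by
  unfold ordH
  let G z : ℂ := ↑(g • ofComplex z)
  have h1 : ((fun z => f (g • z)) ∘ ofComplex) = (f ∘ ofComplex) ∘ G := by
    funext z
    simp [G]
  rw [h1, analyticOrderAt_comp_of_deriv_ne_zero]
  · simp [G]
  · exact τ.analyticAt_smul hg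
  · exact τ.deriv_smul_ne_zero hg

/-- the ring of holomorphic functions on the upper half plane -/
def Holo : Subring (ℍ → ℂ) where
  carrier := {f | MDiff f}
  mul_mem' {f g} hf hg := by
    show MDiff (f * g)
    exact MDifferentiable.mul hf hg
  one_mem' := by
    show MDiff (fun _ : ℍ => (1 : ℂ))
    exact mdifferentiable_const
  add_mem' {f g} hf hg := by
    show MDiff (f + g)
    exact MDifferentiable.add hf hg
  zero_mem' := by
    show MDiff (fun _ : ℍ => (0 : ℂ))
    exact mdifferentiable_const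
  neg_mem' {f} hf := by
    show MDiff (-f)
    exact MDifferentiable.neg hf

theorem mem_holo {f : ℍ → ℂ} : f ∈ Holo ↔ MDiff f := Iff.rfl

instance : IsDomain Holo := by
  have h0 : NoZeroDivisors Holo := by
    constructor
    intro a b hab
    have h1 : (a : ℍ → ℂ) * (b : ℍ → ℂ) = 0 := congrArg Subtype.val hab
    rcases (UpperHalfPlane.mul_eq_zero_iff a.2 b.2).1 h1 with h | h
    · exact Or.inl (Subtype.ext h)
    · exact Or.inr (Subtype.ext h)
  have h1 : Nontrivial Holo := by
    refine ⟨⟨0, 1, fun h => ?_⟩⟩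
    have h2 : (0 : ℍ → ℂ) = 1 := congrArg Subtype.val h
    exact zero_ne_one (congrFun h2 UpperHalfPlane.I)
  exact NoZeroDivisors.to_isDomain _

/-- valuation on the ring of holomorphic functions given by the order at `τ` -/
def valHolo (τ : ℍ) : Valuation Holo ℤᵐ⁰ where
  toFun f := if ordH τ (f : ℍ → ℂ) = ⊤ then 0 else exp (-((ordH τ (f : ℍ → ℂ)).toNat : ℤ))
  map_zero' := by
    rw [if_pos]
    exact (ordH_eq_top_iff (mem_holo.1 (0 : Holo).2) τ).2 rfl
  map_one' := by
    have h : ordH τ ((1 : Holo) : ℍ → ℂ) = 0 := ordH_const one_ne_zero τ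
    rw [h]
    simp
  map_mul' f g := by
    have h : ordH τ ((f * g : Holo) : ℍ → ℂ) = ordH τ (f : ℍ → ℂ) + ordH τ (g : ℍ → ℂ) :=
      ordH_mul f.2 g.2 τ
    rw [h]
    by_cases hf : ordH τ (f : ℍ → ℂ) = ⊤
    · simp [hf]
    by_cases hg : ordH τ (g : ℍ → ℂ) = ⊤
    · simp [hg]
    rw [if_neg hf, if_neg hg, if_neg (by simp [hf, hg]), ENat.toNat_add hf hg, ← exp_add]
    congr 1
    push_cast
    ring
  map_add_le_max' f g := by
    have h : min (ordH τ (f : ℍ → ℂ)) (ordH τ (g : ℍ → ℂ)) ≤ ordH τ ((f + g : Holo) : ℍ → ℂ) :=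
      ordH_add τ
    by_cases hfg : ordH τ ((f + g : Holo) : ℍ → ℂ) = ⊤
    · rw [if_pos hfg]; exact zero_le
    rw [if_neg hfg]
    by_cases hf : ordH τ (f : ℍ → ℂ) = ⊤
    · rw [hf, min_eq_right le_top] at h
      have hg : ordH τ (g : ℍ → ℂ) ≠ ⊤ := fun h' => hfg (top_le_iff.1 (h' ▸ h))
      rw [if_neg hg]
      apply le_max_of_le_right
      rw [exp_le_exp]
      have := ENat.toNat_le_toNat h hfg
      omega
    by_cases hg : ordH τ (g : ℍ → ℂ) = ⊤
    · rw [hg, min_eq_left le_top] at h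
      rw [if_neg hf]
      apply le_max_of_le_left
      rw [exp_le_exp]
      have := ENat.toNat_le_toNat h hfg
      omega
    rw [if_neg hf, if_neg hg]
    rcases le_total (ordH τ (f : ℍ → ℂ)) (ordH τ (g : ℍ → ℂ)) with hle | hle
    · rw [min_eq_left hle] at h
      apply le_max_of_le_left
      rw [exp_le_exp]
      have := ENat.toNat_le_toNat h hfg
      omega
    · rw [min_eq_right hle] at h
      apply le_max_of_le_right
      rw [exp_le_exp]
      have := ENat.toNat_le_toNat h hfg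
      omega

theorem valHolo_apply (τ : ℍ) {f : Holo} (hf : f ≠ 0) :
    valHolo τ f = exp (-((ordH τ (f : ℍ → ℂ)).toNat : ℤ)) := by
  show (if ordH τ (f : ℍ → ℂ) = ⊤ then 0 else exp (-((ordH τ (f : ℍ → ℂ)).toNat : ℤ))) = _
  rw [if_neg]
  intro h
  apply hf
  exact Subtype.ext ((ordH_eq_top_iff f.2 τ).1 h)

theorem valHolo_eq_zero_iff (τ : ℍ) {f : Holo} : valHolo τ f = 0 ↔ f = 0 := by
  constructor
  · intro h
    by_contra hf
    rw [valHolo_apply τ hf] at h
    exact exp_ne_zero h
  · rintro rfl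
    exact map_zero _

theorem valHolo_le_one (τ : ℍ) (f : Holo) : valHolo τ f ≤ 1 := by
  by_cases hf : f = 0
  · rw [hf, map_zero]; exact zero_le
  rw [valHolo_apply τ hf, ← exp_zero, exp_le_exp]
  omega

/-- the field of meromorphic functions on the upper half plane (fractions of holomorphic
functions) -/
abbrev Mer : Type := FractionRing Holo

theorem nonZeroDivisors_le (τ : ℍ) : nonZeroDivisors Holo ≤ (valHolo τ).supp.primeCompl := by
  intro f hf h
  have h1 : valHolo τ f = 0 := (Valuation.mem_supp_iff _ _).1 h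
  rw [valHolo_eq_zero_iff] at h1
  exact nonZeroDivisors.ne_zero hf h1

/-- the valuation on meromorphic functions given by the order at `τ` -/
def valMer (τ : ℍ) : Valuation Mer ℤᵐ⁰ :=
  (valHolo τ).extendToLocalization (nonZeroDivisors_le τ) Mer

@[simp]
theorem valMer_algebraMap (τ : ℍ) (f : Holo) : valMer τ (algebraMap Holo Mer f) = valHolo τ f :=
  (valHolo τ).extendToLocalization_apply_map_apply (nonZeroDivisors_le τ) Mer f

theorem det_coe_pos (γ : SL(2, ℤ)) : 0 < ((γ : GL (Fin 2) ℝ)).val.det := by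
  have h : (γ : GL (Fin 2) ℝ).det.val = 1 := by simp
  have h1 : ((γ : GL (Fin 2) ℝ)).val.det = (γ : GL (Fin 2) ℝ).det.val := rfl
  rw [h1, h]
  exact one_pos

/-- composition with `γ ∈ SL₂(ℤ)` on holomorphic functions -/
def compHolo (γ : SL(2, ℤ)) : Holo →+* Holo where
  toFun f := ⟨fun z => (f : ℍ → ℂ) (γ • z), by
    have h := MDifferentiable.comp (f := fun z : ℍ => (γ : GL (Fin 2) ℝ) • z)
      (g := (f : ℍ → ℂ)) (mem_holo.1 f.2) (mdifferentiable_smul (by simp))
    exact h⟩
  map_one' := rfl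
  map_mul' f g := rfl
  map_zero' := rfl
  map_add' f g := rfl

theorem compHolo_apply (γ : SL(2, ℤ)) (f : Holo) (z : ℍ) :
    (compHolo γ f : ℍ → ℂ) z = (f : ℍ → ℂ) (γ • z) := rfl

theorem compHolo_injective (γ : SL(2, ℤ)) : Injective (compHolo γ) := by
  intro f g h
  apply Subtype.ext
  funext z
  have h1 := congrFun (congrArg Subtype.val h) (γ⁻¹ • z)
  have h2 : (f : ℍ → ℂ) (γ • γ⁻¹ • z) = (g : ℍ → ℂ) (γ • γ⁻¹ • z) := h1
  simpa using h2

theorem valHolo_compHolo (τ : ℍ) (γ : SL(2, ℤ)) (f : Holo) :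
    valHolo τ (compHolo γ f) = valHolo (γ • τ) f := by
  by_cases hf : f = 0
  · rw [hf, map_zero, map_zero, map_zero]
  · have hf' : compHolo γ f ≠ 0 := fun h => hf (compHolo_injective γ (h.trans (map_zero _).symm))
    rw [valHolo_apply τ hf', valHolo_apply _ hf]
    have : ordH τ (compHolo γ f : ℍ → ℂ) = ordH (γ • τ) (f : ℍ → ℂ) :=
      ordH_comp_smul (g := (γ : GL (Fin 2) ℝ)) τ (det_coe_pos γ)
    rw [this]

/-- composition with `γ ∈ SL₂(ℤ)` on meromorphic functions -/
def compMer (γ : SL(2, ℤ)) : Mer →+* Mer :=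
  IsFractionRing.lift (A := Holo) (K := Mer) (g := (algebraMap Holo Mer).comp (compHolo γ))
    ((IsFractionRing.injective Holo Mer).comp (compHolo_injective γ))

@[simp]
theorem compMer_algebraMap (γ : SL(2, ℤ)) (f : Holo) :
    compMer γ (algebraMap Holo Mer f) = algebraMap Holo Mer (compHolo γ f) :=
  IsFractionRing.lift_algebraMap _ f

theorem valMer_compMer (τ : ℍ) (γ : SL(2, ℤ)) (x : Mer) :
    valMer τ (compMer γ x) = valMer (γ • τ) x := by
  obtain ⟨a, b, hb, rfl⟩ := IsFractionRing.div_surjective (A := Holo) x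
  rw [map_div₀, map_div₀, map_div₀, compMer_algebraMap, compMer_algebraMap, valMer_algebraMap,
    valMer_algebraMap, valMer_algebraMap, valMer_algebraMap, valHolo_compHolo, valHolo_compHolo]

theorem compMer_mul (γ δ : SL(2, ℤ)) (x : Mer) :
    compMer γ (compMer δ x) = compMer (δ * γ) x := by
  obtain ⟨a, b, hb, rfl⟩ := IsFractionRing.div_surjective (A := Holo) x
  have h : ∀ f : Holo, compHolo γ (compHolo δ f) = compHolo (δ * γ) f := by
    intro f
    apply Subtype.ext
    funext z
    rw [compHolo_apply, compHolo_apply, compHolo_apply, mul_smul]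
  simp only [map_div₀, compMer_algebraMap, h]

end Fermat.Agent.X0Places
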