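import Fermat.Agent.X0Places.LaurentZ
import Fermat.Agent.X0Places.Holo
import Fermat.Agent.ModPoly.DeltaExp
import Fermat.Agent.JInv.Order
import Fermat.Prelude.Def_ModularCurve_JqCoeff

/-!
# The `q`-expansion of the `j`-function
-/

set_option autoImplicit false

noncomputable section

open UpperHalfPlane Function ModularCurve Filter ModularForm
open scoped Manifold MatrixGroups Topology ModularForm

namespace Fermat.Agent.X0Places

open Function.Periodic (qParam)

theorem HasQExp.shift {h : ℝ} {f : ℍ → ℂ} {P : PowerSeries ℂ} (hf : HasQExp h f P) :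
    HasQExp h (fun τ => (f τ - P.coeff 0) / qParam h τ)
      (PowerSeries.mk fun n => P.coeff (n + 1)) := by
  intro τ
  have hq : qParam h (τ : ℂ) ≠ 0 := qParam_ne_zero' h τ
  have h1 := (hasSum_nat_add_iff' 1).2 (hf τ)
  have h2 := h1.div_const (qParam h τ)
  simp only [Finset.range_one, Finset.sum_singleton, pow_zero, mul_one] at h2
  refine h2.congr_fun ?_ |> fun h => h
  intro m
  rw [PowerSeries.coeff_mk, pow_succ]
  field_simp

theorem HasQExp.bounded {h : ℝ} (hh : 0 < h) {f : ℍ → ℂ} {P : PowerSeries ℂ}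
    (hf : HasQExp h f P) : IsBoundedAtImInfty f :=
  isBoundedAtImInfty_of_hasSum_qExpansion hh
    (c := fun m => P.coeff m) (fun τ => by simpa [smul_eq_mul] using hf τ)

theorem HasQExp.tendsto {h : ℝ} (hh : 0 < h) {f : ℍ → ℂ} {P : PowerSeries ℂ}
    (hf : HasQExp h f P) : Tendsto f atImInfty (𝓝 (P.coeff 0)) := by
  have h1 := (HasQExp.shift hf).bounded hh
  have h2 : Tendsto (fun τ : ℍ => qParam h τ * ((f τ - P.coeff 0) / qParam h τ)) atImInfty
      (𝓝 0) := by
    have h3 := qParam_tendsto_atImInfty hh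
    have h4 : (fun τ : ℍ => (f τ - P.coeff 0) / qParam h τ) =O[atImInfty] (fun _ => (1 : ℝ)) := h1
    have h5 := (Asymptotics.isLittleO_one_iff ℝ).2 h3
    have h6 := h5.mul_isBigO h4
    simp only [mul_one] at h6
    exact (Asymptotics.isLittleO_one_iff ℝ).1 h6
  have h3 : Tendsto (fun τ : ℍ => P.coeff 0 + qParam h τ * ((f τ - P.coeff 0) / qParam h τ))
      atImInfty (𝓝 (P.coeff 0 + 0)) := tendsto_const_nhds.add h2
  rw [add_zero] at h3
  refine h3.congr fun τ => ?_
  have hq : qParam h (τ : ℂ) ≠ 0 := qParam_ne_zero' h τ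
  field_simp
  ring

theorem HasQExp.periodic {h : ℝ} (hh : h ≠ 0) {f : ℍ → ℂ} {P : PowerSeries ℂ}
    (hf : HasQExp h f P) : Periodic (f ∘ ofComplex) h := by
  intro w
  by_cases hw : 0 < w.im
  · have h1 : 0 < (w + h).im := by simpa using hw
    simp only [comp_apply, ofComplex_apply_of_im_pos h1, ofComplex_apply_of_im_pos hw]
    have h2 := hf ⟨w + h, h1⟩
    have h3 := hf ⟨w, hw⟩
    have h4 : qParam h ((⟨w + h, h1⟩ : ℍ) : ℂ) = qParam h ((⟨w, hw⟩ : ℍ) : ℂ) := by
      show qParam h (w + h) = qParam h w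
      have h5 : (h : ℂ) ≠ 0 := by exact_mod_cast hh
      simp only [qParam]
      rw [show 2 * (Real.pi : ℂ) * Complex.I * (w + h) / h =
        2 * Real.pi * Complex.I * w / h + 2 * Real.pi * Complex.I by field_simp,
        Complex.exp_add, Complex.exp_two_pi_mul_I, mul_one]
    rw [h4] at h2
    exact h2.unique h3
  · have h1 : (w + h).im ≤ 0 := by simpa using hw
    have h2 : w.im ≤ 0 := by simpa using hw
    simp [ofComplex_apply_of_im_nonpos h1, ofComplex_apply_of_im_nonpos h2]

/-- expansions of inverses of nowhere vanishing functions -/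
theorem HasQExp.inv {h : ℝ} (hh : 0 < h) {f : ℍ → ℂ} {P : PowerSeries ℂ}
    (hf : HasQExp h f P) (hhol : MDiff f) (hne : ∀ τ, f τ ≠ 0) (h0 : P.coeff 0 ≠ 0) :
    HasQExp h (fun τ => (f τ)⁻¹) P⁻¹ := by
  have hper : Periodic ((fun τ => (f τ)⁻¹) ∘ ofComplex) h := by
    intro w
    have := hf.periodic hh.ne' w
    simp only [comp_apply] at this ⊢
    rw [this]
  have hhol' : MDiff (fun τ : ℍ => (f τ)⁻¹) := by
    rw [UpperHalfPlane.mdifferentiable_iff] at hhol ⊢
    have h2 : (fun z : ℍ => (f z)⁻¹) ∘ ofComplex = (f ∘ ofComplex)⁻¹ := rfl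
    rw [h2]
    exact hhol.inv fun z _ => hne _
  have hb : IsBoundedAtImInfty (fun τ : ℍ => (f τ)⁻¹) := by
    have h1 := (hf.tendsto hh).inv₀ h0
    exact h1.isBigO_one ℝ
  have h1 : HasQExp h (fun τ => (f τ)⁻¹) (qExpansion h (fun τ : ℍ => (f τ)⁻¹)) := by
    intro τ
    simpa [smul_eq_mul] using hasSum_qExpansion hh hper hhol' hb τ
  have h2 := h1.mul hf
  have h3 : ((fun τ => (f τ)⁻¹) * f) = fun _ => (1 : ℂ) := by
    funext τ
    simp [hne τ]
  rw [h3] at h2
  have h4 := h2.unique hh (HasQExp.const 1)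
  rw [map_one] at h4
  have h5 : qExpansion h (fun τ : ℍ => (f τ)⁻¹) = P⁻¹ := by
    rw [PowerSeries.eq_inv_iff_mul_eq_one]
    · exact h4
    · rwa [← PowerSeries.coeff_zero_eq_constantCoeff]
  rwa [h5] at h1

theorem hasQExp_discriminant :
    HasQExp 1 ModularForm.discriminant
      (Fermat.Agent.ModPoly.deltaPS.map (Int.castRingHom ℂ)) := by
  intro τ
  rw [← Fermat.Agent.ModPoly.qExpansion_discriminant]
  exact ModularForm.hasSum_qExpansion (f := CuspForm.discriminant) one_pos
    one_mem_strictPeriods_SL τ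

theorem hasQExp_E4 :
    HasQExp 1 (E₄ : ModularForm 𝒮ℒ 4) (eisenstein4.map (Int.castRingHom ℂ)) := by
  intro τ
  rw [← Fermat.Agent.ModPoly.qExpansion_E4]
  exact ModularForm.hasSum_qExpansion (f := (E₄ : ModularForm 𝒮ℒ 4)) one_pos
    one_mem_strictPeriods_SL τ

/-- The `q`-expansion of the `j`-function. -/
theorem hasLaurent_jInv : HasLaurent 1 Fermat.Agent.JInv.jInv (jqModC ℂ) := by
  set D : ℍ → ℂ := fun τ => ModularForm.discriminant τ / qParam 1 τ with hD
  have h1 : HasQExp 1 D (dedekindEtaUnit.map (Int.castRingHom ℂ)) := by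
    have h2 := hasQExp_discriminant.shift
    have h3 : (Fermat.Agent.ModPoly.deltaPS.map (Int.castRingHom ℂ)).coeff 0 = 0 := by
      simp [Fermat.Agent.ModPoly.deltaPS]
    simp only [h3, sub_zero] at h2
    convert h2 using 1
    ext n
    rw [PowerSeries.coeff_mk, PowerSeries.coeff_map, PowerSeries.coeff_map,
      Fermat.Agent.ModPoly.deltaPS, PowerSeries.coeff_succ_X_mul]
  have hne : ∀ τ, D τ ≠ 0 := fun τ =>
    div_ne_zero (ModularForm.discriminant_ne_zero τ) (qParam_ne_zero' 1 τ)
  have h0 : (dedekindEtaUnit.map (Int.castRingHom ℂ)).coeff 0 = 1 := by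
    rw [PowerSeries.coeff_map, PowerSeries.coeff_zero_eq_constantCoeff,
      constantCoeff_dedekindEtaUnit, map_one]
  have hhol : MDiff D := by
    have h2 : MDiff ModularForm.discriminant := CuspForm.discriminant.holo'
    have h3 : MDiff (fun τ : ℍ => (qParam 1 τ)⁻¹) := by
      rw [UpperHalfPlane.mdifferentiable_iff]
      have h4 : DifferentiableOn ℂ (fun z : ℂ => (qParam 1 z)⁻¹) {z | 0 < z.im} := by
        apply DifferentiableOn.inv
        · exact (Function.Periodic.differentiable_qParam (h := 1)).differentiableOn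
        · intro z _
          exact qParam_ne_zero' 1 z
      refine h4.congr fun z hz => ?_
      rw [comp_apply, ofComplex_apply_of_im_pos hz]
    have h4 : D = ModularForm.discriminant * fun τ : ℍ => (qParam 1 τ)⁻¹ := by
      funext τ
      simp [hD, div_eq_mul_inv]
    rw [h4]
    exact h2.mul h3
  have h2 := h1.inv one_pos hhol hne (by rw [h0]; exact one_ne_zero)
  have h3 : (dedekindEtaUnit.map (Int.castRingHom ℂ))⁻¹ =
      dedekindEtaUnitInv.map (Int.castRingHom ℂ) := by
    symm
    rw [PowerSeries.eq_inv_iff_mul_eq_one, ← map_mul, mul_comm, dedekindEtaUnit_mul_inv, map_one]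
    rw [← PowerSeries.coeff_zero_eq_constantCoeff, h0]
    exact one_ne_zero
  rw [h3] at h2
  have h4 := (hasQExp_E4.pow 3).mul h2
  rw [← map_pow, ← map_mul, ← jNum] at h4
  refine ⟨1, jNum.map (Int.castRingHom ℂ), ?_, ?_⟩
  · rw [jqModC, ← mul_assoc, HahnSeries.single_mul_single]
    simp
  · convert h4 using 1
    funext τ
    have hq := qParam_ne_zero' 1 (τ : ℂ)
    have hd := ModularForm.discriminant_ne_zero τ
    simp only [Pi.mul_apply, Pi.pow_apply, hD, Fermat.Agent.JInv.jInv, pow_one]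
    field_simp

end Fermat.Agent.X0Places
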