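import Mathlib.FieldTheory.PrimitiveElement
import Mathlib.FieldTheory.IntermediateField.Algebraic

/-!
# A degree argument
-/

set_option autoImplicit false

open IntermediateField Polynomial

namespace Fermat.Agent.X0Places

variable {K Ω : Type*} [Field K] [Field Ω] [Algebra K Ω]

/-- If all elements of a field `A` have degree at most `n` over `K` and `z ∈ A` has `n` distinct
conjugates then `A = K(z)`. -/
theorem mem_adjoin_of_conjugates [CharZero K] (A : Subfield Ω)
    (hKA : ∀ c : K, algebraMap K Ω c ∈ A) (n : ℕ)
    (hA : ∀ y ∈ A, ∃ Q : K[X], Q ≠ 0 ∧ Q.natDegree ≤ n ∧ aeval y Q = 0)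
    {z : Ω} (hz : z ∈ A) {X : Type*} [Finite X] (hX : Nat.card X = n)
    (φ : X → (Ω →ₐ[K] Ω)) (hφ : Function.Injective fun c => φ c z)
    {h : Ω} (hh : h ∈ A) : h ∈ K⟮z⟯ := by
  classical
  have hint : ∀ y ∈ A, IsIntegral K y := fun y hy => by
    obtain ⟨Q, h0, -, h1⟩ := hA y hy
    exact IsAlgebraic.isIntegral (⟨Q, h0, h1⟩ : IsAlgebraic K y)
  have hdeg : ∀ y ∈ A, (minpoly K y).natDegree ≤ n := fun y hy => by
    obtain ⟨Q, h0, hd, h1⟩ := hA y hy
    exact (natDegree_le_natDegree (minpoly.degree_le_of_ne_zero K y h0 h1)).trans hd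
  -- lower bound
  have hlow : n ≤ (minpoly K z).natDegree := by
    have := Fintype.ofFinite X
    have h1 : Finset.univ.image (fun c => φ c z) ⊆ ((minpoly K z).map (algebraMap K Ω)).roots.toFinset := by
      intro w hw
      rw [Finset.mem_image] at hw
      obtain ⟨c, -, rfl⟩ := hw
      rw [Multiset.mem_toFinset, mem_roots_map (minpoly.ne_zero (hint z hz))]
      rw [← aeval_def, aeval_algHom_apply, minpoly.aeval, map_zero]
    have h2 := Finset.card_le_card h1
    rw [Finset.card_image_of_injective _ hφ, Finset.card_univ, ← Nat.card_eq_fintype_card, hX] at h2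
    refine h2.trans ((Multiset.toFinset_card_le _).trans ?_)
    refine (card_roots' _).trans ?_
    exact natDegree_map_le
  set E := K⟮z, h⟯ with hE
  have hfin : FiniteDimensional K E := by
    apply finiteDimensional_adjoin
    rintro x (rfl | rfl)
    · exact hint _ hz
    · exact hint _ hh
  have hEA : ∀ y ∈ E, y ∈ A := by
    intro y hy
    induction hy using IntermediateField.adjoin_induction with
    | mem w hw =>
      rcases hw with rfl | rfl
      · exact hz
      · exact hh
    | algebraMap c => exact hKA c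
    | add a b ha hb iha ihb => exact add_mem iha ihb
    | inv a ha iha => exact inv_mem iha
    | mul a b ha hb iha ihb => exact mul_mem iha ihb
  obtain ⟨α, hα⟩ := Field.exists_primitive_element K E
  have h1 : Module.finrank K E = (minpoly K α).natDegree := by
    rw [← IntermediateField.adjoin.finrank (IsIntegral.of_finite K α), hα]
    exact (finrank_top' (F := K) (E := E)).symm
  have h2 : minpoly K α = minpoly K (α : Ω) :=
    (minpoly.algebraMap_eq (algebraMap E Ω).injective α).symm
  have h3 : Module.finrank K E ≤ n := by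
    rw [h1, h2]
    exact hdeg _ (hEA _ α.2)
  have h4 : K⟮z⟯ ≤ E := by
    rw [adjoin_simple_le_iff]
    exact subset_adjoin K _ (Or.inl rfl)
  have h5 : Module.finrank K K⟮z⟯ = (minpoly K z).natDegree :=
    IntermediateField.adjoin.finrank (hint z hz)
  have h6 : K⟮z⟯ = E := eq_of_le_of_finrank_le h4 (by rw [h5]; exact h3.trans hlow)
  rw [h6]
  exact subset_adjoin K _ (Or.inr rfl)

end Fermat.Agent.X0Places
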