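import Fermat.Agent.X0Places.NormPoly
import Fermat.Agent.X0Places.DegArg
import Mathlib.FieldTheory.PrimitiveElement
import Mathlib.FieldTheory.Fixed

/-!
# All modular functions are in the function field
-/

set_option autoImplicit false
set_option linter.unusedSectionVars false
set_option linter.style.haveILetI false
set_option linter.unusedVariables false

noncomputable section

open UpperHalfPlane Function ModularCurve Filter ModularForm CongruenceSubgroup IntermediateField
open scoped Manifold MatrixGroups Topology ModularForm Polynomial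

namespace Fermat.Agent.X0Places

open Fermat.Agent.JInv (jInv jInv_smul)

variable (N : ℕ) [NeZero N]

instance charZero_Mer : CharZero Mer := by
  have h1 : Injective (algebraMap Holo Mer) := IsFractionRing.injective Holo Mer
  have h2 : CharZero Holo := by
    refine ⟨fun m n h => ?_⟩
    have h3 := congrFun (congrArg Subtype.val h) UpperHalfPlane.I
    have h4 : ∀ k : ℕ, ((k : Holo) : ℍ → ℂ) UpperHalfPlane.I = k := by
      intro k
      exact map_natCast ((Pi.evalRingHom (fun _ : ℍ => ℂ) UpperHalfPlane.I).comp Holo.subtype) k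
    rw [h4, h4] at h3
    exact_mod_cast h3
  exact charZero_of_injective_algebraMap h1

instance charZero_Kj : CharZero Kj := (algebraMap Kj Mer).charZero

theorem compMer_of_mem_Kj (g : SL(2, ℤ)) {x : Mer} (hx : x ∈ Kj) : compMer g x = x := by
  have h : Kj ≤ (compMer g).eqLocusField (RingHom.id Mer) := by
    rw [Kj, Subfield.closure_le]
    rintro x (⟨c, rfl⟩ | rfl)
    · show compMer g _ = _
      rw [compMer_algebraMap, compHolo_const]; rfl
    · show compMer g _ = _
      rw [compMer_algebraMap, compHolo_j]; rfl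
  exact h hx

/-- `compMer` as an algebra homomorphism over `ℂ(j)` -/
def compMerAlg (g : SL(2, ℤ)) : Mer →ₐ[Kj] Mer where
  __ := compMer g
  commutes' r := compMer_of_mem_Kj g r.2

/-- the function `j(Nτ)` -/
def jNHolo : Holo := ⟨jd N (Nat.pos_of_ne_zero (NeZero.ne N)), mdiff_jd N _⟩

theorem jNHolo_mem : jNHolo N ∈ AnHolo N := isAn_jd N _ dvd_rfl

/-- **All modular functions of level `N` are rational functions of `j` and `j_N`.** -/
theorem mem_adjoin_jN {h : Mer} (hh : h ∈ KAn N) :
    h ∈ (adjoin Kj {algebraMap Holo Mer (jNHolo N)} : IntermediateField Kj Mer) := by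
  refine mem_adjoin_of_conjugates (K := Kj) (KAn N) (fun c => Kj_le_KAn c.2) (Nat.card (XN N))
    (fun y hy => exists_poly_of_mem_KAn hy) (anHolo_mem_KAn ⟨_, jNHolo_mem N⟩) (X := XN N) rfl
    (fun c => compMerAlg (Quotient.out c)⁻¹) ?_ hh
  intro c c' h
  have h3 : compMer (Quotient.out c)⁻¹ (algebraMap Holo Mer (jNHolo N)) =
    compMer (Quotient.out c')⁻¹ (algebraMap Holo Mer (jNHolo N)) := h
  rw [compMer_algebraMap, compMer_algebraMap] at h3
  have h4 := IsFractionRing.injective Holo Mer h3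
  have h5 := coset_eq_of_jd_eq N (g := Quotient.out c) (h := Quotient.out c')
    (fun τ => congrFun (congrArg Subtype.val h4) τ)
  have h6 : ∀ d : XN N, ((Quotient.out d : SL(2, ℤ)) : XN N) = d := fun d => Quotient.out_eq' d
  rwa [h6, h6] at h5

/-- **All modular functions of level `N` are in the function field.** -/
theorem mem_range_toMer_of_KAn {h : Mer} (hh : h ∈ KAn N) :
    ∃ x : FF ℂ N, toMer (RingHom.id ℂ) N x = h := by
  have h1 := mem_adjoin_jN N hh
  have h2 : (adjoin Kj {algebraMap Holo Mer (jNHolo N)} : IntermediateField Kj Mer).toSubfield ≤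
      (toMer (RingHom.id ℂ) N).fieldRange := by
    rw [adjoin_toSubfield, Subfield.closure_le]
    rintro x (⟨c, rfl⟩ | rfl)
    · have h3 : Kj ≤ (toMer (RingHom.id ℂ) N).fieldRange := by
        rw [Kj, Subfield.closure_le]
        rintro x (⟨c, rfl⟩ | rfl)
        · exact ⟨_, toMer_algebraMap (RingHom.id ℂ) N c⟩
        · exact ⟨_, toMer_jF (RingHom.id ℂ) N⟩
      exact h3 c.2
    · exact ⟨_, toMer_jNF (RingHom.id ℂ) N⟩
  exact h2 h1

theorem coeffMap_id' (x : LaurentSeries ℂ) : coeffMap (RingHom.id ℂ) x = x := coeffMap_id x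

/-- an element of `AnHolo N` has an expansion at infinity of width one -/
theorem IsAn.hasLaurent_one {f : ℍ → ℂ} (hf : IsAn N f) : ∃ y, HasLaurent 1 f y := by
  obtain ⟨x, hx⟩ := hf.exp 1
  have h1 : (fun τ => f ((1 : SL(2, ℤ)) • τ)) = f := by
    funext τ; rw [one_smul]
  rw [h1] at hx
  apply hasLaurent_one_of_T hx
  apply hf.inv
  rw [Gamma0_mem]
  simp [ModularGroup.T]

/-- **Modular functions are in the function field**: the expansion of a holomorphic function
on the upper half plane, invariant under `Γ₀(N)` and meromorphic at the cusps, is in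
`FF ℂ N`. -/
theorem IsAn.mem_FF {f : ℍ → ℂ} (hf : IsAn N f) {y : LaurentSeries ℂ} (hy : HasLaurent 1 f y) :
    y ∈ FF ℂ N := by
  obtain ⟨x, hx⟩ := mem_range_toMer_of_KAn N (anHolo_mem_KAn (N := N) ⟨⟨f, hf.hol⟩, hf⟩)
  obtain ⟨a, b, hb, rfl⟩ := IsFractionRing.div_surjective (A := AF (RingHom.id ℂ) N) x
  have hb0 : (algebraMap (AF (RingHom.id ℂ) N) (FF ℂ N) b) ≠ 0 := by
    rw [map_ne_zero_iff _ (IsFractionRing.injective _ _)]
    exact nonZeroDivisors.ne_zero hb
  have hb1 : toMer (RingHom.id ℂ) N (algebraMap (AF (RingHom.id ℂ) N) (FF ℂ N) b) ≠ 0 := by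
    rwa [map_ne_zero]
  rw [map_div₀, div_eq_iff hb1] at hx
  have h1 : toMer (RingHom.id ℂ) N (algebraMap (AF (RingHom.id ℂ) N) (FF ℂ N) a) =
    algebraMap Holo Mer (anHom (RingHom.id ℂ) N (afToAnR (RingHom.id ℂ) N a)) := toMer_coe a
  have h2 : toMer (RingHom.id ℂ) N (algebraMap (AF (RingHom.id ℂ) N) (FF ℂ N) b) =
    algebraMap Holo Mer (anHom (RingHom.id ℂ) N (afToAnR (RingHom.id ℂ) N b)) := toMer_coe b
  rw [h1, h2, ← map_mul] at hx
  have h3 := congrArg Subtype.val (IsFractionRing.injective Holo Mer hx)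
  have h4 : anFn (afToAnR (RingHom.id ℂ) N a) = f * anFn (afToAnR (RingHom.id ℂ) N b) := h3
  have h5 := hasLaurent_anFn (afToAnR (RingHom.id ℂ) N a)
  have h6 := hasLaurent_anFn (afToAnR (RingHom.id ℂ) N b)
  rw [coeffMap_id] at h5 h6
  rw [h4] at h5
  have h7 := h5.unique one_pos (hy.mul h6)
  have h8 : ((afToAnR (RingHom.id ℂ) N b : AnR (RingHom.id ℂ) N) : LaurentSeries ℂ) ≠ 0 := by
    intro h
    apply hb0
    exact Subtype.ext h
  have h9 : y = ((afToAnR (RingHom.id ℂ) N a : AnR (RingHom.id ℂ) N) : LaurentSeries ℂ) /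
      ((afToAnR (RingHom.id ℂ) N b : AnR (RingHom.id ℂ) N) : LaurentSeries ℂ) := by
    rw [eq_div_iff h8, h7]
  rw [h9]
  exact div_mem (a : FF ℂ N).2 (b : FF ℂ N).2

end Fermat.Agent.X0Places
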