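import Mathlib.NumberTheory.ModularForms.QExpansion
import Mathlib.RingTheory.LaurentSeries
import Mathlib.Analysis.Normed.Ring.InfiniteSum

/-!
# Functions on the upper half plane with a Laurent `q`-expansion
-/

set_option autoImplicit false

open UpperHalfPlane Function Complex

namespace Fermat.Agent.X0Places

open Function.Periodic (qParam)

/-- `f` is the sum of the power series `P` in `q_h = exp (2πiτ/h)` -/
def HasQExp (h : ℝ) (f : ℍ → ℂ) (P : PowerSeries ℂ) : Prop :=
  ∀ τ : ℍ, HasSum (fun m : ℕ => P.coeff m * qParam h τ ^ m) (f τ)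

namespace HasQExp

variable {h : ℝ} {f g : ℍ → ℂ} {P Q : PowerSeries ℂ}

theorem unique_fun (hf : HasQExp h f P) (hg : HasQExp h g P) : f = g := by
  funext τ
  exact (hf τ).unique (hg τ)

theorem add (hf : HasQExp h f P) (hg : HasQExp h g Q) : HasQExp h (f + g) (P + Q) := by
  intro τ
  have := (hf τ).add (hg τ)
  refine this.congr_fun ?_ |> fun h => h
  intro m
  rw [map_add, add_mul]

theorem neg (hf : HasQExp h f P) : HasQExp h (-f) (-P) := by
  intro τ
  have := (hf τ).neg
  simpa using this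

theorem const (c : ℂ) : HasQExp h (fun _ => c) (PowerSeries.C c) := by
  intro τ
  have h1 : (fun m : ℕ => (PowerSeries.C c).coeff m * qParam h τ ^ m) =
      fun m => if m = 0 then c else 0 := by
    funext m
    rw [PowerSeries.coeff_C]
    split_ifs with hm
    · subst hm; simp
    · simp
  rw [h1]
  exact hasSum_ite_eq 0 c

theorem mul (hf : HasQExp h f P) (hg : HasQExp h g Q) : HasQExp h (f * g) (P * Q) := by
  intro τ
  have hf1 := (hf τ).summable.norm
  have hg1 := (hg τ).summable.norm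
  have h1 := tsum_mul_tsum_eq_tsum_sum_antidiagonal_of_summable_norm hf1 hg1
  have h2 := (summable_norm_sum_mul_antidiagonal_of_summable_norm hf1 hg1).of_norm
  rw [(hf τ).tsum_eq, (hg τ).tsum_eq] at h1
  have h3 : (fun m : ℕ => (P * Q).coeff m * qParam h τ ^ m) =
      fun n : ℕ => ∑ kl ∈ (Finset.HasAntidiagonal.antidiagonal n : Finset (ℕ × ℕ)),
        (P.coeff kl.1 * qParam h τ ^ kl.1) * (Q.coeff kl.2 * qParam h τ ^ kl.2) := by
    funext n
    rw [PowerSeries.coeff_mul, Finset.sum_mul]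
    refine Finset.sum_congr rfl fun kl hkl => ?_
    rw [← Finset.HasAntidiagonal.mem_antidiagonal.1 hkl, pow_add]
    ring
  rw [h3]
  show HasSum _ (f τ * g τ)
  rw [h1]
  exact h2.hasSum

theorem pow (hf : HasQExp h f P) (n : ℕ) : HasQExp h (f ^ n) (P ^ n) := by
  induction n with
  | zero =>
    rw [pow_zero, pow_zero]
    have := const (h := h) 1
    simpa using! this
  | succ n ih =>
    rw [pow_succ, pow_succ]
    exact ih.mul hf

theorem X_pow (n : ℕ) : HasQExp h (fun τ => qParam h τ ^ n) (PowerSeries.X ^ n) := by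
  intro τ
  have h1 : (fun m : ℕ => (PowerSeries.X ^ n : PowerSeries ℂ).coeff m * qParam h τ ^ m) =
      fun m => if m = n then qParam h τ ^ n else 0 := by
    funext m
    rw [PowerSeries.coeff_X_pow]
    split_ifs with hm
    · subst hm; simp
    · simp
  rw [h1]
  exact hasSum_ite_eq n _

theorem cuspFunction_zero_fun (h : ℝ) : cuspFunction h (fun _ : ℍ => (0 : ℂ)) = 0 := by
  ext q
  rcases eq_or_ne q 0 with rfl | hq
  · simpa [cuspFunction, Periodic.cuspFunction] using!
      Filter.Tendsto.limUnder_eq tendsto_const_nhds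
  · simp [cuspFunction, Periodic.cuspFunction_eq_of_nonzero h _ hq]

/-- If the function vanishes then so does the expansion. -/
theorem eq_zero_of_zero (hh : 0 < h) (hf : HasQExp h (fun _ => 0) P) : P = 0 := by
  have h1 : AnalyticAt ℂ (cuspFunction h (fun _ : ℍ => (0 : ℂ))) 0 := by
    rw [cuspFunction_zero_fun]; exact analyticAt_const
  have h2 := (hasFPowerSeriesOnBall_cuspFunction (f := fun _ : ℍ => (0 : ℂ))
    (c := fun m => P.coeff m) hh h1
    (fun τ => by have := hf τ; simpa only [smul_eq_mul] using this)).hasFPowerSeriesAt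
  rw [cuspFunction_zero_fun] at h2
  have h3 := h2.eq_zero
  apply PowerSeries.ext
  intro m
  have h4 := congrArg (fun p => FormalMultilinearSeries.coeff p m) h3
  have h5 : FormalMultilinearSeries.coeff (0 : FormalMultilinearSeries ℂ ℂ ℂ) m = 0 := rfl
  simpa [FormalMultilinearSeries.coeff_ofScalars, h5] using h4

theorem unique (hh : 0 < h) (hf : HasQExp h f P) (hg : HasQExp h f Q) : P = Q := by
  have h1 := hf.add hg.neg
  have h2 : f + -f = fun _ => 0 := by funext τ; simp
  rw [h2] at h1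
  have := eq_zero_of_zero hh h1
  rwa [← sub_eq_add_neg, sub_eq_zero] at this

theorem qExpansion_eq (hh : 0 < h) (hf : HasQExp h f P)
    (hfper : Periodic (f ∘ ofComplex) h)
    (hfhol : MDifferentiable (modelWithCornersSelf ℂ ℂ) (modelWithCornersSelf ℂ ℂ) f) :
    P = qExpansion h f := by
  have hb : IsBoundedAtImInfty f := isBoundedAtImInfty_of_hasSum_qExpansion hh
    (c := fun m => P.coeff m) (fun τ => by simpa [smul_eq_mul] using hf τ)
  refine unique hh hf (fun τ => ?_)
  simpa [smul_eq_mul] using hasSum_qExpansion hh hfper hfhol hb τ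

end HasQExp

/-- `f` is the sum of the Laurent series `x` in `q_h` -/
def HasLaurent (h : ℝ) (f : ℍ → ℂ) (x : LaurentSeries ℂ) : Prop :=
  ∃ (m : ℕ) (P : PowerSeries ℂ), HahnSeries.single (m : ℤ) 1 * x = HahnSeries.ofPowerSeries ℤ ℂ P ∧
    HasQExp h (fun τ => qParam h τ ^ m * f τ) P

namespace HasLaurent

variable {h : ℝ} {f g : ℍ → ℂ} {x y : LaurentSeries ℂ}

theorem of_qExp {P : PowerSeries ℂ} (hf : HasQExp h f P) :
    HasLaurent h f (HahnSeries.ofPowerSeries ℤ ℂ P) :=
  ⟨0, P, by simp, by simpa using hf⟩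

/-- we may increase `m` -/
theorem exists_ge (hf : HasLaurent h f x) (M : ℕ) :
    ∃ m, M ≤ m ∧ ∀ k : ℕ, ∃ P : PowerSeries ℂ,
      HahnSeries.single ((m + k : ℕ) : ℤ) 1 * x = HahnSeries.ofPowerSeries ℤ ℂ P ∧
      HasQExp h (fun τ => qParam h τ ^ (m + k) * f τ) P := by
  obtain ⟨m, P, h1, h2⟩ := hf
  refine ⟨m + M, by omega, fun k => ⟨PowerSeries.X ^ (M + k) * P, ?_, ?_⟩⟩
  · rw [map_mul, ← h1, HahnSeries.ofPowerSeries_X_pow, ← mul_assoc, HahnSeries.single_mul_single,
      one_mul]
    have : ((m + M + k : ℕ) : ℤ) = ((M + k : ℕ) : ℤ) + (m : ℤ) := by push_cast; ring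
    rw [this]
  · have h3 := (HasQExp.X_pow (h := h) (M + k)).mul h2
    have h4 : ((fun τ : ℍ => qParam h τ ^ (M + k)) * fun τ : ℍ => qParam h τ ^ m * f τ) =
        fun τ : ℍ => qParam h τ ^ (m + M + k) * f τ := by
      funext τ
      simp only [Pi.mul_apply]
      ring
    rwa [h4] at h3

theorem exists_common (hf : HasLaurent h f x) (hg : HasLaurent h g y) :
    ∃ (m : ℕ) (P Q : PowerSeries ℂ),
      HahnSeries.single (m : ℤ) 1 * x = HahnSeries.ofPowerSeries ℤ ℂ P ∧
      HasQExp h (fun τ => qParam h τ ^ m * f τ) P ∧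
      HahnSeries.single (m : ℤ) 1 * y = HahnSeries.ofPowerSeries ℤ ℂ Q ∧
      HasQExp h (fun τ => qParam h τ ^ m * g τ) Q := by
  obtain ⟨m1, -, h1⟩ := hf.exists_ge 0
  obtain ⟨m2, -, h2⟩ := hg.exists_ge 0
  obtain ⟨P, hP1, hP2⟩ := h1 m2
  obtain ⟨Q, hQ1, hQ2⟩ := h2 m1
  rw [add_comm m2 m1] at hQ1 hQ2
  exact ⟨m1 + m2, P, Q, hP1, hP2, hQ1, hQ2⟩

theorem add (hf : HasLaurent h f x) (hg : HasLaurent h g y) : HasLaurent h (f + g) (x + y) := by
  obtain ⟨m, P, Q, h1, h2, h3, h4⟩ := exists_common hf hg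
  refine ⟨m, P + Q, by rw [mul_add, h1, h3, map_add], ?_⟩
  have := h2.add h4
  convert this using 1
  funext τ
  simp only [Pi.add_apply]
  ring

theorem neg (hf : HasLaurent h f x) : HasLaurent h (-f) (-x) := by
  obtain ⟨m, P, h1, h2⟩ := hf
  refine ⟨m, -P, by rw [map_neg, ← h1]; exact mul_neg _ _, ?_⟩
  have := h2.neg
  convert this using 1
  funext τ
  simp only [Pi.neg_apply]
  ring

theorem mul (hf : HasLaurent h f x) (hg : HasLaurent h g y) : HasLaurent h (f * g) (x * y) := by
  obtain ⟨m, P, h1, h2⟩ := hf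
  obtain ⟨n, Q, h3, h4⟩ := hg
  refine ⟨m + n, P * Q, ?_, ?_⟩
  · rw [map_mul, ← h1, ← h3]
    have : (HahnSeries.single ((m + n : ℕ) : ℤ) (1 : ℂ)) =
        HahnSeries.single (m : ℤ) 1 * HahnSeries.single (n : ℤ) 1 := by
      rw [HahnSeries.single_mul_single, one_mul]; push_cast; rfl
    rw [this, mul_mul_mul_comm]
  · have := h2.mul h4
    convert this using 1
    funext τ
    simp only [Pi.mul_apply]
    ring

theorem const (c : ℂ) : HasLaurent h (fun _ => c) (HahnSeries.C c) := by
  have := of_qExp (HasQExp.const (h := h) c)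
  rwa [HahnSeries.ofPowerSeries_C] at this

theorem unique_fun (hf : HasLaurent h f x) (hg : HasLaurent h g x) : f = g := by
  obtain ⟨m, P, Q, h1, h2, h3, h4⟩ := exists_common hf hg
  have h5 : P = Q := HahnSeries.ofPowerSeries_injective (h1.symm.trans h3)
  subst h5
  have h6 := h2.unique_fun h4
  funext τ
  have := congrFun h6 τ
  exact mul_left_cancel₀ (pow_ne_zero _ (Periodic.qParam_ne_zero _)) this

theorem unique (hh : 0 < h) (hf : HasLaurent h f x) (hg : HasLaurent h f y) : x = y := by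
  obtain ⟨m, P, Q, h1, h2, h3, h4⟩ := exists_common hf hg
  have h5 : P = Q := h2.unique hh h4
  subst h5
  have h6 := h1.trans h3.symm
  have h7 : (HahnSeries.single (m : ℤ) (1 : ℂ)) ≠ 0 := by
    simp
  exact mul_left_cancel₀ h7 h6

/-- change of the width -/
theorem mul_width (hh : h ≠ 0) (N : ℕ) [NeZero N] (hf : HasLaurent h f x)
    (y : LaurentSeries ℂ)
    (hy : ∀ k : ℤ, y.coeff ((N : ℤ) * k) = x.coeff k)
    (hy0 : ∀ k : ℤ, ¬ (N : ℤ) ∣ k → y.coeff k = 0) : HasLaurent (N * h) f y := by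
  obtain ⟨m, P, h1, h2⟩ := hf
  have hN : (N : ℤ) ≠ 0 := by exact_mod_cast NeZero.ne N
  have hN' : 0 < N := Nat.pos_of_ne_zero (NeZero.ne N)
  let Q : PowerSeries ℂ := PowerSeries.mk fun n => if N ∣ n then P.coeff (n / N) else 0
  have hQ1 : ∀ n, Q.coeff (N * n) = P.coeff n := by
    intro n
    simp [Q, Nat.mul_div_cancel_left _ hN']
  have hQ2 : ∀ n, ¬ N ∣ n → Q.coeff n = 0 := by
    intro n hn
    simp [Q, hn]
  have hq : ∀ τ : ℍ, qParam (N * h) τ ^ N = qParam h τ := by
    intro τ
    simp only [qParam, ← Complex.exp_nat_mul]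
    congr 1
    have : (N : ℂ) ≠ 0 := by exact_mod_cast NeZero.ne N
    have : (h : ℂ) ≠ 0 := by exact_mod_cast hh
    push_cast
    field_simp
  have hcoef : ∀ k : ℤ, (HahnSeries.ofPowerSeries ℤ ℂ P).coeff k = x.coeff (k - m) := by
    intro k
    rw [← h1, HahnSeries.coeff_single_mul, one_mul]
  refine ⟨N * m, Q, ?_, ?_⟩
  · ext k
    rw [HahnSeries.coeff_single_mul, one_mul]
    by_cases hk : (N : ℤ) ∣ k
    · obtain ⟨j, rfl⟩ := hk
      rw [show (N : ℤ) * j - ((N * m : ℕ) : ℤ) = N * (j - m) by push_cast; ring, hy, ← hcoef]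
      rcases lt_or_ge j 0 with hj | hj
      · have h5 : (N : ℤ) * j < 0 := mul_neg_of_pos_of_neg (by exact_mod_cast hN') hj
        rw [HahnSeries.ofPowerSeries_apply, HahnSeries.ofPowerSeries_apply,
          HahnSeries.embDomain_of_notMem_range, HahnSeries.embDomain_of_notMem_range]
        · rintro ⟨a, ha⟩
          have h6 : ((a : ℕ) : ℤ) = (N : ℤ) * j := ha
          omega
        · rintro ⟨a, ha⟩
          have h6 : ((a : ℕ) : ℤ) = j := ha
          omega
      · lift j to ℕ using hj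
        rw [show (N : ℤ) * (j : ℤ) = ((N * j : ℕ) : ℤ) by push_cast; ring,
          HahnSeries.ofPowerSeries_apply_coeff, HahnSeries.ofPowerSeries_apply_coeff, hQ1]
    · have hk' : ¬ (N : ℤ) ∣ k - ((N * m : ℕ) : ℤ) := by
        intro hd
        apply hk
        have := dvd_add hd (Dvd.intro (m : ℤ) rfl : (N : ℤ) ∣ N * m)
        simpa using this
      rw [hy0 _ hk']
      rcases lt_or_ge k 0 with hj | hj
      · rw [HahnSeries.ofPowerSeries_apply, HahnSeries.embDomain_of_notMem_range]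
        rintro ⟨a, ha⟩
        have h6 : ((a : ℕ) : ℤ) = k := ha
        omega
      · lift k to ℕ using hj
        rw [HahnSeries.ofPowerSeries_apply_coeff, hQ2]
        intro hd
        exact hk (by exact_mod_cast hd)
  · intro τ
    have h3 := h2 τ
    have h4 : qParam (N * h) τ ^ (N * m) * f τ = qParam h τ ^ m * f τ := by
      rw [pow_mul, hq]
    show HasSum _ (qParam (N * h) τ ^ (N * m) * f τ)
    rw [h4]
    have hinj : Function.Injective (fun n : ℕ => N * n) := fun a b hab =>
      Nat.eq_of_mul_eq_mul_left hN' hab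
    rw [← hinj.hasSum_iff] 
    · convert h3 using 2 with n
      simp only [Function.comp]
      rw [hQ1, pow_mul, hq]
    · intro n hn
      rw [hQ2, zero_mul]
      rintro ⟨j, rfl⟩
      exact hn ⟨j, rfl⟩

end HasLaurent

end Fermat.Agent.X0Places
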