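import Fermat.Agent.X0Places.Embed

/-!
# Embeddings of the function field of `X₀(N)` indexed by cosets
-/

set_option autoImplicit false

noncomputable section

open UpperHalfPlane Function ModularCurve Filter ModularForm AlgebraicCurve WithZero
open scoped Manifold MatrixGroups Topology ModularForm

namespace Fermat.Agent.X0Places

variable {L : Type*} [Field L] [Algebra ℚ L] (ι : L →+* ℂ) (N : ℕ) [NeZero N]

/-- two ring homomorphisms out of `FF L N` agreeing on analytic elements are equal -/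
theorem ff_ringHom_ext {R : Type*} [Field R] {φ ψ : FF L N →+* R}
    (h : ∀ a : AF ι N, φ (a : FF L N) = ψ (a : FF L N)) : φ = ψ := by
  ext x
  obtain ⟨a, b, hb, rfl⟩ := IsFractionRing.div_surjective (A := AF ι N) x
  rw [map_div₀, map_div₀]
  congr 1
  · exact h a
  · exact h b

theorem compMer_toMer {γ : SL(2, ℤ)} (hγ : γ ∈ CongruenceSubgroup.Gamma0 N) :
    (compMer γ).comp (toMer ι N) = toMer ι N := by
  apply ff_ringHom_ext ι N
  intro a
  rw [RingHom.comp_apply, toMer_coe, compMer_algebraMap]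
  congr 1
  apply Subtype.ext
  funext τ
  exact (isAn_anFn (afToAnR ι N a)).inv γ hγ τ

/-- The embedding attached to a coset `gΓ₀(N)`: `f ↦ f ∘ g⁻¹`. -/
def sigma (c : SL(2, ℤ) ⧸ CongruenceSubgroup.Gamma0 N) : FF L N →+* Mer :=
  Quotient.liftOn' c (fun g => (compMer g⁻¹).comp (toMer ι N)) (by
    intro g h hgh
    have h1 : g⁻¹ * h ∈ CongruenceSubgroup.Gamma0 N := QuotientGroup.leftRel_apply.1 hgh
    have h2 : h⁻¹ = (g⁻¹ * h)⁻¹ * g⁻¹ := by group
    ext x
    show compMer g⁻¹ (toMer ι N x) = compMer h⁻¹ (toMer ι N x)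
    rw [h2, ← compMer_mul]
    congr 1
    exact (RingHom.congr_fun (compMer_toMer ι N (inv_mem h1)) x).symm)

theorem sigma_mk (g : SL(2, ℤ)) (x : FF L N) :
    sigma ι N (g : SL(2, ℤ) ⧸ CongruenceSubgroup.Gamma0 N) x = compMer g⁻¹ (toMer ι N x) := rfl

theorem sigma_smul (g : SL(2, ℤ)) (c : SL(2, ℤ) ⧸ CongruenceSubgroup.Gamma0 N) (x : FF L N) :
    sigma ι N (g • c) x = compMer g⁻¹ (sigma ι N c x) := by
  induction c using QuotientGroup.induction_on with
  | H h =>
    show sigma ι N ((g * h : SL(2, ℤ)) : SL(2, ℤ) ⧸ CongruenceSubgroup.Gamma0 N) x = _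
    rw [sigma_mk, sigma_mk, compMer_mul, mul_inv_rev]

variable (L) in
/-- the element `j` -/
def jF : FF L N := ⟨coeffEmb L jq, by
  have h := coeffEmb_mem_laurentBaseChange L (F₀ := modularFunctionFieldFull N)
    (jqd_mem_full N (one_dvd N))
  rwa [qExpand_one_apply] at h⟩

variable (L) in
/-- the element `j(Nτ)` -/
def jNF : FF L N := ⟨coeffEmb L (qExpand ℚ N jq),
  coeffEmb_mem_laurentBaseChange L (jqd_mem_full N dvd_rfl)⟩

/-- the function `j` as a holomorphic function -/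
def jHolo : Holo := ⟨Fermat.Agent.JInv.jInv, Fermat.Agent.JInv.mdiff_jInv⟩

/-- constant functions -/
def constHolo (c : ℂ) : Holo := ⟨fun _ => c, mdifferentiable_const⟩

omit [Algebra ℚ L] [NeZero N] in
theorem jInv_eq_jd : Fermat.Agent.JInv.jInv = jd 1 one_pos := by
  funext τ
  rw [jd]
  congr 1
  apply UpperHalfPlane.ext
  rw [coe_scaleH]
  simp

theorem isAn_jInv : IsAn N Fermat.Agent.JInv.jInv := by
  rw [jInv_eq_jd]
  exact isAn_jd 1 one_pos (one_dvd N)

omit [NeZero N] in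
theorem hasLaurent_jF :
    HasLaurent 1 Fermat.Agent.JInv.jInv (coeffMap ι (jF L N : LaurentSeries L)) := by
  have h : coeffMap ι (jF L N : LaurentSeries L) = jqModC ℂ := by
    show coeffMap ι (coeffEmb L jq) = _
    rw [coeffEmb, coeffMap_coeffMap]
    exact map_jqModC _
  rw [h]
  exact hasLaurent_jInv

theorem toMer_jF : toMer ι N (jF L N) = algebraMap Holo Mer jHolo :=
  toMer_of_mem jHolo (isAn_jInv N) (hasLaurent_jF ι N)

theorem toMer_jNF : toMer ι N (jNF L N) = algebraMap Holo Mer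
    ⟨jd N (Nat.pos_of_ne_zero (NeZero.ne N)), mdiff_jd N _⟩ := by
  apply toMer_of_mem
  · exact isAn_jd N _ dvd_rfl
  · show HasLaurent 1 _ (coeffMap ι (coeffEmb L (qExpand ℚ N jq)))
    rw [coeffMap_coeffEmb_jd]
    exact hasLaurent_jd_one N _

theorem toMer_algebraMap (c : L) :
    toMer ι N (algebraMap L (FF L N) c) = algebraMap Holo Mer (constHolo (ι c)) := by
  apply toMer_of_mem
  · exact ⟨mdifferentiable_const, fun γ => ⟨_, HasLaurent.const _⟩, fun γ hγ τ => rfl⟩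
  · show HasLaurent 1 _ (coeffMap ι (algebraMap L (LaurentSeries L) c))
    rw [algebraMap_laurentSeries_eq_single, coeffMap_single]
    exact HasLaurent.const _

omit [Algebra ℚ L] [NeZero N] in
theorem compHolo_const (γ : SL(2, ℤ)) (c : ℂ) : compHolo γ (constHolo c) = constHolo c := rfl

omit [Algebra ℚ L] [NeZero N] in
theorem compHolo_j (γ : SL(2, ℤ)) : compHolo γ jHolo = jHolo := by
  apply Subtype.ext
  funext τ
  exact Fermat.Agent.JInv.jInv_smul γ τ

theorem sigma_algebraMap (c : SL(2, ℤ) ⧸ CongruenceSubgroup.Gamma0 N) (a : L) :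
    sigma ι N c (algebraMap L (FF L N) a) = algebraMap Holo Mer (constHolo (ι a)) := by
  induction c using QuotientGroup.induction_on with
  | H h => rw [sigma_mk, toMer_algebraMap, compMer_algebraMap, compHolo_const]

theorem sigma_jF (c : SL(2, ℤ) ⧸ CongruenceSubgroup.Gamma0 N) :
    sigma ι N c (jF L N) = algebraMap Holo Mer jHolo := by
  induction c using QuotientGroup.induction_on with
  | H h => rw [sigma_mk, toMer_jF, compMer_algebraMap, compHolo_j]

omit [Algebra ℚ L] [NeZero N] in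
/-- a point of the upper half plane not quadratic over `ℚ` -/
theorem exists_generic : ∃ τ : ℍ, ∀ a b c : ℤ, (a : ℂ) * τ ^ 2 + b * τ + c = 0 →
    a = 0 ∧ b = 0 ∧ c = 0 := by
  have h2 : (0 : ℝ) < Real.sqrt 2 := by positivity
  set y : ℝ := Real.sqrt (Real.sqrt 2) with hy
  have hy0 : 0 < y := Real.sqrt_pos.2 h2
  have hy2 : y ^ 2 = Real.sqrt 2 := Real.sq_sqrt h2.le
  refine ⟨⟨Complex.I * y, by simpa using hy0⟩, fun a b c h => ?_⟩
  have hcoe : (((⟨Complex.I * y, by simpa using hy0⟩ : ℍ)) : ℂ) = Complex.I * y := rfl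
  rw [hcoe] at h
  have h1 : (a : ℂ) * (Complex.I * y) ^ 2 + b * (Complex.I * y) + c =
      ((c - a * y ^ 2 : ℝ) : ℂ) + ((b * y : ℝ) : ℂ) * Complex.I := by
    rw [mul_pow, Complex.I_sq]
    push_cast
    ring
  rw [h1] at h
  have hre := congrArg Complex.re h
  have him := congrArg Complex.im h
  simp only [Complex.add_re, Complex.ofReal_re, Complex.mul_re, Complex.I_re, mul_zero,
    Complex.ofReal_im, Complex.I_im, Complex.zero_re, Complex.add_im, Complex.mul_im,
    Complex.zero_im] at hre him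
  have hb : b = 0 := by
    have : (b : ℝ) * y = 0 := by linarith
    rcases mul_eq_zero.1 this with h | h
    · exact_mod_cast h
    · exact absurd h hy0.ne'
  have hca : (c : ℝ) = a * Real.sqrt 2 := by rw [← hy2]; linarith
  have ha : a = 0 := by
    by_contra ha
    apply irrational_sqrt_two
    refine ⟨(c : ℚ) / a, ?_⟩
    push_cast
    rw [hca]
    have : (a : ℝ) ≠ 0 := by exact_mod_cast ha
    field_simp
  refine ⟨ha, hb, ?_⟩
  rw [ha] at hca
  simp at hca
  exact_mod_cast hca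

omit [Algebra ℚ L] in
/-- `j(N g⁻¹ τ) = j(N h⁻¹ τ)` implies that the cosets are equal -/
theorem coset_eq_of_jd_eq {g h : SL(2, ℤ)}
    (h3' : ∀ τ : ℍ, jd N (Nat.pos_of_ne_zero (NeZero.ne N)) (g⁻¹ • τ) =
      jd N (Nat.pos_of_ne_zero (NeZero.ne N)) (h⁻¹ • τ)) :
    (g : SL(2, ℤ) ⧸ CongruenceSubgroup.Gamma0 N) = h := by
  obtain ⟨τ, hτ⟩ := exists_generic
  have hN : 0 < N := Nat.pos_of_ne_zero (NeZero.ne N)
  have h4 : jd N hN (g⁻¹ • g • τ) = jd N hN (h⁻¹ • g • τ) := h3' (g • τ)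
  rw [inv_smul_smul, ← mul_smul] at h4
  set u := h⁻¹ * g with hu
  obtain ⟨δ, hδ⟩ := Fermat.Agent.JInv.jInv_eq_iff.1 h4
  have h5 := congrArg UpperHalfPlane.coe hδ
  rw [coe_SL_smul, coe_scaleH, coe_scaleH, coe_SL_smul] at h5
  have hd1 : (δ 1 0 : ℂ) * (N * τ) + δ 1 1 ≠ 0 := by
    have := denom_SL_ne_zero δ (scaleH N hN τ)
    rwa [coe_scaleH] at this
  have hd2 := denom_SL_ne_zero u τ
  rw [← mul_div_assoc, div_eq_div_iff hd1 hd2] at h5
  have h6 := hτ (N * δ 0 0 * u 1 0 - N ^ 2 * u 0 0 * δ 1 0)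
    (N * δ 0 0 * u 1 1 + δ 0 1 * u 1 0 - N * u 0 0 * δ 1 1 - N ^ 2 * u 0 1 * δ 1 0)
    (δ 0 1 * u 1 1 - N * u 0 1 * δ 1 1) (by
      push_cast
      linear_combination h5)
  obtain ⟨e1, e2, e3⟩ := h6
  have hdδ := Fermat.Agent.JInv.det_eq δ
  have hdu := Fermat.Agent.JInv.det_eq u
  have hN0 : (N : ℤ) ≠ 0 := by exact_mod_cast hN.ne'
  set m : ℤ := N * δ 1 1 * u 0 0 - δ 0 1 * u 1 0 with hm
  have hm' : m = - N ^ 2 * δ 1 0 * u 0 1 + N * δ 0 0 * u 1 1 := by
    rw [hm]; linear_combination -e2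
  have hmm : m * m = N * N := by
    have h7 : m * m = (N * δ 1 1 * u 0 0 - δ 0 1 * u 1 0) *
        (- N ^ 2 * δ 1 0 * u 0 1 + N * δ 0 0 * u 1 1) := by
      conv_lhs => rw [hm']
      rw [← hm', ← hm]
    -- det (adj Q P) = det Q det P
    have h8 : (N * δ 1 1 * u 0 0 - δ 0 1 * u 1 0) *
        (- N ^ 2 * δ 1 0 * u 0 1 + N * δ 0 0 * u 1 1) -
        (N * δ 1 1 * u 0 1 - δ 0 1 * u 1 1) * (- N ^ 2 * δ 1 0 * u 0 0 + N * δ 0 0 * u 1 0) =
        (N * (δ 0 0 * δ 1 1 - δ 0 1 * δ 1 0)) * (N * (u 0 0 * u 1 1 - u 0 1 * u 1 0)) := by ring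
    rw [hdδ, hdu] at h8
    have h9 : (N : ℤ) * δ 1 1 * u 0 1 - δ 0 1 * u 1 1 = 0 := by linear_combination -e3
    rw [h9] at h8
    rw [h7]
    linear_combination h8
  have hu10 : u 1 0 = m * δ 1 0 := by
    apply mul_left_cancel₀ hN0
    -- N u10 = N δ10 m + δ11 (−N²δ10 u00 + Nδ00 u10)
    have h10 : (- N ^ 2 * δ 1 0 * u 0 0 + N * δ 0 0 * u 1 0 : ℤ) = 0 := by
      linear_combination e1
    have h11 : (N : ℤ) * u 1 0 * (δ 0 0 * δ 1 1 - δ 0 1 * δ 1 0) =
        N * δ 1 0 * m + δ 1 1 * (- N ^ 2 * δ 1 0 * u 0 0 + N * δ 0 0 * u 1 0) := by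
      rw [hm]; ring
    rw [hdδ, h10] at h11
    linear_combination h11
  have hdvd : (N : ℤ) ∣ u 1 0 := by
    rw [hu10]
    apply Dvd.dvd.mul_right
    rcases mul_self_eq_mul_self_iff.1 hmm with h | h
    · rw [h]
    · rw [h]; exact (dvd_neg.2 dvd_rfl)
  apply Eq.symm
  rw [QuotientGroup.eq, ← hu, CongruenceSubgroup.Gamma0_mem, ZMod.intCast_zmod_eq_zero_iff_dvd]
  exact hdvd

theorem sigma_injective : Injective (sigma (L := L) ι N) := by
  intro c c' hcc
  induction c using QuotientGroup.induction_on with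
  | H g =>
  induction c' using QuotientGroup.induction_on with
  | H h =>
  have h1 := RingHom.congr_fun hcc (jNF L N)
  rw [sigma_mk, sigma_mk, toMer_jNF, compMer_algebraMap, compMer_algebraMap] at h1
  have h2 := IsFractionRing.injective Holo Mer h1
  exact coset_eq_of_jd_eq N (fun τ => congrFun (congrArg Subtype.val h2) τ)

end Fermat.Agent.X0Places
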