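import Fermat.Agent.X0Places.PlaceOfVal

/-!
# Counting the places over a point by embeddings
-/

set_option autoImplicit false

noncomputable section

open AlgebraicCurve WithZero IntermediateField

namespace Fermat.Agent.X0Places

variable {L F Ω : Type*} [Field L] [Field F] [Algebra L F] [Field Ω]

open Fermat.Agent.FunField Fermat.Agent.FunField.PlaceLemmas

/-- A family of embeddings of a function field into a valued field, as in the situation
"Taylor expansions at the points over a given point". -/
structure EmbData (L F Ω : Type*) [Field L] [Field F] [Algebra L F] [Field Ω]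
    (X : Type*) where
  /-- the valuation -/
  w : Valuation Ω ℤᵐ⁰
  /-- the embeddings -/
  σ : X → (F →+* Ω)
  inj : Function.Injective σ
  hL : ∀ (i j : X) (c : L), σ i (algebraMap L F c) = σ j (algebraMap L F c)
  hwL : ∀ (i : X) (c : L), w (σ i (algebraMap L F c)) ≤ 1
  /-- the parameter on the base -/
  t : F
  ht : ∀ i j : X, σ i t = σ j t
  /-- its order -/
  e0 : ℕ
  e0_pos : 0 < e0
  hwt : ∀ i, w (σ i t) = exp (-(e0 : ℤ))

namespace EmbData

variable {X : Type*} (E : EmbData L F Ω X)

theorem t_ne_zero [Nonempty X] : E.t ≠ 0 := by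
  intro h
  obtain ⟨i⟩ := ‹Nonempty X›
  have := E.hwt i
  rw [h, map_zero, map_zero] at this
  exact exp_ne_zero this.symm

theorem exists_one_lt (i : X) : ∃ x, 1 < (E.w.comap (E.σ i)) x := by
  refine ⟨E.t⁻¹, ?_⟩
  rw [Valuation.comap_apply, map_inv₀, map_inv₀, E.hwt i, ← exp_neg, ← exp_zero, exp_lt_exp]
  have := E.e0_pos
  omega

variable [IsFF L F]

/-- the place attached to an embedding -/
def place (i : X) : Place L F := placeOfVal (E.w.comap (E.σ i)) (E.hwL i) (E.exists_one_lt i)

/-- the ramification index of the place attached to an embedding -/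
def idx (i : X) : ℕ := ramIdx (E.w.comap (E.σ i)) (E.hwL i) (E.exists_one_lt i)

theorem idx_pos (i : X) : 0 < E.idx i := ramIdx_pos _ _ _

theorem w_eq (i : X) {x : F} (hx : x ≠ 0) :
    E.w (E.σ i x) = exp (-((E.idx i : ℤ) * (E.place i).ord x)) :=
  val_eq_ramIdx (E.w.comap (E.σ i)) (E.hwL i) (E.exists_one_lt i) hx

theorem mem_place (i : X) (x : F) : x ∈ (E.place i).toValuationSubring ↔ E.w (E.σ i x) ≤ 1 :=
  Iff.rfl

theorem place_eq_of (i j : X) (h : ∀ x, E.w (E.σ i x) ≤ 1 ↔ E.w (E.σ j x) ≤ 1) :
    E.place i = E.place j :=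
  placeOfVal_eq_iff _ _ _ _ _ _ h

theorem idx_mul_ord (i : X) : (E.idx i : ℤ) * (E.place i).ord E.t = E.e0 := by
  have : Nonempty X := ⟨i⟩
  have h1 := E.w_eq i E.t_ne_zero
  rw [E.hwt i, exp_inj] at h1
  omega

theorem ord_t_pos (i : X) : 0 < (E.place i).ord E.t := by
  have h1 := E.idx_mul_ord i
  have h2 : (0 : ℤ) < E.e0 := by exact_mod_cast E.e0_pos
  have h3 : (0 : ℤ) < E.idx i := by exact_mod_cast E.idx_pos i
  rw [← h1] at h2
  exact (mul_pos_iff_of_pos_left h3).1 h2

theorem transcendental_t [Nonempty X] : Transcendental L E.t := by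
  obtain ⟨i⟩ := ‹Nonempty X›
  exact transcendental_of_ord_ne_zero (E.place i) (E.ord_t_pos i).ne'

variable [IsAlgClosed L] [Finite X]

theorem card_fiber_le (v : Place L F) (hv : 0 < v.ord E.t) :
    (Nat.card {i : X // E.place i = v} : ℤ) ≤ v.ord E.t := by
  classical
  have := Fintype.ofFinite X
  obtain ⟨e, he⟩ := Int.eq_ofNat_of_zero_le hv.le
  have hfin : Module.Finite L v.ResidueField := inferInstance
  rcases isEmpty_or_nonempty {i : X // E.place i = v} with hemp | hne
  · rw [Nat.card_of_isEmpty]; exact_mod_cast hv.le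
  obtain ⟨i0⟩ := hne
  have h := card_le_ord v (resL_of_isAlgClosed v) E.w
    (fun i : {i : X // E.place i = v} => E.σ i.1)
    (fun i j hij => Subtype.ext (E.inj hij)) (fun i j c => E.hL i j c) E.t
    (fun i j => E.ht i j) e he (by omega) (E.idx i0) (E.idx_pos i0) (by
      intro i x hx
      have h1 := E.w_eq i.1 hx
      have h2 := E.idx_mul_ord i.1
      have h3 := E.idx_mul_ord i0.1
      rw [i.2] at h1 h2
      rw [i0.2] at h3
      have h4 : (E.idx i : ℤ) = E.idx i0 := by
        have := h2.trans h3.symm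
        exact mul_right_cancel₀ hv.ne' this
      rw [h1, h4])
  rw [Nat.card_eq_fintype_card, he]
  exact_mod_cast h

omit [IsAlgClosed L] in
theorem card_eq_sum_fibers :
    (Nat.card X : ℤ) = ∑ v ∈ (zeroDiv E.t : Divisor L F).support,
      (Nat.card {i : X // E.place i = v} : ℤ) := by
  classical
  have := Fintype.ofFinite X
  rw [Nat.card_eq_fintype_card, ← Finset.card_univ,
    Finset.card_eq_sum_card_fiberwise (f := E.place) (t := (zeroDiv E.t : Divisor L F).support)]
  · push_cast
    refine Finset.sum_congr rfl fun v _ => ?_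
    rw [Nat.card_eq_fintype_card, Fintype.card_subtype]
  · intro i _
    rw [Finset.mem_coe, Finsupp.mem_support_iff, zeroDiv_apply]
    have := E.ord_t_pos i
    rw [max_eq_left this.le]
    exact this.ne'

omit [Finite X] in
theorem degree_zeroDiv_eq :
    Divisor.degree (zeroDiv E.t : Divisor L F) =
      ∑ v ∈ (zeroDiv E.t : Divisor L F).support, v.ord E.t := by
  rw [degree_eq_sum, Finsupp.sum]
  refine Finset.sum_congr rfl fun v hv => ?_
  have hfin : Module.Finite L v.ResidueField := inferInstance
  have h1 : 0 < v.ord E.t := by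
    rw [Finsupp.mem_support_iff, zeroDiv_apply] at hv
    by_contra hle
    push Not at hle
    exact hv (max_eq_right hle)
  rw [zeroDiv_apply, max_eq_left h1.le, v.deg_eq_one_of_isAlgClosed_of_finite]
  simp

/-- If the number of embeddings is the degree, the fibres have the maximal possible size. -/
theorem card_fiber_eq [Nonempty X] (hcard : Nat.card X = Module.finrank L⟮E.t⟯ F)
    (v : Place L F) (hv : 0 < v.ord E.t) :
    (Nat.card {i : X // E.place i = v} : ℤ) = v.ord E.t := by
  have h1 := degree_zeroDiv (K := L) E.transcendental_t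
  rw [E.degree_zeroDiv_eq, ← hcard, E.card_eq_sum_fibers] at h1
  have hpos : ∀ v ∈ (zeroDiv E.t : Divisor L F).support, 0 < v.ord E.t := by
    intro v hv
    rw [Finsupp.mem_support_iff, zeroDiv_apply] at hv
    by_contra hle
    push Not at hle
    exact hv (max_eq_right hle)
  refine ((Finset.sum_eq_sum_iff_of_le fun v hv => E.card_fiber_le v (hpos v hv)).1 h1.symm v ?_)
  rw [Finsupp.mem_support_iff, zeroDiv_apply, max_eq_left hv.le]
  exact hv.ne'

theorem exists_place_eq [Nonempty X] (hcard : Nat.card X = Module.finrank L⟮E.t⟯ F)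
    (v : Place L F) (hv : 0 < v.ord E.t) : ∃ i, E.place i = v := by
  have h1 := E.card_fiber_eq hcard v hv
  have h2 : 0 < Nat.card {i : X // E.place i = v} := by
    have : (0 : ℤ) < Nat.card {i : X // E.place i = v} := by rw [h1]; exact hv
    exact_mod_cast this
  obtain ⟨⟨i, hi⟩⟩ := (Nat.card_pos_iff.1 h2).1
  exact ⟨i, hi⟩

/-- If a subset `S` of the fibre over `v` has size `s` and `s * idx ≥ e0`
then it is the whole fibre and `v.ord t = s`. -/
theorem fiber_eq_of_card [Nonempty X] (hcard : Nat.card X = Module.finrank L⟮E.t⟯ F)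
    (i : X) (S : Set X) (hiS : ∀ j ∈ S, E.place j = E.place i)
    (hs : E.e0 ≤ Nat.card S * E.idx i) :
    (∀ j, E.place j = E.place i ↔ j ∈ S) ∧ (E.place i).ord E.t = Nat.card S ∧
      Nat.card S * E.idx i = E.e0 := by
  classical
  set v := E.place i with hv
  have hv0 : 0 < v.ord E.t := E.ord_t_pos i
  have h1 := E.card_fiber_eq hcard v hv0
  have h2 := E.idx_mul_ord i
  have hle : S ⊆ {j : X | E.place j = v} := fun j hj => hiS j hj
  have hfin : {j : X | E.place j = v}.Finite := Set.toFinite _
  have h3 : Nat.card S ≤ Nat.card {j : X | E.place j = v} := Nat.card_mono hfin hle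
  have h1' : (Nat.card {j : X | E.place j = v} : ℤ) = v.ord E.t := h1
  have h4 : (Nat.card {j : X | E.place j = v} : ℤ) ≤ Nat.card S := by
    have h5 : (E.e0 : ℤ) ≤ Nat.card S * E.idx i := by exact_mod_cast hs
    rw [← h2, ← hv, ← h1', mul_comm] at h5
    have h6 : (0 : ℤ) < E.idx i := by exact_mod_cast E.idx_pos i
    exact le_of_mul_le_mul_right h5 h6
  have h4' : Nat.card {j : X | E.place j = v} ≤ Nat.card S := by exact_mod_cast h4
  have h5 : Nat.card S = Nat.card {j : X | E.place j = v} := le_antisymm h3 h4'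
  have h6 : S = {j : X | E.place j = v} := by
    apply Set.eq_of_subset_of_ncard_le hle _ hfin
    rw [← Nat.card_coe_set_eq, ← Nat.card_coe_set_eq]
    exact h4'
  refine ⟨fun j => ?_, ?_, ?_⟩
  · rw [h6]; rfl
  · rw [h5, h1']
  · have : ((Nat.card S * E.idx i : ℕ) : ℤ) = E.e0 := by
      push_cast
      rw [h5, h1', mul_comm]
      exact h2
    exact_mod_cast this

end EmbData

end Fermat.Agent.X0Places
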