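import Fermat.Agent.X0Places.Cosets

/-!
# Embeddings of the function field of `X₀(N)` given by expansions at the cusps
-/

set_option autoImplicit false

noncomputable section

open UpperHalfPlane Function ModularCurve Filter ModularForm AlgebraicCurve WithZero
open scoped Manifold MatrixGroups Topology ModularForm

namespace Fermat.Agent.X0Places

open Function.Periodic (qParam)

open Classical in
/-- the order valuation on `ℂ((q))` -/
def valLaur : Valuation (LaurentSeries ℂ) ℤᵐ⁰ where
  toFun x := if x = 0 then 0 else exp (-(x.order))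
  map_zero' := by simp
  map_one' := by simp
  map_mul' x y := by
    by_cases hx : x = 0
    · simp [hx]
    by_cases hy : y = 0
    · simp [hy]
    rw [if_neg (mul_ne_zero hx hy), if_neg hx, if_neg hy, HahnSeries.order_mul hx hy, ← exp_add]
    congr 1
    ring
  map_add_le_max' x y := by
    by_cases hxy : x + y = 0
    · rw [if_pos hxy]; exact zero_le
    by_cases hx : x = 0
    · rw [hx, zero_add]; exact le_max_right _ _
    by_cases hy : y = 0
    · rw [hy, add_zero]; exact le_max_left _ _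
    rw [if_neg hxy, if_neg hx, if_neg hy]
    have h := HahnSeries.min_order_le_order_add hxy
    rcases le_total x.order y.order with hle | hle
    · rw [min_eq_left hle] at h
      apply le_max_of_le_left
      rw [exp_le_exp]
      omega
    · rw [min_eq_right hle] at h
      apply le_max_of_le_right
      rw [exp_le_exp]
      omega

theorem valLaur_apply {x : LaurentSeries ℂ} (hx : x ≠ 0) : valLaur x = exp (-(x.order)) := by
  classical
  show (if x = 0 then 0 else exp (-(x.order))) = _
  rw [if_neg hx]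

variable {L : Type*} [Field L] [Algebra ℚ L] (ι : L →+* ℂ) (N : ℕ) [NeZero N]

theorem cuspEmb_mul {γ : SL(2, ℤ)} (hγ : γ ∈ CongruenceSubgroup.Gamma0 N) (δ : SL(2, ℤ)) :
    cuspEmb (L := L) ι N (γ * δ) = cuspEmb ι N δ := by
  apply ff_ringHom_ext ι N
  intro a
  rw [cuspEmb_coe, cuspEmb_coe]
  apply anExp_eq
  have h := hasLaurent_anExp δ (afToAnR ι N a)
  have h1 : (fun τ => anFn (afToAnR ι N a) ((γ * δ) • τ)) =
      fun τ => anFn (afToAnR ι N a) (δ • τ) := by
    funext τ
    rw [mul_smul]
    exact (isAn_anFn (afToAnR ι N a)).inv γ hγ _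
  rw [h1]
  exact h

/-- The expansion at the cusp attached to a coset `gΓ₀(N)`. -/
def cuspSigma (c : SL(2, ℤ) ⧸ CongruenceSubgroup.Gamma0 N) : FF L N →+* LaurentSeries ℂ :=
  Quotient.liftOn' c (fun g => cuspEmb ι N g⁻¹) (by
    intro g h hgh
    have h1 : g⁻¹ * h ∈ CongruenceSubgroup.Gamma0 N := QuotientGroup.leftRel_apply.1 hgh
    have h2 : h⁻¹ = (g⁻¹ * h)⁻¹ * g⁻¹ := by group
    show cuspEmb ι N g⁻¹ = cuspEmb ι N h⁻¹
    rw [h2, cuspEmb_mul ι N (inv_mem h1)])

theorem cuspSigma_mk (g : SL(2, ℤ)) :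
    cuspSigma (L := L) ι N (g : SL(2, ℤ) ⧸ CongruenceSubgroup.Gamma0 N) = cuspEmb ι N g⁻¹ := rfl

omit [NeZero N] in
theorem hasLaurent_N_jInv [NeZero N] : HasLaurent N Fermat.Agent.JInv.jInv (qExpand ℂ N (jqModC ℂ)) := by
  have h1 := hasLaurent_jInv.subst (h' := N) (id : ℍ → ℍ) 1 N (by
    intro τ
    rw [Units.val_one, one_mul, id]
    have := qParam_mul_width (h := 1) one_ne_zero N (τ : ℂ)
    rw [mul_one] at this
    exact this.symm)
  rw [Fermat.Agent.ModPoly.twist_one] at h1
  exact h1

theorem cuspEmb_jF (γ : SL(2, ℤ)) : cuspEmb ι N γ (jF L N) = qExpand ℂ N (jqModC ℂ) := by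
  apply cuspEmb_of_mem γ (isAn_jInv N) (hasLaurent_jF ι N)
  have h1 : (fun τ : ℍ => Fermat.Agent.JInv.jInv (γ • τ)) = Fermat.Agent.JInv.jInv := by
    funext τ
    exact Fermat.Agent.JInv.jInv_smul γ τ
  rw [h1]
  exact hasLaurent_N_jInv N

theorem cuspEmb_algebraMap (γ : SL(2, ℤ)) (a : L) :
    cuspEmb ι N γ (algebraMap L (FF L N) a) = HahnSeries.C (ι a) := by
  apply cuspEmb_of_mem γ (f := fun _ => ι a)
  · exact ⟨mdifferentiable_const, fun γ => ⟨_, HasLaurent.const _⟩, fun γ hγ τ => rfl⟩
  · show HasLaurent 1 _ (coeffMap ι (algebraMap L (LaurentSeries L) a))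
    rw [algebraMap_laurentSeries_eq_single, coeffMap_single]
    exact HasLaurent.const _
  · exact HasLaurent.const _

theorem cuspSigma_jF (c : SL(2, ℤ) ⧸ CongruenceSubgroup.Gamma0 N) :
    cuspSigma ι N c (jF L N) = qExpand ℂ N (jqModC ℂ) := by
  induction c using QuotientGroup.induction_on with
  | H g => rw [cuspSigma_mk, cuspEmb_jF]

theorem cuspSigma_algebraMap (c : SL(2, ℤ) ⧸ CongruenceSubgroup.Gamma0 N) (a : L) :
    cuspSigma ι N c (algebraMap L (FF L N) a) = HahnSeries.C (ι a) := by
  induction c using QuotientGroup.induction_on with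
  | H g => rw [cuspSigma_mk, cuspEmb_algebraMap]

/-- If two functions of the field have the same expansions at the cusps `γ∞`, `δ∞`, they have
the same composites with `γ`, `δ`. -/
theorem compMer_eq_of_cuspEmb_eq {γ δ : SL(2, ℤ)} {a : AF ι N}
    (h : cuspEmb ι N γ (a : FF L N) = cuspEmb ι N δ (a : FF L N)) :
    compMer γ (toMer ι N (a : FF L N)) = compMer δ (toMer ι N (a : FF L N)) := by
  rw [cuspEmb_coe, cuspEmb_coe] at h
  have h1 := hasLaurent_anExp γ (afToAnR ι N a)
  have h2 := hasLaurent_anExp δ (afToAnR ι N a)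
  have h3 : anExp γ (afToAnR ι N a) = anExp δ (afToAnR ι N a) := h
  rw [h3] at h1
  have h4 := h1.unique_fun h2
  rw [toMer_coe, compMer_algebraMap, compMer_algebraMap]
  congr 1
  exact Subtype.ext h4

theorem cuspSigma_injective : Injective (cuspSigma (L := L) ι N) := by
  intro c c' hcc
  apply sigma_injective (L := L) ι N
  induction c using QuotientGroup.induction_on with
  | H g =>
  induction c' using QuotientGroup.induction_on with
  | H h =>
  rw [cuspSigma_mk, cuspSigma_mk] at hcc
  apply ff_ringHom_ext ι N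
  intro a
  rw [sigma_mk, sigma_mk]
  exact compMer_eq_of_cuspEmb_eq ι N (RingHom.congr_fun hcc _)

/-- the root of unity `exp(2πi/N)` -/
def zetaN : ℂˣ := Units.mk0 (Complex.exp (2 * Real.pi * Complex.I / N)) (Complex.exp_ne_zero _)

omit [NeZero N] in
theorem qParam_T_zpow (k : ℤ) (τ : ℍ) :
    qParam N ((ModularGroup.T ^ k • τ : ℍ) : ℂ) = ((zetaN N ^ k : ℂˣ) : ℂ) * qParam N τ := by
  rw [Units.val_zpow_eq_zpow_val, zetaN, Units.val_mk0, ModularGroup.coe_T_zpow_smul_eq,
    ← Complex.exp_int_mul]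
  simp only [qParam]
  rw [← Complex.exp_add]
  congr 1
  push_cast
  ring

theorem cuspEmb_mul_T_zpow (γ : SL(2, ℤ)) (k : ℤ) (x : FF L N) :
    cuspEmb ι N (γ * ModularGroup.T ^ k) x =
      Fermat.Agent.ModPoly.twist (zetaN N ^ k) (cuspEmb ι N γ x) := by
  have h : cuspEmb (L := L) ι N (γ * ModularGroup.T ^ k) =
      (Fermat.Agent.ModPoly.twist (zetaN N ^ k)).comp (cuspEmb ι N γ) := by
    apply ff_ringHom_ext ι N
    intro a
    rw [RingHom.comp_apply, cuspEmb_coe, cuspEmb_coe]
    apply anExp_eq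
    have h1 := (hasLaurent_anExp γ (afToAnR ι N a)).subst (h' := N)
      (fun τ => ModularGroup.T ^ k • τ) (zetaN N ^ k) 1 (by
        intro τ
        rw [pow_one]
        exact qParam_T_zpow N k τ)
    rw [qExpand_one_apply] at h1
    have h2 : (fun τ => anFn (afToAnR ι N a) ((γ * ModularGroup.T ^ k) • τ)) =
        (fun τ => anFn (afToAnR ι N a) (γ • τ)) ∘ fun τ => ModularGroup.T ^ k • τ := by
      funext τ
      rw [comp_apply, mul_smul]
    rw [h2]
    exact h1
  rw [h]
  rfl

theorem cuspSigma_T_zpow_smul (c : SL(2, ℤ) ⧸ CongruenceSubgroup.Gamma0 N) (k : ℤ) (x : FF L N) :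
    cuspSigma ι N (ModularGroup.T ^ k • c) x =
      Fermat.Agent.ModPoly.twist (zetaN N ^ (-k)) (cuspSigma ι N c x) := by
  induction c using QuotientGroup.induction_on with
  | H g =>
    show cuspSigma ι N ((ModularGroup.T ^ k * g : SL(2, ℤ)) :
      SL(2, ℤ) ⧸ CongruenceSubgroup.Gamma0 N) x = _
    rw [cuspSigma_mk, cuspSigma_mk, mul_inv_rev, ← zpow_neg, cuspEmb_mul_T_zpow]

theorem valLaur_twist (u : ℂˣ) (x : LaurentSeries ℂ) :
    valLaur (Fermat.Agent.ModPoly.twist u x) = valLaur x := by
  rcases eq_or_ne x 0 with rfl | hx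
  · rw [map_zero]
  have hx' : Fermat.Agent.ModPoly.twist u x ≠ 0 := by
    rw [map_ne_zero_iff _ (Fermat.Agent.ModPoly.twist_injective u)]; exact hx
  rw [valLaur_apply hx, valLaur_apply hx']
  congr 2
  apply le_antisymm
  · apply HahnSeries.order_le_of_coeff_ne_zero
    rw [Fermat.Agent.ModPoly.twist_coeff]
    exact mul_ne_zero (Units.ne_zero _) (HahnSeries.coeff_order_eq_zero.not.2 hx)
  · apply HahnSeries.order_le_of_coeff_ne_zero
    intro h0
    have := HahnSeries.coeff_order_eq_zero.not.2 hx'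
    rw [Fermat.Agent.ModPoly.twist_coeff, h0, mul_zero] at this
    exact this rfl

/-- a Laurent series invariant under the twist by `ζ` of exact order `m` has order divisible
by `m` -/
theorem dvd_order_of_twist_eq {u : ℂˣ} {x : LaurentSeries ℂ} (hx : x ≠ 0)
    (h : Fermat.Agent.ModPoly.twist u x = x) : (orderOf u : ℤ) ∣ x.order := by
  have h1 := congrArg (fun y => y.coeff x.order) h
  simp only [Fermat.Agent.ModPoly.twist_coeff] at h1
  have h2 := HahnSeries.coeff_order_eq_zero.not.2 hx
  have h3 : ((u ^ x.order : ℂˣ) : ℂ) = 1 := by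
    apply mul_right_cancel₀ h2
    rw [h1, one_mul]
  have h4 : u ^ x.order = 1 := Units.val_eq_one.1 h3
  exact orderOf_dvd_iff_zpow_eq_one.2 h4

theorem orderOf_zetaN : orderOf (zetaN N) = N := by
  have h := Complex.isPrimitiveRoot_exp N (NeZero.ne N)
  have h1 : IsPrimitiveRoot (zetaN N) N := by
    rw [← IsPrimitiveRoot.coe_units_iff]
    exact h
  exact h1.eq_orderOf.symm

theorem order_jq : (jqModC ℂ).order = -1 := by
  apply le_antisymm
  · apply HahnSeries.order_le_of_coeff_ne_zero
    have : (jqModC ℂ).coeff (-1) = 1 := by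
      rw [jqModC, HahnSeries.coeff_single_mul, one_mul, sub_neg_eq_add, neg_add_cancel,
        show (0 : ℤ) = ((0 : ℕ) : ℤ) from rfl, HahnSeries.ofPowerSeries_apply_coeff,
        PowerSeries.coeff_map, PowerSeries.coeff_zero_eq_constantCoeff, constantCoeff_jNum, map_one]
    rw [this]
    exact one_ne_zero
  · have hne : jqModC ℂ ≠ 0 := by
      intro h
      have : (jqModC ℂ).coeff (-1) = 1 := by
        rw [jqModC, HahnSeries.coeff_single_mul, one_mul, sub_neg_eq_add, neg_add_cancel,
          show (0 : ℤ) = ((0 : ℕ) : ℤ) from rfl, HahnSeries.ofPowerSeries_apply_coeff,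
          PowerSeries.coeff_map, PowerSeries.coeff_zero_eq_constantCoeff, constantCoeff_jNum,
          map_one]
      rw [h] at this
      simp at this
    by_contra hlt
    push Not at hlt
    have h1 := HahnSeries.coeff_order_eq_zero.not.2 hne
    apply h1
    rw [jqModC, HahnSeries.coeff_single_mul, one_mul]
    apply ofPowerSeries_coeff_of_neg
    rw [← jqModC]
    omega

theorem order_qExpand (x : LaurentSeries ℂ) (hx : x ≠ 0) :
    (qExpand ℂ N x).order = N * x.order := by
  have hN : (0 : ℤ) < N := by exact_mod_cast Nat.pos_of_ne_zero (NeZero.ne N)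
  have hx' : qExpand ℂ N x ≠ 0 := by
    rw [map_ne_zero_iff _ (qExpand_injective N)]; exact hx
  apply le_antisymm
  · apply HahnSeries.order_le_of_coeff_ne_zero
    rw [qExpand_coeff_mul]
    exact HahnSeries.coeff_order_eq_zero.not.2 hx
  · have h1 := HahnSeries.coeff_order_eq_zero.not.2 hx'
    by_cases hd : (N : ℤ) ∣ (qExpand ℂ N x).order
    · obtain ⟨k, hk⟩ := hd
      rw [hk, qExpand_coeff_mul] at h1
      rw [hk]
      exact mul_le_mul_of_nonneg_left (HahnSeries.order_le_of_coeff_ne_zero h1) hN.le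
    · exact absurd (qExpand_coeff_of_not_dvd N x hd) h1

theorem valLaur_cuspSigma_jF (c : SL(2, ℤ) ⧸ CongruenceSubgroup.Gamma0 N) :
    valLaur (cuspSigma ι N c (jF L N)) = exp (N : ℤ) := by
  have hne : jqModC ℂ ≠ 0 := by
    intro h
    have := order_jq
    rw [h] at this
    simp at this
  have hne' : qExpand ℂ N (jqModC ℂ) ≠ 0 := by
    rw [map_ne_zero_iff _ (qExpand_injective N)]; exact hne
  rw [cuspSigma_jF, valLaur_apply hne', order_qExpand N _ hne, order_jq]
  congr 1
  ring

end Fermat.Agent.X0Places
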