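import Fermat.Agent.X0Places.Scale
import Fermat.Agent.X0Places.Counting
import Fermat.Prelude.Thm_ModularCurve_coeffMap_qExpand
import Fermat.Prelude.Def_ModularCurve_ArithmeticGalois

/-!
# The function field of `X₀(N)` as a field of meromorphic functions on the upper half plane
-/

set_option autoImplicit false

noncomputable section

open UpperHalfPlane Function ModularCurve Filter ModularForm AlgebraicCurve WithZero
open scoped Manifold MatrixGroups Topology ModularForm

namespace Fermat.Agent.X0Places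

/-- holomorphic functions invariant under `Γ₀(N)` with Laurent expansions at all cusps -/
structure IsAn (N : ℕ) (f : ℍ → ℂ) : Prop where
  hol : MDiff f
  exp : ∀ γ : SL(2, ℤ), ∃ y, HasLaurent N (fun τ => f (γ • τ)) y
  inv : ∀ γ ∈ CongruenceSubgroup.Gamma0 N, ∀ τ, f (γ • τ) = f τ

/-- the ring of holomorphic functions invariant under `Γ₀(N)` with Laurent expansions -/
def AnFun (N : ℕ) : Subring (ℍ → ℂ) where
  carrier := {f | IsAn N f}
  mul_mem' {f g} hf hg := by
    refine ⟨hf.hol.mul hg.hol, fun γ => ?_, fun γ hγ τ => ?_⟩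
    · obtain ⟨y, hy⟩ := hf.exp γ
      obtain ⟨z, hz⟩ := hg.exp γ
      exact ⟨_, hy.mul hz⟩
    · rw [Pi.mul_apply, Pi.mul_apply, hf.inv γ hγ, hg.inv γ hγ]
  one_mem' := by
    refine ⟨mdifferentiable_const, fun γ => ?_, fun γ hγ τ => rfl⟩
    exact ⟨_, HasLaurent.const 1⟩
  add_mem' {f g} hf hg := by
    refine ⟨hf.hol.add hg.hol, fun γ => ?_, fun γ hγ τ => ?_⟩
    · obtain ⟨y, hy⟩ := hf.exp γ
      obtain ⟨z, hz⟩ := hg.exp γ
      exact ⟨_, hy.add hz⟩
    · rw [Pi.add_apply, Pi.add_apply, hf.inv γ hγ, hg.inv γ hγ]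
  zero_mem' := by
    refine ⟨mdifferentiable_const, fun γ => ?_, fun γ hγ τ => rfl⟩
    exact ⟨_, HasLaurent.const 0⟩
  neg_mem' {f} hf := by
    refine ⟨hf.hol.neg, fun γ => ?_, fun γ hγ τ => ?_⟩
    · obtain ⟨y, hy⟩ := hf.exp γ
      exact ⟨_, hy.neg⟩
    · rw [Pi.neg_apply, Pi.neg_apply, hf.inv γ hγ]

theorem mem_anFun {N : ℕ} {f : ℍ → ℂ} : f ∈ AnFun N ↔ IsAn N f := Iff.rfl

variable {L : Type*} [Field L] (ι : L →+* ℂ) (N : ℕ) [NeZero N]

omit [NeZero N] in
theorem HasLaurent.zero (h : ℝ) : HasLaurent h (fun _ => 0) 0 := by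
  have := HasLaurent.const (h := h) 0
  rwa [map_zero] at this

/-- Laurent series over `L` whose image under `ι` is the expansion of an analytic function -/
def AnR : Subring (LaurentSeries L) where
  carrier := {a | ∃ f, IsAn N f ∧ HasLaurent 1 f (coeffMap ι a)}
  mul_mem' := by
    rintro a b ⟨f, hf, hf'⟩ ⟨g, hg, hg'⟩
    exact ⟨f * g, (AnFun N).mul_mem hf hg, by rw [map_mul]; exact hf'.mul hg'⟩
  one_mem' := ⟨fun _ => 1, (AnFun N).one_mem, by rw [map_one]; exact HasLaurent.const 1⟩
  add_mem' := by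
    rintro a b ⟨f, hf, hf'⟩ ⟨g, hg, hg'⟩
    exact ⟨f + g, (AnFun N).add_mem hf hg, by rw [map_add]; exact hf'.add hg'⟩
  zero_mem' := ⟨fun _ => 0, (AnFun N).zero_mem, by rw [map_zero]; exact HasLaurent.zero 1⟩
  neg_mem' := by
    rintro a ⟨f, hf, hf'⟩
    exact ⟨-f, (AnFun N).neg_mem hf, by rw [map_neg]; exact hf'.neg⟩

variable {ι N}

omit [NeZero N] in
theorem mem_anR {a : LaurentSeries L} :
    a ∈ AnR ι N ↔ ∃ f, IsAn N f ∧ HasLaurent 1 f (coeffMap ι a) := Iff.rfl

/-- the analytic function attached to an element of `AnR` -/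
def anFn (a : AnR ι N) : ℍ → ℂ := a.2.choose

omit [NeZero N] in
theorem isAn_anFn (a : AnR ι N) : IsAn N (anFn a) := a.2.choose_spec.1

omit [NeZero N] in
theorem hasLaurent_anFn (a : AnR ι N) : HasLaurent 1 (anFn a) (coeffMap ι (a : LaurentSeries L)) :=
  a.2.choose_spec.2

theorem anFn_eq {a : AnR ι N} {f : ℍ → ℂ} (h : HasLaurent 1 f (coeffMap ι (a : LaurentSeries L))) :
    anFn a = f := (hasLaurent_anFn a).unique_fun h

variable (ι N) in
/-- ring homomorphism to holomorphic functions -/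
def anHom : AnR ι N →+* Holo where
  toFun a := ⟨anFn a, (isAn_anFn a).hol⟩
  map_one' := Subtype.ext (anFn_eq (f := fun _ => 1) (by
    show HasLaurent 1 _ (coeffMap ι (1 : LaurentSeries L))
    rw [map_one]; exact HasLaurent.const 1))
  map_mul' a b := Subtype.ext (anFn_eq (f := anFn a * anFn b) (by
    show HasLaurent 1 _ (coeffMap ι ((a : LaurentSeries L) * b))
    rw [map_mul]; exact (hasLaurent_anFn a).mul (hasLaurent_anFn b)))
  map_zero' := Subtype.ext (anFn_eq (f := fun _ => 0) (by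
    show HasLaurent 1 _ (coeffMap ι (0 : LaurentSeries L))
    rw [map_zero]; exact HasLaurent.zero 1))
  map_add' a b := Subtype.ext (anFn_eq (f := anFn a + anFn b) (by
    show HasLaurent 1 _ (coeffMap ι ((a : LaurentSeries L) + b))
    rw [map_add]; exact (hasLaurent_anFn a).add (hasLaurent_anFn b)))

@[simp]
theorem coe_anHom (a : AnR ι N) : (anHom ι N a : ℍ → ℂ) = anFn a := rfl

theorem anHom_injective : Injective (anHom ι N) := by
  intro a b h
  have h1 : anFn a = anFn b := congrArg Subtype.val h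
  have h2 := hasLaurent_anFn a
  rw [h1] at h2
  have h3 := h2.unique one_pos (hasLaurent_anFn b)
  exact Subtype.ext (Fermat.Agent.ModPoly.coeffMap_injective ι.injective h3)

/-- the Laurent expansion at the cusp `γ∞` -/
def anExp (γ : SL(2, ℤ)) (a : AnR ι N) : LaurentSeries ℂ := ((isAn_anFn a).exp γ).choose

theorem hasLaurent_anExp (γ : SL(2, ℤ)) (a : AnR ι N) :
    HasLaurent N (fun τ => anFn a (γ • τ)) (anExp γ a) := ((isAn_anFn a).exp γ).choose_spec

theorem natCast_pos (N : ℕ) [NeZero N] : (0 : ℝ) < N := by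
  exact_mod_cast Nat.pos_of_ne_zero (NeZero.ne N)

theorem anExp_eq {γ : SL(2, ℤ)} {a : AnR ι N} {y : LaurentSeries ℂ}
    (h : HasLaurent N (fun τ => anFn a (γ • τ)) y) : anExp γ a = y :=
  (hasLaurent_anExp γ a).unique (natCast_pos N) h

theorem anFn_add (a b : AnR ι N) : anFn (a + b) = anFn a + anFn b :=
  congrArg Subtype.val (map_add (anHom ι N) a b)

theorem anFn_mul (a b : AnR ι N) : anFn (a * b) = anFn a * anFn b :=
  congrArg Subtype.val (map_mul (anHom ι N) a b)

theorem anFn_one : anFn (1 : AnR ι N) = 1 :=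
  congrArg Subtype.val (map_one (anHom ι N))

theorem anFn_zero : anFn (0 : AnR ι N) = 0 :=
  congrArg Subtype.val (map_zero (anHom ι N))

variable (ι N) in
/-- expansions at the cusp `γ∞` as a ring homomorphism -/
def anExpHom (γ : SL(2, ℤ)) : AnR ι N →+* LaurentSeries ℂ where
  toFun a := anExp γ a
  map_one' := anExp_eq (by rw [anFn_one]; exact HasLaurent.const 1)
  map_mul' a b := anExp_eq (by
    rw [anFn_mul]; exact (hasLaurent_anExp γ a).mul (hasLaurent_anExp γ b))
  map_zero' := anExp_eq (by rw [anFn_zero]; exact HasLaurent.zero N)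
  map_add' a b := anExp_eq (by
    rw [anFn_add]; exact (hasLaurent_anExp γ a).add (hasLaurent_anExp γ b))

theorem anExpHom_injective (γ : SL(2, ℤ)) : Injective (anExpHom ι N γ) := by
  intro a b h
  have h2 := hasLaurent_anExp γ a
  have h3 : anExp γ a = anExp γ b := h
  rw [h3] at h2
  have h4 := h2.unique_fun (hasLaurent_anExp γ b)
  have h5 : anFn a = anFn b := by
    funext τ
    have := congrFun h4 (γ⁻¹ • τ)
    simpa using this
  exact anHom_injective (Subtype.ext h5)

section Field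

variable [Algebra ℚ L]

variable (L N) in
/-- the function field of `X₀(N)` over `L` -/
abbrev FF : IntermediateField L (LaurentSeries L) := laurentBaseChange L (modularFunctionFieldFull N)

variable (L N) in
omit [NeZero N] in
theorem FF_le_closure {x : LaurentSeries L} (hx : x ∈ FF L N) :
    x ∈ Subfield.closure (Set.range (algebraMap L (LaurentSeries L)) ∪
      coeffEmb L '' divisorExpansions N) := by
  rw [FF, mem_laurentBaseChange_iff] at hx
  refine (Subfield.closure_le.2 ?_) hx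
  rintro y (hy | ⟨z, hz, rfl⟩)
  · exact Subfield.subset_closure (Or.inl hy)
  · have hz' : z ∈ modularFunctionFieldFull N := hz
    rw [modularFunctionFieldFull] at hz'
    induction hz' using IntermediateField.adjoin_induction with
    | mem z hz' => exact Subfield.subset_closure (Or.inr ⟨z, hz', rfl⟩)
    | algebraMap c =>
      apply Subfield.subset_closure
      left
      refine ⟨algebraMap ℚ L c, ?_⟩
      rw [algebraMap_laurentSeries_eq_single, algebraMap_apply_eq_single, coeffEmb, coeffMap_single]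
    | add a b ha hb iha ihb => rw [map_add]; exact add_mem (iha ha) (ihb hb)
    | inv a ha iha => rw [map_inv₀]; exact inv_mem (iha ha)
    | mul a b ha hb iha ihb => rw [map_mul]; exact mul_mem (iha ha) (ihb hb)

omit [NeZero N] [Algebra ℚ L] in
theorem algebraMap_mem_anR (c : L) : algebraMap L (LaurentSeries L) c ∈ AnR ι N := by
  refine ⟨fun _ => ι c, ⟨mdifferentiable_const, fun γ => ⟨_, HasLaurent.const _⟩,
    fun γ hγ τ => rfl⟩, ?_⟩
  rw [algebraMap_laurentSeries_eq_single, coeffMap_single]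
  exact HasLaurent.const _

theorem coeffMap_coeffEmb_jd (d : ℕ) [NeZero d] :
    coeffMap ι (coeffEmb L (qExpand ℚ d jq)) = qExpand ℂ d (jqModC ℂ) := by
  rw [coeffEmb, coeffMap_coeffMap, ModularCurve.coeffMap_qExpand]
  congr 1
  exact map_jqModC _

theorem isAn_jd (d : ℕ) (hd : 0 < d) (hdN : d ∣ N) : IsAn N (jd d hd) :=
  ⟨mdiff_jd d hd, fun γ => hasLaurent_jd d hd N hdN γ, fun γ hγ τ => jd_smul d hd N hdN γ hγ τ⟩

theorem coeffEmb_jd_mem_anR (d : ℕ) [NeZero d] (hdN : d ∣ N) :
    coeffEmb L (qExpand ℚ d jq) ∈ AnR ι N := by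
  have hd : 0 < d := Nat.pos_of_ne_zero (NeZero.ne d)
  exact ⟨jd d hd, isAn_jd d hd hdN, by rw [coeffMap_coeffEmb_jd]; exact hasLaurent_jd_one d hd⟩

theorem exists_div (ι : L →+* ℂ) {x : LaurentSeries L} (hx : x ∈ FF L N) :
    ∃ a ∈ AnR ι N, ∃ b ∈ AnR ι N, a ∈ FF L N ∧ b ∈ FF L N ∧ x = a / b := by
  have h1 := FF_le_closure L N hx
  rw [Subfield.mem_closure_iff] at h1
  obtain ⟨a, ha, b, hb, rfl⟩ := h1
  have hS : Subring.closure (Set.range (algebraMap L (LaurentSeries L)) ∪
      coeffEmb L '' divisorExpansions N) ≤ AnR ι N := by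
    rw [Subring.closure_le]
    rintro y (⟨c, rfl⟩ | ⟨z, ⟨d, hd, hdN, rfl⟩, rfl⟩)
    · exact algebraMap_mem_anR c
    · exact coeffEmb_jd_mem_anR d hdN
  have hS' : Subring.closure (Set.range (algebraMap L (LaurentSeries L)) ∪
      coeffEmb L '' divisorExpansions N) ≤ (FF L N).toSubfield.toSubring := by
    rw [Subring.closure_le]
    rintro y (⟨c, rfl⟩ | ⟨z, ⟨d, hd, hdN, rfl⟩, rfl⟩)
    · exact (FF L N).algebraMap_mem c
    · exact coeffEmb_mem_laurentBaseChange L (jqd_mem_full N hdN)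
  exact ⟨a, hS ha, b, hS hb, hS' ha, hS' hb, rfl⟩

variable (ι N) in
/-- the subring of `FF L N` of analytic elements -/
def AF : Subring (FF L N) := (AnR ι N).comap (FF L N).toSubfield.subtype

omit [NeZero N] in
theorem mem_AF {x : FF L N} : x ∈ AF ι N ↔ (x : LaurentSeries L) ∈ AnR ι N := Iff.rfl

instance ffField : Field (FF L N) := IntermediateField.toField _

/-- shortcut instance -/
instance ffAlgebra : Algebra L (FF L N) := inferInstance

instance afAlgebra : Algebra (AF ι N) (FF L N) := (AF ι N).subtype.toAlgebra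

instance afFaithful : FaithfulSMul (AF ι N) (FF L N) :=
  (faithfulSMul_iff_algebraMap_injective _ _).2 Subtype.val_injective

instance afFrac : IsFractionRing (AF ι N) (FF L N) := by
  apply IsFractionRing.of_field
  intro z
  obtain ⟨a, ha, b, hb, ha', hb', h⟩ := exists_div ι z.2
  refine ⟨⟨⟨a, ha'⟩, ha⟩, ⟨⟨b, hb'⟩, hb⟩, ?_⟩
  apply Subtype.ext
  rw [h]
  rfl

variable (ι N) in
/-- inclusion of `AF` into `AnR` -/
def afToAnR : AF ι N →+* AnR ι N where
  toFun a := ⟨(a : FF L N), a.2⟩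
  map_one' := rfl
  map_mul' _ _ := rfl
  map_zero' := rfl
  map_add' _ _ := rfl

theorem afToAnR_injective : Injective (afToAnR ι N) := by
  intro a b h
  have h1 : ((afToAnR ι N a : AnR ι N) : LaurentSeries L) = (afToAnR ι N b : AnR ι N) :=
    congrArg Subtype.val h
  exact Subtype.ext (Subtype.ext h1)

variable (ι N) in
/-- The function field of `X₀(N)` embedded into meromorphic functions. -/
def toMer : FF L N →+* Mer :=
  IsFractionRing.lift (A := AF ι N) (K := FF L N)
    (g := (algebraMap Holo Mer).comp ((anHom ι N).comp (afToAnR ι N)))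
    ((IsFractionRing.injective Holo Mer).comp (anHom_injective.comp afToAnR_injective))

theorem toMer_coe (a : AF ι N) : toMer ι N (a : FF L N) = algebraMap Holo Mer
    (anHom ι N (afToAnR ι N a)) :=
  IsFractionRing.lift_algebraMap (A := AF ι N) (K := FF L N) _ a

theorem toMer_of_mem {x : FF L N} (f : Holo) (hf : IsAn N (f : ℍ → ℂ))
    (h : HasLaurent 1 (f : ℍ → ℂ) (coeffMap ι (x : LaurentSeries L))) :
    toMer ι N x = algebraMap Holo Mer f := by
  have hx : x ∈ AF ι N := ⟨f, hf, h⟩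
  have h1 := toMer_coe (ι := ι) (N := N) ⟨x, hx⟩
  have h2 : anHom ι N (afToAnR ι N ⟨x, hx⟩) = f := by
    apply Subtype.ext
    exact anFn_eq h
  rw [h2] at h1
  exact h1

variable (ι N) in
/-- The expansion at the cusp `γ∞` in `q_N`. -/
def cuspEmb (γ : SL(2, ℤ)) : FF L N →+* LaurentSeries ℂ :=
  IsFractionRing.lift (A := AF ι N) (K := FF L N)
    (g := (anExpHom ι N γ).comp (afToAnR ι N))
    ((anExpHom_injective γ).comp afToAnR_injective)

theorem cuspEmb_coe (γ : SL(2, ℤ)) (a : AF ι N) : cuspEmb ι N γ (a : FF L N) =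
    anExpHom ι N γ (afToAnR ι N a) :=
  IsFractionRing.lift_algebraMap (A := AF ι N) (K := FF L N) _ a

theorem cuspEmb_of_mem (γ : SL(2, ℤ)) {x : FF L N} {f : ℍ → ℂ} (hf : IsAn N f)
    (h : HasLaurent 1 f (coeffMap ι (x : LaurentSeries L))) {y : LaurentSeries ℂ}
    (hy : HasLaurent N (fun τ => f (γ • τ)) y) :
    cuspEmb ι N γ x = y := by
  have hx : x ∈ AF ι N := ⟨f, hf, h⟩
  have h1 := cuspEmb_coe (ι := ι) (N := N) γ ⟨x, hx⟩
  have h3 : anFn (afToAnR ι N ⟨x, hx⟩) = f := anFn_eq h
  have h2 : anExpHom ι N γ (afToAnR ι N ⟨x, hx⟩) = y := by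
    apply anExp_eq
    rw [h3]
    exact hy
  rw [h2] at h1
  exact h1

end Field

end Fermat.Agent.X0Places
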