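import Fermat.Agent.X0Places.Laurent
import Fermat.Agent.ModPoly.Twist

/-!
# Laurent `q`-expansions as two-sided sums, substitution
-/

set_option autoImplicit false

open UpperHalfPlane Function Complex ModularCurve

namespace Fermat.Agent.X0Places

open Function.Periodic (qParam)

theorem qParam_ne_zero' (h : ℝ) (τ : ℂ) : qParam h τ ≠ 0 := Complex.exp_ne_zero _

theorem hasLaurent_iff {h : ℝ} {f : ℍ → ℂ} {x : LaurentSeries ℂ} :
    HasLaurent h f x ↔ ∀ τ : ℍ, HasSum (fun k : ℤ => x.coeff k * qParam h τ ^ k) (f τ) := by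
  constructor
  · rintro ⟨m, P, h1, h2⟩ τ
    have hq : qParam h (τ : ℂ) ≠ 0 := qParam_ne_zero' h τ
    have hcoef : ∀ k : ℤ, (HahnSeries.ofPowerSeries ℤ ℂ P).coeff k = x.coeff (k - m) := by
      intro k
      rw [← h1, HahnSeries.coeff_single_mul, one_mul]
    let g : ℕ → ℤ := fun n => (n : ℤ) - m
    have hg : Injective g := fun a b hab => by
      have : (a : ℤ) - m = b - m := hab
      omega
    have h0 : ∀ k : ℤ, k ∉ Set.range g → x.coeff k * qParam h τ ^ k = 0 := by
      intro k hk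
      have hk' : k + m < 0 := by
        by_contra hcon
        push Not at hcon
        apply hk
        refine ⟨(k + m).toNat, ?_⟩
        show (((k + m).toNat : ℕ) : ℤ) - m = k
        rw [Int.toNat_of_nonneg hcon]; ring
      have h3 := hcoef (k + m)
      rw [ofPowerSeries_coeff_of_neg _ hk', add_sub_cancel_right] at h3
      rw [← h3, zero_mul]
    rw [← hg.hasSum_iff h0]
    have h4 := (h2 τ).mul_left ((qParam h τ ^ m)⁻¹)
    have h5 : (qParam h (τ : ℂ) ^ m)⁻¹ * (qParam h τ ^ m * f τ) = f τ := by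
      field_simp
    simp only at h4
    rw [h5] at h4
    refine h4.congr_fun ?_ |> fun h => h
    intro n
    have h6 := hcoef n
    rw [HahnSeries.ofPowerSeries_apply_coeff] at h6
    show x.coeff ((n : ℤ) - m) * qParam h τ ^ ((n : ℤ) - m) = _
    rw [← h6, zpow_sub₀ hq, zpow_natCast, zpow_natCast]
    field_simp
  · intro hf
    obtain ⟨m, hm⟩ : ∃ m : ℕ, ∀ k : ℤ, k < -(m : ℤ) → x.coeff k = 0 := by
      rcases eq_or_ne x 0 with rfl | hx
      · exact ⟨0, fun k _ => by simp⟩
      · refine ⟨x.order.natAbs, fun k hk => HahnSeries.coeff_eq_zero_of_lt_order ?_⟩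
        have := neg_abs_le x.order
        omega
    refine ⟨m, PowerSeries.mk fun n => x.coeff ((n : ℤ) - m), ?_, ?_⟩
    · ext k
      rw [HahnSeries.coeff_single_mul, one_mul]
      rcases lt_or_ge k 0 with hk | hk
      · rw [ofPowerSeries_coeff_of_neg _ hk]
        exact hm _ (by omega)
      · lift k to ℕ using hk
        rw [HahnSeries.ofPowerSeries_apply_coeff, PowerSeries.coeff_mk]
    · intro τ
      have hq : qParam h (τ : ℂ) ≠ 0 := qParam_ne_zero' h τ
      let g : ℕ → ℤ := fun n => (n : ℤ) - m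
      have hg : Injective g := fun a b hab => by
        have : (a : ℤ) - m = b - m := hab
        omega
      have h0 : ∀ k : ℤ, k ∉ Set.range g → x.coeff k * qParam h τ ^ k = 0 := by
        intro k hk
        have hk' : k < -(m : ℤ) := by
          by_contra hcon
          push Not at hcon
          apply hk
          refine ⟨(k + m).toNat, ?_⟩
          show (((k + m).toNat : ℕ) : ℤ) - m = k
          rw [Int.toNat_of_nonneg (by omega)]; ring
        rw [hm k hk', zero_mul]
      have h1 := hf τ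
      rw [← hg.hasSum_iff h0] at h1
      have h2 := h1.mul_left (qParam h τ ^ m)
      refine h2.congr_fun ?_ |> fun h => h
      intro n
      rw [PowerSeries.coeff_mk]
      show _ = qParam h τ ^ m * (x.coeff ((n : ℤ) - m) * qParam h τ ^ ((n : ℤ) - m))
      rw [zpow_sub₀ hq, zpow_natCast, zpow_natCast]
      field_simp

/-- Substitution: if `q_h ∘ u = ζ q_{h'}^M` then the expansion of `f ∘ u` in `q_{h'}` is
obtained from that of `f` in `q_h` by `q ↦ ζ q^M`. -/
theorem HasLaurent.subst {h h' : ℝ} {f : ℍ → ℂ} {x : LaurentSeries ℂ} (hf : HasLaurent h f x)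
    (u : ℍ → ℍ) (ζ : ℂˣ) (M : ℕ) [NeZero M]
    (hu : ∀ τ : ℍ, qParam h (u τ) = ζ * qParam h' τ ^ M) :
    HasLaurent h' (f ∘ u) (qExpand ℂ M (Fermat.Agent.ModPoly.twist ζ x)) := by
  rw [hasLaurent_iff] at hf ⊢
  intro τ
  have hM : (M : ℤ) ≠ 0 := by exact_mod_cast NeZero.ne M
  let g : ℤ → ℤ := fun n => (M : ℤ) * n
  have hg : Injective g := fun a b hab => mul_left_cancel₀ hM hab
  have h0 : ∀ k : ℤ, k ∉ Set.range g →
      (qExpand ℂ M (Fermat.Agent.ModPoly.twist ζ x)).coeff k * qParam h' τ ^ k = 0 := by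
    intro k hk
    rw [qExpand_coeff_of_not_dvd, zero_mul]
    rintro ⟨c, rfl⟩
    exact hk ⟨c, rfl⟩
  rw [← hg.hasSum_iff h0]
  refine (hf (u τ)).congr_fun ?_ |> fun h => h
  intro n
  show (qExpand ℂ M (Fermat.Agent.ModPoly.twist ζ x)).coeff ((M : ℤ) * n) *
    qParam h' τ ^ ((M : ℤ) * n) = _
  rw [qExpand_coeff_mul, Fermat.Agent.ModPoly.twist_coeff, hu τ, mul_zpow, zpow_mul, zpow_natCast,
    Units.val_zpow_eq_zpow_val]
  ring

theorem qParam_mul_width {h : ℝ} (hh : h ≠ 0) (M : ℕ) [NeZero M] (τ : ℂ) :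
    qParam (M * h) τ ^ M = qParam h τ := by
  simp only [qParam, ← Complex.exp_nat_mul]
  congr 1
  have : (M : ℂ) ≠ 0 := by exact_mod_cast NeZero.ne M
  have : (h : ℂ) ≠ 0 := by exact_mod_cast hh
  push_cast
  field_simp

end Fermat.Agent.X0Places
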