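import Fermat.Agent.X0Places.Cosets
import Fermat.Prelude.Thm_ModularCurve_coeff_jqModC_pow_self
import Fermat.Prelude.Thm_ModularCurve_coeff_jqModC_pow_of_lt

/-!
# Level one modular functions are polynomials in `j`
-/

set_option autoImplicit false

noncomputable section

open UpperHalfPlane Function ModularCurve Filter ModularForm
open scoped Manifold MatrixGroups Topology ModularForm

namespace Fermat.Agent.X0Places

open Fermat.Agent.JInv (jInv jInv_smul)

theorem HasLaurent.bounded {h : ℝ} (hh : 0 < h) {f : ℍ → ℂ} {x : LaurentSeries ℂ}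
    (hf : HasLaurent h f x) (hx : ∀ k < 0, x.coeff k = 0) : IsBoundedAtImInfty f := by
  have h1 : HasQExp h f (PowerSeries.mk fun n => x.coeff n) := by
    intro τ
    rw [hasLaurent_iff] at hf
    have hinj : Injective (fun n : ℕ => (n : ℤ)) := Nat.cast_injective
    have h2 := hf τ
    rw [← hinj.hasSum_iff] at h2
    · refine h2.congr_fun ?_ |> fun h => h
      intro m
      simp
    · intro k hk
      have hk' : k < 0 := by
        by_contra hcon
        push Not at hcon
        exact hk ⟨k.toNat, Int.toNat_of_nonneg hcon⟩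
      rw [hx k hk', zero_mul]
  exact h1.bounded hh

theorem levelOne_const {f : ℍ → ℂ} (hf : MDiff f) (hinv : ∀ (γ : SL(2, ℤ)) τ, f (γ • τ) = f τ)
    (hb : IsBoundedAtImInfty f) : ∃ c, ∀ τ, f τ = c := by
  have hslash : ∀ γ : SL(2, ℤ), f ∣[(0 : ℤ)] γ = f := by
    intro γ
    funext τ
    rw [ModularForm.SL_slash_apply, hinv]
    simp
  let F : ModularForm 𝒮ℒ 0 :=
    { toFun := f
      slash_action_eq' := fun _ ⟨γ, hγ⟩ ↦ hγ ▸ hslash γ
      holo' := hf
      bdd_at_cusps' := by
        intro c hc
        rw [Subgroup.IsArithmetic.isCusp_iff_isCusp_SL2Z] at hc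
        rw [OnePoint.isBoundedAt_iff_forall_SL2Z hc]
        intro γ _
        rw [hslash γ]
        exact hb }
  obtain ⟨c, hc⟩ := ModularFormClass.levelOne_weight_zero_const (F := ModularForm 𝒮ℒ (0 : ℤ)) F
  exact ⟨c, fun z => congr_fun hc z⟩

theorem levelOne_poly_aux (m : ℕ) : ∀ (f : ℍ → ℂ) (x : LaurentSeries ℂ), MDiff f →
    (∀ (γ : SL(2, ℤ)) τ, f (γ • τ) = f τ) → HasLaurent 1 f x → (∀ k < -(m : ℤ), x.coeff k = 0) →
    ∃ P : Polynomial ℂ, ∀ τ, f τ = P.eval (jInv τ) := by
  induction m with
  | zero =>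
    intro f x hf hinv hx h0
    obtain ⟨c, hc⟩ := levelOne_const hf hinv (hx.bounded one_pos (fun k hk => h0 k (by simpa using hk)))
    exact ⟨Polynomial.C c, fun τ => by rw [hc, Polynomial.eval_C]⟩
  | succ m ih =>
    intro f x hf hinv hx h0
    set c := x.coeff (-((m + 1 : ℕ) : ℤ)) with hc
    have hj : HasLaurent 1 (jInv ^ (m + 1)) (jqModC ℂ ^ (m + 1)) := by
      have : ∀ n : ℕ, HasLaurent 1 (jInv ^ n) (jqModC ℂ ^ n) := by
        intro n
        induction n with
        | zero =>
          rw [pow_zero, pow_zero]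
          have := HasLaurent.const (h := 1) 1
          rw [map_one] at this
          exact this
        | succ n ihn => rw [pow_succ, pow_succ]; exact ihn.mul hasLaurent_jInv
      exact this _
    have h1 := hx.add ((HasLaurent.const (h := 1) c).mul hj).neg
    have hm : MDiff (jInv ^ (m + 1)) := by
      have := (jHolo ^ (m + 1)).2
      exact this
    obtain ⟨P, hP⟩ := ih (f + -((fun _ => c) * jInv ^ (m + 1))) _ (by
        apply hf.add
        apply MDifferentiable.neg
        exact (mdifferentiable_const).mul hm) (by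
        intro γ τ
        simp only [Pi.add_apply, Pi.neg_apply, Pi.mul_apply, Pi.pow_apply, hinv, jInv_smul]) h1 (by
        intro k hk
        have h2 : (HahnSeries.C c * jqModC ℂ ^ (m + 1)).coeff k = c * (jqModC ℂ ^ (m + 1)).coeff k := by
          rw [HahnSeries.C_mul_eq_smul, HahnSeries.coeff_smul, smul_eq_mul]
        rw [HahnSeries.coeff_add, HahnSeries.coeff_neg, h2]
        rcases eq_or_ne k (-((m + 1 : ℕ) : ℤ)) with h3 | h3
        · rw [h3, coeff_jqModC_pow_self]
          rw [← hc]; ring
        · have h4 : k < -((m + 1 : ℕ) : ℤ) := by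
            push_cast at h3 ⊢
            omega
          rw [h0 k h4, coeff_jqModC_pow_of_lt (K := ℂ) h4]
          ring)
    refine ⟨P + Polynomial.C c * Polynomial.X ^ (m + 1), fun τ => ?_⟩
    have := hP τ
    simp only [Pi.add_apply, Pi.neg_apply, Pi.mul_apply, Pi.pow_apply] at this
    rw [Polynomial.eval_add, Polynomial.eval_mul, Polynomial.eval_C, Polynomial.eval_pow,
      Polynomial.eval_X, ← this]
    ring

/-- A holomorphic `SL₂(ℤ)`-invariant function on the upper half plane, meromorphic at infinity,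
is a polynomial in `j`. -/
theorem levelOne_poly {f : ℍ → ℂ} {x : LaurentSeries ℂ} (hf : MDiff f)
    (hinv : ∀ (γ : SL(2, ℤ)) τ, f (γ • τ) = f τ) (hx : HasLaurent 1 f x) :
    ∃ P : Polynomial ℂ, ∀ τ, f τ = P.eval (jInv τ) := by
  obtain ⟨m, hm⟩ : ∃ m : ℕ, ∀ k : ℤ, k < -(m : ℤ) → x.coeff k = 0 := by
    rcases eq_or_ne x 0 with rfl | hx
    · exact ⟨0, fun k _ => by simp⟩
    · refine ⟨x.order.natAbs, fun k hk => HahnSeries.coeff_eq_zero_of_lt_order ?_⟩
      have := neg_abs_le x.order
      omega
  exact levelOne_poly_aux m f x hf hinv hx hm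

end Fermat.Agent.X0Places
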