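import Fermat.Agent.X0Places.WidthOne
import Fermat.Agent.X0Places.Points

/-!
# The characteristic polynomial of a modular function over `ℂ(j)`
-/

set_option autoImplicit false
set_option linter.unusedSectionVars false
set_option linter.style.haveILetI false
set_option linter.unusedVariables false

noncomputable section

open UpperHalfPlane Function ModularCurve Filter ModularForm CongruenceSubgroup
open scoped Manifold MatrixGroups Topology ModularForm Polynomial

namespace Fermat.Agent.X0Places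

open Fermat.Agent.JInv (jInv jInv_smul)

variable (N : ℕ)

/-- `Γ₀(N)`-invariant holomorphic functions with expansions at the cusps, inside `Holo` -/
def AnHolo : Subring Holo := (AnFun N).comap Holo.subtype

variable {N}

theorem mem_AnHolo {f : Holo} : f ∈ AnHolo N ↔ IsAn N (f : ℍ → ℂ) := Iff.rfl

/-- the translate of an invariant function by a coset -/
def cosetFn (a : AnHolo N) (c : XN N) : Holo :=
  Quotient.liftOn' c (fun g => compHolo g⁻¹ (a : Holo)) (by
    intro g h hgh
    have h1 : g⁻¹ * h ∈ Gamma0 N := QuotientGroup.leftRel_apply.1 hgh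
    have h2 : h⁻¹ = (g⁻¹ * h)⁻¹ * g⁻¹ := by group
    apply Subtype.ext
    funext τ
    show (a : Holo).1 (g⁻¹ • τ) = (a : Holo).1 (h⁻¹ • τ)
    rw [h2, mul_smul]
    exact (a.2.inv _ (inv_mem h1) _).symm)

theorem cosetFn_mk (a : AnHolo N) (g : SL(2, ℤ)) :
    cosetFn a (g : XN N) = compHolo g⁻¹ (a : Holo) := rfl

theorem cosetFn_smul (a : AnHolo N) (g : SL(2, ℤ)) (c : XN N) :
    cosetFn a (g • c) = compHolo g⁻¹ (cosetFn a c) := by
  induction c using QuotientGroup.induction_on with
  | H h =>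
    show cosetFn a ((g * h : SL(2, ℤ)) : XN N) = _
    rw [cosetFn_mk, cosetFn_mk]
    apply Subtype.ext
    funext τ
    show (a : Holo).1 ((g * h)⁻¹ • τ) = (a : Holo).1 (h⁻¹ • g⁻¹ • τ)
    rw [mul_inv_rev, mul_smul]

theorem cosetFn_one (a : AnHolo N) : cosetFn a ((1 : SL(2, ℤ)) : XN N) = a := by
  rw [cosetFn_mk]
  apply Subtype.ext
  funext τ
  show (a : Holo).1 ((1 : SL(2, ℤ))⁻¹ • τ) = (a : Holo).1 τ
  rw [inv_one, one_smul]

variable (N) in
/-- holomorphic functions with a `q_N` expansion -/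
def WHolo : Subring Holo where
  carrier := {f | ∃ x, HasLaurent N (f : ℍ → ℂ) x}
  mul_mem' := by
    rintro a b ⟨x, hx⟩ ⟨y, hy⟩
    exact ⟨_, hx.mul hy⟩
  one_mem' := ⟨_, HasLaurent.const 1⟩
  add_mem' := by
    rintro a b ⟨x, hx⟩ ⟨y, hy⟩
    exact ⟨_, hx.add hy⟩
  zero_mem' := ⟨_, HasLaurent.const 0⟩
  neg_mem' := by
    rintro a ⟨x, hx⟩
    exact ⟨_, hx.neg⟩

theorem cosetFn_mem (a : AnHolo N) (c : XN N) : cosetFn a c ∈ WHolo N := by
  induction c using QuotientGroup.induction_on with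
  | H h => exact a.2.exp h⁻¹

theorem compHolo_cosetFn_inv (a : AnHolo N) (g : SL(2, ℤ)) (c : XN N) :
    compHolo g (cosetFn a c) = cosetFn a (g⁻¹ • c) := by
  rw [cosetFn_smul, inv_inv]

variable [NeZero N]

/-- the product over all cosets of `b_c X - a_c` -/
def normPoly (a b : AnHolo N) : Holo[X] :=
  letI := Fintype.ofFinite (XN N)
  ∏ c : XN N, (Polynomial.C (cosetFn b c) * Polynomial.X - Polynomial.C (cosetFn a c))

theorem normPoly_coeff_mem (a b : AnHolo N) (i : ℕ) : (normPoly a b).coeff i ∈ WHolo N := by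
  letI := Fintype.ofFinite (XN N)
  set Q : (WHolo N)[X] := ∏ c : XN N, (Polynomial.C (⟨cosetFn b c, cosetFn_mem b c⟩ : WHolo N) *
    Polynomial.X - Polynomial.C (⟨cosetFn a c, cosetFn_mem a c⟩ : WHolo N)) with hQ
  have h : normPoly a b = Q.map (WHolo N).subtype := by
    rw [hQ, Polynomial.map_prod, normPoly]
    apply Finset.prod_congr rfl
    intro c _
    simp
  rw [h, Polynomial.coeff_map]
  exact (Q.coeff i).2

theorem normPoly_map (a b : AnHolo N) (g : SL(2, ℤ)) :
    (normPoly a b).map (compHolo g) = normPoly a b := by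
  letI := Fintype.ofFinite (XN N)
  rw [normPoly, Polynomial.map_prod]
  have h : ∀ c : XN N, (Polynomial.C (cosetFn b c) * Polynomial.X -
      Polynomial.C (cosetFn a c)).map (compHolo g) =
      Polynomial.C (cosetFn b (g⁻¹ • c)) * Polynomial.X - Polynomial.C (cosetFn a (g⁻¹ • c)) := by
    intro c
    simp only [Polynomial.map_sub, Polynomial.map_mul, Polynomial.map_C, Polynomial.map_X]
    rw [compHolo_cosetFn_inv, compHolo_cosetFn_inv]
  rw [Finset.prod_congr rfl fun c _ => h c]
  exact Equiv.prod_comp (MulAction.toPerm g⁻¹ : Equiv.Perm (XN N))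
    (fun c : XN N => (Polynomial.C (cosetFn b c) * Polynomial.X - Polynomial.C (cosetFn a c)))

/-- the coefficients are polynomials in `j` -/
theorem normPoly_coeff (a b : AnHolo N) (i : ℕ) :
    ∃ P : ℂ[X], ∀ τ, ((normPoly a b).coeff i : ℍ → ℂ) τ = P.eval (jInv τ) := by
  have hinv : ∀ (γ : SL(2, ℤ)) τ, ((normPoly a b).coeff i : ℍ → ℂ) (γ • τ) =
      ((normPoly a b).coeff i : ℍ → ℂ) τ := by
    intro γ τ
    have h := congrArg (fun Q : Holo[X] => (Q.coeff i : ℍ → ℂ) τ) (normPoly_map a b γ)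
    simp only [Polynomial.coeff_map] at h
    exact h
  obtain ⟨x, hx⟩ := normPoly_coeff_mem a b i
  obtain ⟨y, hy⟩ := hasLaurent_one_of_T hx (fun τ => hinv _ τ)
  exact levelOne_poly (mem_holo.1 ((normPoly a b).coeff i).2) hinv hy

theorem cosetFn_ne_zero {b : AnHolo N} (hb : b ≠ 0) (c : XN N) : cosetFn b c ≠ 0 := by
  induction c using QuotientGroup.induction_on with
  | H h =>
    intro h0
    apply hb
    apply Subtype.ext
    exact compHolo_injective h⁻¹ (h0.trans (map_zero _).symm)

theorem normPoly_ne_zero (a : AnHolo N) {b : AnHolo N} (hb : b ≠ 0) : normPoly a b ≠ 0 := by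
  letI := Fintype.ofFinite (XN N)
  rw [normPoly, Finset.prod_ne_zero_iff]
  intro c _ h
  have h1 := congrArg (fun Q => Q.coeff 1) h
  simp at h1
  exact cosetFn_ne_zero hb c (by exact_mod_cast h1)

theorem natDegree_normPoly_le (a b : AnHolo N) : (normPoly a b).natDegree ≤ Nat.card (XN N) := by
  letI := Fintype.ofFinite (XN N)
  rw [normPoly]
  refine (Polynomial.natDegree_prod_le _ _).trans ?_
  rw [Nat.card_eq_fintype_card, ← Finset.card_univ, Finset.card_eq_sum_ones]
  apply Finset.sum_le_sum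
  intro c _
  compute_degree

/-- the field `ℂ(j)` inside the field of meromorphic functions -/
def Kj : Subfield Mer :=
  Subfield.closure (Set.range (fun c : ℂ => algebraMap Holo Mer (constHolo c)) ∪
    {algebraMap Holo Mer jHolo})

theorem const_mem_Kj (c : ℂ) : algebraMap Holo Mer (constHolo c) ∈ Kj :=
  Subfield.subset_closure (Or.inl ⟨c, rfl⟩)

theorem j_mem_Kj : algebraMap Holo Mer jHolo ∈ Kj :=
  Subfield.subset_closure (Or.inr rfl)

/-- constants as a ring homomorphism -/
def constHom : ℂ →+* Holo where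
  toFun := constHolo
  map_one' := rfl
  map_mul' _ _ := rfl
  map_zero' := rfl
  map_add' _ _ := rfl

theorem poly_j_mem_Kj {f : Holo} (P : ℂ[X]) (h : ∀ τ, (f : ℍ → ℂ) τ = P.eval (jInv τ)) :
    algebraMap Holo Mer f ∈ Kj := by
  have h1 : f = P.eval₂ constHom jHolo := by
    have h2 : ∀ τ, ((P.eval₂ constHom jHolo : Holo) : ℍ → ℂ) τ = P.eval (jInv τ) := by
      intro τ
      let ev : Holo →+* ℂ := (Pi.evalRingHom (fun _ : ℍ => ℂ) τ).comp Holo.subtype
      have h3 := Polynomial.hom_eval₂ P constHom ev jHolo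
      have h4 : ev.comp constHom = RingHom.id ℂ := by
        ext c; rfl
      rw [h4] at h3
      exact h3
    apply Subtype.ext
    funext τ
    rw [h, h2]
  rw [h1, Polynomial.eval₂_eq_sum, Polynomial.sum, map_sum]
  apply sum_mem
  intro i _
  rw [map_mul, map_pow]
  exact mul_mem (const_mem_Kj _) (pow_mem j_mem_Kj _)

/-- the field of modular functions of level `N` (fractions of holomorphic ones) -/
def KAn (N : ℕ) : Subfield Mer := Subfield.closure ((AnHolo N).map (algebraMap Holo Mer) : Set Mer)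

theorem mem_KAn {y : Mer} (hy : y ∈ KAn N) :
    ∃ a b : AnHolo N, y = algebraMap Holo Mer (a : Holo) / algebraMap Holo Mer (b : Holo) := by
  rw [KAn, Subfield.mem_closure_iff] at hy
  obtain ⟨a', ha, b', hb, rfl⟩ := hy
  rw [Subring.closure_eq] at ha hb
  obtain ⟨a, ha, rfl⟩ := ha
  obtain ⟨b, hb, rfl⟩ := hb
  exact ⟨⟨a, ha⟩, ⟨b, hb⟩, rfl⟩

theorem anHolo_mem_KAn (a : AnHolo N) : algebraMap Holo Mer (a : Holo) ∈ KAn N :=
  Subfield.subset_closure ⟨a, a.2, rfl⟩

theorem constHolo_mem (c : ℂ) : constHolo c ∈ AnHolo N :=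
  ⟨mdifferentiable_const, fun γ => ⟨_, HasLaurent.const _⟩, fun γ hγ τ => rfl⟩

theorem jHolo_mem : jHolo ∈ AnHolo N := isAn_jInv N

theorem Kj_le_KAn : Kj ≤ KAn N := by
  rw [Kj, Subfield.closure_le]
  rintro x (⟨c, rfl⟩ | rfl)
  · exact anHolo_mem_KAn ⟨_, constHolo_mem c⟩
  · exact anHolo_mem_KAn ⟨_, jHolo_mem⟩

/-- Every modular function of level `N` has degree at most the index over `ℂ(j)`. -/
theorem exists_poly_of_mem_KAn {y : Mer} (hy : y ∈ KAn N) :
    ∃ Q : Kj[X], Q ≠ 0 ∧ Q.natDegree ≤ Nat.card (XN N) ∧ Polynomial.aeval y Q = 0 := by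
  obtain ⟨a, b, hab⟩ := mem_KAn hy
  by_cases hb : b = 0
  · refine ⟨Polynomial.X, Polynomial.X_ne_zero, ?_, ?_⟩
    · rw [Polynomial.natDegree_X]
      exact Nat.one_le_iff_ne_zero.2 Nat.card_pos.ne'
    · rw [Polynomial.aeval_X, hab, hb]
      simp
  have hb' : algebraMap Holo Mer (b : Holo) ≠ 0 := by
    rw [map_ne_zero_iff _ (IsFractionRing.injective Holo Mer)]
    exact fun h => hb (Subtype.ext h)
  set R : Mer[X] := (normPoly a b).map (algebraMap Holo Mer) with hR
  have hlift : R ∈ Polynomial.lifts (algebraMap Kj Mer) := by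
    rw [Polynomial.lifts_iff_coeff_lifts]
    intro i
    obtain ⟨P, hP⟩ := normPoly_coeff a b i
    rw [hR, Polynomial.coeff_map]
    exact ⟨⟨_, poly_j_mem_Kj P hP⟩, rfl⟩
  obtain ⟨Q, hQ⟩ := (Polynomial.mem_lifts R).1 hlift
  have hinj : Injective (algebraMap Kj Mer) := (algebraMap Kj Mer).injective
  refine ⟨Q, ?_, ?_, ?_⟩
  · rintro rfl
    rw [Polynomial.map_zero] at hQ
    have h1 : normPoly a b = 0 := by
      apply Polynomial.map_injective _ (IsFractionRing.injective Holo Mer)
      rw [← hR, ← hQ, Polynomial.map_zero]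
    exact normPoly_ne_zero a hb h1
  · rw [← Polynomial.natDegree_map_eq_of_injective hinj, hQ, hR]
    exact (Polynomial.natDegree_map_le).trans (natDegree_normPoly_le a b)
  · rw [Polynomial.aeval_def, Polynomial.eval₂_eq_eval_map, hQ, hR]
    letI := Fintype.ofFinite (XN N)
    rw [normPoly, Polynomial.map_prod, Polynomial.eval_prod]
    apply Finset.prod_eq_zero (Finset.mem_univ ((1 : SL(2, ℤ)) : XN N))
    rw [cosetFn_one, cosetFn_one, Polynomial.map_sub, Polynomial.map_mul, Polynomial.map_C,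
      Polynomial.map_C, Polynomial.map_X, Polynomial.eval_sub, Polynomial.eval_mul,
      Polynomial.eval_C, Polynomial.eval_C, Polynomial.eval_X, hab]
    field_simp
    ring

end Fermat.Agent.X0Places
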