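import Fermat.Agent.X0Places.LevelOne
import Fermat.Agent.X0Places.Cusps

/-!
# From width `N` to width one expansions
-/

set_option autoImplicit false

noncomputable section

open UpperHalfPlane Function ModularCurve Filter ModularForm
open scoped Manifold MatrixGroups Topology ModularForm

namespace Fermat.Agent.X0Places

open Function.Periodic (qParam)

/-- a `T`-invariant function with a `q_N`-expansion has a `q`-expansion -/
theorem hasLaurent_one_of_T {N : ℕ} [NeZero N] {f : ℍ → ℂ} {x : LaurentSeries ℂ}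
    (hf : HasLaurent N f x) (hT : ∀ τ : ℍ, f (ModularGroup.T • τ) = f τ) :
    ∃ y, HasLaurent 1 f y := by
  have hN : 0 < N := Nat.pos_of_ne_zero (NeZero.ne N)
  obtain ⟨m, -, hm⟩ := hf.exists_ge 0
  obtain ⟨P, -, hP⟩ := hm (N * m - m)
  have hNm : m + (N * m - m) = N * m := by
    have : m ≤ N * m := Nat.le_mul_of_pos_left m hN
    omega
  rw [hNm] at hP
  have hq : ∀ τ : ℍ, qParam N τ ^ N = qParam 1 τ := by
    intro τ
    have := qParam_mul_width (h := 1) one_ne_zero N (τ : ℂ)
    rwa [mul_one] at this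
  have hT1 : ∀ τ : ℍ, qParam 1 ((ModularGroup.T • τ : ℍ) : ℂ) = qParam 1 τ := by
    intro τ
    have h1 := qParam_T_zpow 1 1 τ
    rw [zpow_one, zpow_one] at h1
    rw [Nat.cast_one] at h1
    rw [h1, zetaN, Units.val_mk0, Nat.cast_one, div_one, Complex.exp_two_pi_mul_I, one_mul]
  have hF : (fun τ : ℍ => qParam N τ ^ (N * m) * f τ) = fun τ : ℍ => qParam 1 τ ^ m * f τ := by
    funext τ
    rw [pow_mul, hq]
  rw [hF] at hP
  -- twisted expansion
  have hP' : HasQExp N (fun τ : ℍ => qParam 1 τ ^ m * f τ)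
      (PowerSeries.mk fun j => ((zetaN N ^ j : ℂˣ) : ℂ) * P.coeff j) := by
    intro τ
    have h1 := hP (ModularGroup.T • τ)
    have h2 := qParam_T_zpow N 1 τ
    rw [zpow_one, zpow_one] at h2
    simp only [hT1, hT] at h1
    refine h1.congr_fun ?_ |> fun h => h
    intro j
    rw [PowerSeries.coeff_mk, h2, mul_pow, Units.val_pow_eq_pow_val]
    ring
  have hPP := hP.unique (natCast_pos N) hP'
  have hzero : ∀ j : ℕ, ¬ N ∣ j → P.coeff j = 0 := by
    intro j hj
    by_contra hne
    have h1 := congrArg (PowerSeries.coeff j) hPP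
    rw [PowerSeries.coeff_mk] at h1
    have h2 : ((zetaN N ^ j : ℂˣ) : ℂ) = 1 := by
      apply mul_right_cancel₀ hne
      rw [← h1, one_mul]
    have h3 : zetaN N ^ j = 1 := Units.val_eq_one.1 h2
    rw [← orderOf_dvd_iff_pow_eq_one, orderOf_zetaN] at h3
    exact hj h3
  refine ⟨HahnSeries.single (-(m : ℤ)) 1 *
    HahnSeries.ofPowerSeries ℤ ℂ (PowerSeries.mk fun n => P.coeff (N * n)), m,
    PowerSeries.mk fun n => P.coeff (N * n), ?_, ?_⟩
  · rw [← mul_assoc, HahnSeries.single_mul_single]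
    simp
  · intro τ
    have h1 := hP τ
    have hinj : Injective (fun n : ℕ => N * n) := fun a b hab =>
      Nat.eq_of_mul_eq_mul_left hN hab
    rw [← hinj.hasSum_iff] at h1
    · refine h1.congr_fun ?_ |> fun h => h
      intro n
      rw [PowerSeries.coeff_mk, comp_apply, pow_mul, hq]
    · intro j hj
      rw [hzero j, zero_mul]
      rintro ⟨k, rfl⟩
      exact hj ⟨k, rfl⟩

end Fermat.Agent.X0Places
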